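import Mathlib

/-!
# An element central on a stable part of a module with a two dimensional system of relations

If `σ` commutes on a stable part with a group acting by the relations of a representation with full
image, and squares there to `t²` with `det σ = t`, then `t = 1` and `σ` is a scalar.
-/

set_option autoImplicit false

namespace FLTAgent.Lowering.P7

variable {p : ℕ} [Fact p.Prime] {Γ : Type*} [Group Γ]

local notation "MM" => Matrix (Fin 2) (Fin 2) (ZMod p)

variable (ρ : Γ →* GL (Fin 2) (ZMod p))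

theorem det_rep_ne (g : Γ) : Matrix.det (ρ g : MM) ≠ 0 := by
  intro h
  have h1 := congrArg Matrix.det (ρ g).mul_inv
  rw [Matrix.det_mul, h, zero_mul, Matrix.det_one] at h1
  exact zero_ne_one h1

theorem det_commutator_rep (g h : Γ) : Matrix.det (ρ (g * h * g⁻¹ * h⁻¹) : MM) = 1 := by
  simp only [map_mul, map_inv, Units.val_mul, Matrix.det_mul]
  have hg := congrArg Matrix.det (ρ g).mul_inv
  have hh := congrArg Matrix.det (ρ h).mul_inv
  rw [Matrix.det_mul, Matrix.det_one] at hg hh
  linear_combination (Matrix.det (ρ h : MM) * Matrix.det (((ρ h)⁻¹ : GL (Fin 2) (ZMod p)) : MM)) * hg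
    + hh

/-- Some commutator has trace three. -/
theorem exists_trace_commutator (hsurj : Function.Surjective ρ) :
    ∃ g h : Γ, Matrix.trace (ρ (g * h * g⁻¹ * h⁻¹) : MM) = 3 := by
  let u : GL (Fin 2) (ZMod p) :=
    ⟨!![1, 1; 0, 1], !![1, -1; 0, 1], by simp [Matrix.one_fin_two], by simp [Matrix.one_fin_two]⟩
  let w : GL (Fin 2) (ZMod p) :=
    ⟨!![1, 0; 1, 1], !![1, 0; -1, 1], by simp [Matrix.one_fin_two], by simp [Matrix.one_fin_two]⟩
  obtain ⟨g, hg⟩ := hsurj u
  obtain ⟨h, hh⟩ := hsurj w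
  refine ⟨g, h, ?_⟩
  simp only [map_mul, map_inv, hg, hh, Units.val_mul, u, w, Units.inv_mk]
  simp [Matrix.trace_fin_two]
  norm_num

/-- A matrix whose products with invertible matrices are traceless vanishes. -/
theorem eq_zero_of_trace_mul {X : MM}
    (h : ∀ Y : GL (Fin 2) (ZMod p), Matrix.trace (X * (Y : MM)) = 0) : X = 0 := by
  have h1 := h 1
  have h2 := h ⟨!![1, 1; 0, 1], !![1, -1; 0, 1], by simp [Matrix.one_fin_two],
    by simp [Matrix.one_fin_two]⟩
  have h3 := h ⟨!![1, 0; 1, 1], !![1, 0; -1, 1], by simp [Matrix.one_fin_two],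
    by simp [Matrix.one_fin_two]⟩
  have h4 := h ⟨!![1, 1; 1, 0], !![0, 1; 1, -1], by simp [Matrix.one_fin_two],
    by simp [Matrix.one_fin_two]⟩
  simp [Matrix.trace_fin_two, Matrix.mul_apply] at h1 h2 h3 h4
  have e00 : X 0 0 = 0 := by linear_combination h4 - h2 - h3 + 2 * h1
  have e01 : X 0 1 = 0 := by linear_combination h3 - h1
  have e10 : X 1 0 = 0 := by linear_combination h2 - h1
  have e11 : X 1 1 = 0 := by linear_combination h2 + h3 - h4 - h1
  ext i j
  fin_cases i <;> fin_cases j <;> assumption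

variable {V : Type*} [AddCommGroup V] [Module (ZMod p) V] (r : Γ →* Module.End (ZMod p) V)

/-- **A central element squaring to `t²`.** -/
theorem one_and_scalar_of_central (hsurj : Function.Surjective ρ)
    (W : Submodule (ZMod p) V) (hW0 : W ≠ ⊥) (hW : ∀ g, ∀ w ∈ W, r g w ∈ W)
    (hrel : ∀ g, ∀ w ∈ W, r g (r g w) - Matrix.trace (ρ g : MM) • r g w +
      Matrix.det (ρ g : MM) • w = 0)
    {σ : Γ} {t : ZMod p} (ht : Matrix.det (ρ σ : MM) = t)
    (hcomm : ∀ g, ∀ w ∈ W, r σ (r g w) = r g (r σ w))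
    (hsq : ∀ w ∈ W, r σ (r σ w) = (t * t) • w) :
    t = 1 ∧ ∃ a : ZMod p, (ρ σ : MM) = a • 1 := by
  have ht0 : t ≠ 0 := ht ▸ det_rep_ne ρ σ
  obtain ⟨w₀, hw₀, hw₀0⟩ := (Submodule.ne_bot_iff _).1 hW0
  -- an eigenvector with eigenvalue `± t`
  obtain ⟨s, hs, v, hv, hv0, hσv⟩ : ∃ s : ZMod p, s * s = t * t ∧ ∃ v ∈ W, v ≠ 0 ∧ r σ v = s • v := by
    by_cases h : r σ w₀ + t • w₀ = 0
    · exact ⟨-t, by ring, w₀, hw₀, hw₀0, by rw [neg_smul]; exact eq_neg_of_add_eq_zero_left h⟩
    · refine ⟨t, rfl, _, add_mem (hW σ _ hw₀) (W.smul_mem t hw₀), h, ?_⟩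
      rw [map_add, map_smul, hsq _ hw₀, smul_add, smul_smul, add_comm]
  have hs0 : s ≠ 0 := fun h => by rw [h, zero_mul] at hs; exact mul_ne_zero ht0 ht0 hs.symm
  -- the stable eigen part
  have hE : ∀ g, ∀ w ∈ W, r σ w = s • w → r σ (r g w) = s • r g w := fun g w hw h => by
    rw [hcomm g w hw, h, map_smul]
  have key : ∀ g, ∀ w ∈ W, r σ w = s • w →
      (t * t * Matrix.trace (ρ g : MM) - s * Matrix.trace (ρ (σ * g) : MM)) • r g w =
        ((t * t - t) * Matrix.det (ρ g : MM)) • w := by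
    intro g w hw h
    have h1 := hrel g w hw
    have h2 := hrel (σ * g) w hw
    have e : r (σ * g) w = s • r g w := by rw [map_mul, Module.End.mul_apply, hE g w hw h]
    have e2 : r (σ * g) (r (σ * g) w) = (s * s) • r g (r g w) := by
      rw [e, map_smul, map_mul, Module.End.mul_apply, hE g _ (hW g w hw) (hE g w hw h), smul_smul]
    rw [e2, e, smul_smul, map_mul ρ, Units.val_mul, Matrix.det_mul, ht] at h2
    rw [hs] at h2
    have h3 := congrArg ((t * t) • ·) h1
    simp only [smul_add, smul_sub, smul_smul, smul_zero] at h3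
    rw [sub_smul, ← sub_eq_zero]
    rw [← sub_eq_zero.2 (h2.trans h3.symm)]
    simp only [map_mul, Units.val_mul]
    module
  by_cases htt : t * t - t = 0
  · have ht1 : t = 1 := by
      have : t * (t - 1) = 0 := by rw [mul_sub, mul_one, htt]
      exact sub_eq_zero.1 ((mul_eq_zero.1 this).resolve_left ht0)
    refine ⟨ht1, s, sub_eq_zero.1 (eq_zero_of_trace_mul fun Y => ?_)⟩
    obtain ⟨g, rfl⟩ := hsurj Y
    have hg : r g v ≠ 0 := fun h => hv0 (by
      have h' := congrArg (r g⁻¹) h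
      rwa [← Module.End.mul_apply, ← map_mul, inv_mul_cancel, map_one, map_zero,
        Module.End.one_apply] at h')
    have h1 := key g v hv hσv
    rw [htt, zero_mul, zero_smul, smul_eq_zero] at h1
    have h2 := h1.resolve_right hg
    rw [map_mul, Units.val_mul] at h2
    rw [sub_mul, smul_mul_assoc, one_mul, Matrix.trace_sub, Matrix.trace_smul, smul_eq_mul]
    refine (mul_eq_zero.1 (show s * (Matrix.trace ((ρ σ : MM) * (ρ g : MM)) -
      s * Matrix.trace (ρ g : MM)) = 0 from ?_)).resolve_left hs0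
    linear_combination -h2 - Matrix.trace (ρ g : MM) * hs
  · -- otherwise every element acts by scalars
    exfalso
    have hscal : ∀ g, ∃ c : ZMod p, c ≠ 0 ∧ ∀ w ∈ W, r σ w = s • w → r g w = c • w := by
      intro g
      set A := t * t * Matrix.trace (ρ g : MM) - s * Matrix.trace (ρ (σ * g) : MM)
      have hB : (t * t - t) * Matrix.det (ρ g : MM) ≠ 0 := mul_ne_zero htt (det_rep_ne ρ g)
      have hA : A ≠ 0 := fun h => by
        have h1 := key g v hv hσv
        rw [show t * t * Matrix.trace (ρ g : MM) - s * Matrix.trace (ρ (σ * g) : MM) = 0 from h,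
          zero_smul, eq_comm, smul_eq_zero] at h1
        exact h1.elim hB hv0
      refine ⟨A⁻¹ * ((t * t - t) * Matrix.det (ρ g : MM)), mul_ne_zero (inv_ne_zero hA) hB,
        fun w hw h => ?_⟩
      rw [← smul_smul, ← key g w hw h, smul_smul, inv_mul_cancel₀ hA, one_smul]
    obtain ⟨g, h, hgh⟩ := exists_trace_commutator ρ hsurj
    obtain ⟨a, ha, hga⟩ := hscal g
    obtain ⟨b, hb, hhb⟩ := hscal h
    have hinv : ∀ (γ : Γ) (c : ZMod p), c ≠ 0 → r γ v = c • v → r γ⁻¹ v = c⁻¹ • v := by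
      intro γ c hc hγ
      rw [eq_inv_smul_iff₀ hc, ← map_smul, ← hγ, ← Module.End.mul_apply, ← map_mul, inv_mul_cancel,
        map_one, Module.End.one_apply]
    have hfix : r (g * h * g⁻¹ * h⁻¹) v = v := by
      simp only [map_mul, Module.End.mul_apply, hinv h b hb (hhb v hv hσv),
        map_smul, hinv g a ha (hga v hv hσv), hga v hv hσv, hhb v hv hσv, smul_smul]
      rw [show b⁻¹ * (a⁻¹ * (b * a)) = 1 by field_simp, one_smul]
    have h1 := hrel (g * h * g⁻¹ * h⁻¹) v hv
    rw [hfix, hfix, hgh, det_commutator_rep, one_smul] at h1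
    have h2 : ((1 : ZMod p) - 3 + 1) • v = 0 := by
      rw [add_smul, sub_smul, one_smul]; exact h1
    have h3 := (smul_eq_zero.1 h2).resolve_right hv0
    norm_num at h3

end FLTAgent.Lowering.P7
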