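import Fermat.Agent.Lowering.P7.Interface
import Fermat.Agent.Lowering.P7.Algebra
import Fermat.Agent.MazurPrinciple.GlobalSystem
import Fermat.Agent.DetCyclo.Basic

/-!
# The eigenspace of a residual system in the torsion of `J₀(N)`
-/

set_option autoImplicit false
set_option linter.style.haveILetI false
set_option linter.unusedSectionVars false
set_option synthInstance.maxHeartbeats 400000
set_option maxHeartbeats 1000000

noncomputable section

namespace FLTAgent.Lowering.P7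

open Matrix FLTAgent.EigenLattice FLTAgent.MazurPrinciple

local notation "QA" => AlgebraicClosure ℚ
local notation "GG" => (AlgebraicClosure ℚ ≃ₐ[ℚ] AlgebraicClosure ℚ)

variable {p : ℕ} [Fact p.Prime] (D : P1.Datum p)

/-- The residual representation as endomorphisms. -/
def rho : GG →* Module.End (ZMod p) (Fin 2 → ZMod p) :=
  (Matrix.toLinAlgEquiv' (R := ZMod p) (n := Fin 2)).toMonoidHom.comp
    ((Units.coeHom _).comp D.rb)

theorem finrank_two : Module.finrank (ZMod p) (Fin 2 → ZMod p) = 2 := Module.finrank_fin_fun _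

theorem rho_apply (g : GG) :
    rho D g = Matrix.toLin' (D.rb g : Matrix (Fin 2) (Fin 2) (ZMod p)) := rfl

theorem trace_rho (g : GG) :
    LinearMap.trace (ZMod p) (Fin 2 → ZMod p) (rho D g) =
      Matrix.trace (D.rb g : Matrix (Fin 2) (Fin 2) (ZMod p)) := by
  rw [rho_apply, Matrix.trace_toLin'_eq]

theorem det_rho (g : GG) :
    LinearMap.det (rho D g) = Matrix.det (D.rb g : Matrix (Fin 2) (Fin 2) (ZMod p)) := by
  rw [rho_apply, LinearMap.det_toLin']

/-- The determinant of a Frobenius element away from `p`. -/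
theorem det_rb_frobenius {l : ℕ} (hl : l.Prime) (hlp : l ≠ p) {V : ValuationSubring QA}
    (hV : V.LiesOverPrime l) {σ : GG} (hσ : V.IsFrobeniusAt σ l) :
    Matrix.det (D.rb σ : Matrix (Fin 2) (Fin 2) (ZMod p)) = (l : ZMod p) := by
  have h1 : DetCyclo.CycloExponent p 1 σ
      (Matrix.det (D.rb σ : Matrix (Fin 2) (Fin 2) (ZMod p))).val :=
    fun ζ hζ => D.det_cyclo σ ζ (by rw [← hζ, pow_one])
  have h2 := (ZMod.natCast_eq_natCast_iff _ _ _).2
    (pow_one p ▸ h1.modEq (DetCyclo.cycloExponent_frobenius hl hlp hV hσ 1))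
  rwa [ZMod.natCast_zmod_val] at h2

/-- The traces at the good primes are `a`. -/
def HasSys (N : ℕ) (a : ℕ → ℤ) : Prop :=
  ∀ ℓ : ℕ, ℓ.Prime → ¬ ℓ ∣ N → ℓ ∉ D.bad → ∀ A : ValuationSubring QA, A.LiesOverPrime ℓ →
    ∀ τ : GG, A.IsFrobeniusAt τ ℓ →
      Matrix.trace (D.rb τ : Matrix (Fin 2) (Fin 2) (ZMod p)) = (a ℓ : ZMod p)

theorem ne_p_of_notMem {l : ℕ} (h : l ∉ D.bad) : l ≠ p := fun e => h (e ▸ D.p_mem)

variable [NeZero p] {N : ℕ} [NeZero N] (κ : AlgebraicClosure ℚ →+* ℂ) {a : ℕ → ℤ}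

/-- An element agrees with a power of a Frobenius element at a good prime on both modules. -/
theorem exists_frobenius_pow_rb (g : GG) :
    ∃ (ℓ : ℕ) (A : ValuationSubring QA) (τ : GG) (k : ℕ), ℓ.Prime ∧ ¬ ℓ ∣ N ∧ ℓ ∉ D.bad ∧
      A.LiesOverPrime ℓ ∧ A.IsFrobeniusAt τ ℓ ∧ D.rb g = D.rb τ ^ k ∧
      galMx (N := N) κ p g = galMx (N := N) κ p (τ ^ k) := by
  obtain ⟨L₁, hL₁, h1⟩ := D.level
  obtain ⟨L₂, hL₂, h2⟩ := exists_level_galMx (N := N) κ p
  haveI := hL₁
  haveI := hL₂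
  obtain ⟨ℓ, A, τ, k, hℓ, hℓS, hA, hτ, hg⟩ :=
    Frobenius.exists_frobenius_pow_eqOn (L₁ ⊔ L₂) g (D.bad ∪ N.primeFactors)
  have hfix : ∀ x ∈ L₁ ⊔ L₂, ((τ ^ k)⁻¹ * g) x = x := fun x hx => by
    rw [AlgEquiv.mul_apply, hg x hx]
    exact (τ ^ k).symm_apply_apply x
  refine ⟨ℓ, A, τ, k, hℓ, fun h => hℓS (Finset.mem_union_right _
    (Nat.mem_primeFactors.2 ⟨hℓ, h, NeZero.ne N⟩)), fun h => hℓS (Finset.mem_union_left _ h),
    hA, hτ, ?_, ?_⟩
  · conv_lhs => rw [← mul_inv_cancel_left (τ ^ k) g, map_mul, map_pow]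
    rw [h1 _ fun y hy => hfix y ((le_sup_left : L₁ ≤ L₁ ⊔ L₂) hy), mul_one]
  · conv_lhs => rw [← mul_inv_cancel_left (τ ^ k) g, galMx_mul]
    rw [h2 _ fun y hy => hfix y ((le_sup_right : L₂ ≤ L₁ ⊔ L₂) hy), mul_one]

variable (hE : HasSys D N a)
include hE

/-- Every element satisfies its characteristic relation of the residual representation. -/
theorem eigen_relation (g : GG) :
    eigenSpaceRep N κ p D.bad a g * eigenSpaceRep N κ p D.bad a g -
      Matrix.trace (D.rb g : Matrix (Fin 2) (Fin 2) (ZMod p)) • eigenSpaceRep N κ p D.bad a g +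
      Matrix.det (D.rb g : Matrix (Fin 2) (Fin 2) (ZMod p)) • 1 = 0 := by
  obtain ⟨ℓ, A, τ, k, hℓ, hℓN, hℓS, hA, hτ, e1, e2⟩ := exists_frobenius_pow_rb (N := N) D κ g
  have e3 : eigenSpaceRep N κ p D.bad a g = eigenSpaceRep N κ p D.bad a τ ^ k := by
    rw [← map_pow]
    exact LinearMap.ext fun v => Subtype.ext (by rw [coe_eigenSpaceRep, coe_eigenSpaceRep, e2])
  have e4 : rho D g = rho D τ ^ k := by
    rw [← map_pow]
    show Matrix.toLin' (D.rb g : Matrix (Fin 2) (Fin 2) (ZMod p)) = Matrix.toLin' _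
    rw [e1, ← map_pow D.rb]
    rfl
  rw [← trace_rho, ← det_rho, e4, e3]
  refine pow_relation finrank_two (rho D τ) _ ?_ k
  rw [trace_rho, det_rho, hE ℓ hℓ hℓN hℓS A hA τ hτ,
    det_rb_frobenius D hℓ (ne_p_of_notMem D hℓS) hA hτ]
  refine LinearMap.ext fun v => Subtype.ext ?_
  have hℓp : ¬ ℓ ∣ p := fun h =>
    ne_p_of_notMem D hℓS ((Nat.prime_dvd_prime_iff_eq hℓ Fact.out).1 h)
  have h := congrArg (fun X => X *ᵥ (v : Ix N → ZMod p))
    (galMx_frobenius (N := N) κ p hℓ hℓN hℓp hA hτ)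
  rw [Matrix.add_mulVec, Matrix.sub_mulVec, ← Matrix.mulVec_mulVec, ← Matrix.mulVec_mulVec,
    galMx_mem N κ p D.bad a τ v.2 ⟨ℓ, hℓ⟩ hℓN hℓS, Matrix.smul_mulVec, Matrix.one_mulVec,
    Matrix.zero_mulVec] at h
  simp only [LinearMap.add_apply, LinearMap.sub_apply, LinearMap.smul_apply, Module.End.mul_apply,
    Module.End.one_apply, LinearMap.zero_apply, Submodule.coe_add, Submodule.coe_sub,
    Submodule.coe_smul, Submodule.coe_zero, coe_eigenSpaceRep]
  exact h

/-- A nonzero stable part fixed by the kernel of the representation. -/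
theorem exists_stable_kerFixed (h0 : eigenSpace N p D.bad a ≠ ⊥) :
    ∃ W : Submodule (ZMod p) (eigenSpace N p D.bad a), W ≠ ⊥ ∧
      (∀ g, ∀ w ∈ W, eigenSpaceRep N κ p D.bad a g w ∈ W) ∧
      ∀ g, D.rb g = 1 → ∀ w ∈ W, eigenSpaceRep N κ p D.bad a g w = w := by
  haveI : Nontrivial (eigenSpace N p D.bad a) := Submodule.nontrivial_iff_ne_bot.2 h0
  set r := eigenSpaceRep N κ p D.bad a
  let K : Subgroup GG := D.rb.ker
  obtain ⟨v, hv0, hv⟩ := exists_fixed_of_unipotent r K fun g hg => by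
    have h := eigen_relation D κ hE g
    rw [MonoidHom.mem_ker.1 hg, Units.val_one, Matrix.trace_one, Matrix.det_one, Fintype.card_fin,
      Nat.cast_ofNat, two_smul, one_smul] at h
    rw [sub_mul, mul_sub, mul_one, one_mul, ← h]
    abel
  refine ⟨{ carrier := {w | ∀ g ∈ K, r g w = w}
            zero_mem' := fun g _ => map_zero _
            add_mem' := fun ha hb g hg => by rw [map_add, ha g hg, hb g hg]
            smul_mem' := fun c x hx g hg => by rw [map_smul, hx g hg] },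
    (Submodule.ne_bot_iff _).2 ⟨v, hv, hv0⟩, fun γ w hw g hg => ?_,
    fun g hg w hw => hw g (MonoidHom.mem_ker.2 hg)⟩
  have h := congrArg (r γ) (hw _ (Subgroup.Normal.conj_mem' (MonoidHom.normal_ker _) g hg γ))
  rwa [← Module.End.mul_apply, ← map_mul, mul_assoc, mul_inv_cancel_left, map_mul,
    Module.End.mul_apply] at h

/-- Some good prime is not of Eisenstein type. -/
theorem exists_good_not_eisenstein :
    ∃ l : ℕ, l.Prime ∧ ¬ l ∣ N ∧ l ∉ D.bad ∧ (a l : ZMod p) - (l + 1) ≠ 0 := by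
  classical
  by_contra hcon
  push Not at hcon
  let w : GL (Fin 2) (ZMod p) :=
    ⟨!![0, -1; 1, 0], !![0, 1; -1, 0], by simp [Matrix.one_fin_two], by simp [Matrix.one_fin_two]⟩
  obtain ⟨g, hg⟩ := D.surjective w
  obtain ⟨ℓ, A, τ, k, hℓ, hℓN, hℓS, hA, hτ, e1, -⟩ :=
    exists_frobenius_pow_rb (N := N) D FLTAgent.Kronecker.complexEmb g
  set f := rho D τ
  have ht' : LinearMap.trace (ZMod p) (Fin 2 → ZMod p) f = 1 + LinearMap.det f := by
    rw [trace_rho, det_rho, hE ℓ hℓ hℓN hℓS A hA τ hτ,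
      det_rb_frobenius D hℓ (ne_p_of_notMem D hℓS) hA hτ]
    linear_combination hcon ℓ hℓ hℓN hℓS
  have key : ∀ i, LinearMap.trace (ZMod p) (Fin 2 → ZMod p) (f ^ i) = 1 + LinearMap.det f ^ i ∧
      LinearMap.trace (ZMod p) (Fin 2 → ZMod p) (f ^ (i + 1)) = 1 + LinearMap.det f ^ (i + 1) := by
    intro i
    induction i with
    | zero =>
      rw [pow_zero, LinearMap.trace_one, finrank_two, zero_add, pow_one, pow_one, pow_zero, ht']
      norm_num
    | succ i ih =>
      refine ⟨ih.2, ?_⟩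
      have h := congrArg (fun x => LinearMap.trace (ZMod p) (Fin 2 → ZMod p) (f ^ i * x))
        (end_mul_self finrank_two f)
      simp only [mul_add, mul_sub, mul_smul_comm, mul_one, mul_zero, map_add, map_sub, map_smul,
        smul_eq_mul, map_zero, ← pow_two, ← pow_add, ← pow_succ, ih.1, ih.2, ht'] at h
      linear_combination h
  have e4 : f ^ k = rho D g := by
    rw [← map_pow]
    show Matrix.toLin' _ = Matrix.toLin' (D.rb g : Matrix (Fin 2) (Fin 2) (ZMod p))
    rw [e1, ← map_pow D.rb]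
    rfl
  have h1 := (key k).1
  rw [← map_pow LinearMap.det, e4, trace_rho, det_rho, hg] at h1
  simp [w, Matrix.trace_fin_two, Matrix.det_fin_two] at h1
  have h2 : ((2 : ℕ) : ZMod p) = 0 := by push_cast; linear_combination -h1
  have h3 := (ZMod.natCast_eq_zero_iff 2 p).1 h2
  have := Nat.le_of_dvd (by norm_num) h3
  have := D.p_gt
  omega

end FLTAgent.Lowering.P7
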