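import Fermat.Agent.Lowering.P7.Residual
import Fermat.Agent.Lowering.P7.System

/-!
# Mazur's principle away from `p`

If a residual system is seen at level `Mt` and not at level `M`, Frobenius at `t` acts on a
stable part of its eigenspace as minus `t` times the exchange, so it is central and its square is
`t²`: hence `t` is `1` modulo `p` and Frobenius at `t` is scalar.
-/

set_option autoImplicit false
set_option linter.style.haveILetI false
set_option linter.unusedSectionVars false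
set_option synthInstance.maxHeartbeats 400000
set_option maxHeartbeats 1000000

noncomputable section

open AlgebraicCurve ModularCurve IsLocalRing

namespace FLTAgent.Lowering.P7

open FLTAgent.Curves FLTAgent.Specialization FLTAgent.BadRed FLTAgent.MazurPrinciple
open FLTAgent.EigenLattice (pushPic GoodIdx evalGood evalGood_X opAct torsCoord galMx
  torsCoord_opAct)

local notation "QA" => AlgebraicClosure ℚ
local notation "GG" => (AlgebraicClosure ℚ ≃ₐ[ℚ] AlgebraicClosure ℚ)

attribute [local instance 2000] fullCAlgebra laurentAlgebra x0BarAlgebra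

section Smooth

variable {q M : ℕ} [Fact q.Prime] [NeZero q] [NeZero M] (hqM : ¬ q ∣ M)
  {A : ValuationSubring QA} [IsAlgClosed (ResidueField A)] [CharP (ResidueField A) q]
  [Curves.IsFunctionField (ResidueField A) (modularFunctionFieldFullC (ResidueField A) M)]
  (hA : A.LiesOverPrime q)

include hA in
/-- The model of level `M` is smooth at `q ≥ 5`, and at `3` for even `M`. -/
theorem smooth_removed (h : 5 ≤ q ∨ q = 3 ∧ 2 ∣ M) :
    (modularModel (π := residue A) residue_surjective M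
      (BadRed.natCast_ne_zero hqM (ResidueField A))).Smooth := by
  rcases h with h | ⟨rfl, h2⟩
  · haveI : NeZero (M * q) := ⟨mul_ne_zero (NeZero.ne M) (NeZero.ne q)⟩
    exact smooth_level hqM hA (.inl h)
  · obtain ⟨N', h1, h22, h3, h4⟩ :=
      exists_mul_prime_sq Nat.prime_two Nat.prime_three (by decide) hqM h2
    haveI : NeZero N' := ⟨fun h => h3 (h ▸ dvd_zero 3)⟩
    haveI := isFunctionField_full (ResidueField A) N' rfl (natCast_ne_zero_residue hA h3)
    obtain ⟨d, hd, hd3⟩ : ∃ d, dedekindPsi N' = dedekindPsi M * d ∧ ¬ 3 ∣ d := by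
      rcases h4 with h | h
      · exact ⟨1, by rw [h, mul_one], by decide⟩
      · exact ⟨2, h, by decide⟩
    exact smooth_of_dvd residue_surjective (BadRed.natCast_ne_zero hqM _) h1
      (natCast_ne_zero_residue hA h3) hd (natCast_ne_zero_residue hA hd3)
      (GoodModel.goodLevel hA N' (by simpa [auxLevel] using h22) h3)

end Smooth

section System

variable {p : ℕ} [Fact p.Prime] [NeZero p] {N : ℕ} [NeZero N] {bad : Finset ℕ} {a : ℕ → ℤ}

/-- A character of the restricted algebra gives a nonzero eigenspace. -/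
theorem eigenSpace_ne_bot_of_char (θ : CuspForm.heckeAlgebra N 2 (↑bad : Set ℕ) →+* ZMod p)
    (hθ : ∀ (l : ℕ) (hl : l.Prime) (hlN : ¬ l ∣ N) (hlb : l ∉ (↑bad : Set ℕ)),
      θ (CuspForm.heckeAlgebra.T hl hlN hlb) = (a l : ZMod p)) :
    eigenSpace N p bad a ≠ ⊥ := by
  let i := (Subalgebra.inclusion (CuspForm.heckeAlgebra_mono (N := N) (k := 2)
    (Set.empty_subset (↑bad : Set ℕ)))).toRingHom
  letI := i.toAlgebra
  haveI : Module.Finite ℤ (CuspForm.heckeAlgebra N 2 (∅ : Set ℕ)) := PeriodHecke.finite_hecke N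
  haveI : Algebra.IsIntegral ℤ (CuspForm.heckeAlgebra N 2 (∅ : Set ℕ)) :=
    Algebra.IsIntegral.of_finite ℤ _
  haveI : Algebra.IsIntegral (CuspForm.heckeAlgebra N 2 (↑bad : Set ℕ))
      (CuspForm.heckeAlgebra N 2 (∅ : Set ℕ)) := Algebra.IsIntegral.tower_top (R := ℤ)
  haveI hmax : (RingHom.ker θ).IsMaximal :=
    RingHom.ker_isMaximal_of_surjective θ (ZMod.ringHom_surjective θ)
  obtain ⟨Q, -, hQ, hQc⟩ := Ideal.exists_ideal_over_prime_of_isIntegral
    (S := CuspForm.heckeAlgebra N 2 (∅ : Set ℕ)) (RingHom.ker θ) ⊥ (by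
      rw [← RingHom.ker_eq_comap_bot, (RingHom.injective_iff_ker_eq_bot _).1
        (show Function.Injective (algebraMap (CuspForm.heckeAlgebra N 2 (↑bad : Set ℕ))
          (CuspForm.heckeAlgebra N 2 (∅ : Set ℕ))) from Subalgebra.inclusion_injective _)]
      exact bot_le)
  haveI : Q.IsMaximal := Ideal.isMaximal_of_isIntegral_of_isMaximal_comap Q (hQc ▸ hmax)
  letI : Field (CuspForm.heckeAlgebra N 2 (∅ : Set ℕ) ⧸ Q) := Ideal.Quotient.field Q
  have hmem : ∀ y, θ y = 0 → Ideal.Quotient.mk Q (i y) = 0 := fun y hy =>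
    Ideal.Quotient.eq_zero_iff_mem.2 (Ideal.mem_comap.1 (hQc.symm ▸ RingHom.mem_ker.2 hy))
  haveI : CharP (CuspForm.heckeAlgebra N 2 (∅ : Set ℕ) ⧸ Q) p :=
    (CharP.charP_iff_prime_eq_zero (Fact.out : p.Prime)).2 (by
      have h := hmem (p : CuspForm.heckeAlgebra N 2 (↑bad : Set ℕ))
        (by rw [map_natCast, ZMod.natCast_self])
      rwa [map_natCast, map_natCast] at h)
  refine eigenSpace_ne_bot N p bad a (K := CuspForm.heckeAlgebra N 2 (∅ : Set ℕ) ⧸ Q)
    (Ideal.Quotient.mk Q) fun q h1 h2 => ?_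
  have hb : (q : ℕ) ∉ (↑bad : Set ℕ) := fun h => h2 (Finset.mem_coe.1 h)
  have h := hmem (CuspForm.heckeAlgebra.T q.2 h1 hb - (a q : CuspForm.heckeAlgebra N 2 (↑bad : Set ℕ)))
    (by rw [map_sub, map_intCast, hθ q q.2 h1 hb, sub_self])
  rw [map_sub, map_sub, map_intCast, map_intCast, sub_eq_zero] at h
  refine Eq.trans (congrArg _ (Subtype.ext ?_)) h
  simp [i, CuspForms.heckeGen, h1]

/-- A system not seen at a lower level is killed by an operator vanishing there. -/
theorem exists_killed {M : ℕ} [NeZero M] (hMN : M ∣ N)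
    (hbad : ∀ l : ℕ, l.Prime → l ∣ N → l ∈ bad) {tr : GG → ZMod p}
    (ha : ∀ l : ℕ, l.Prime → ¬ l ∣ N → l ∉ bad → ∀ V : ValuationSubring QA, V.LiesOverPrime l →
      ∀ σ : GG, V.IsFrobeniusAt σ l → tr σ = (a l : ZMod p))
    (hns : ¬ Seen M bad tr) :
    ∃ P : MvPolynomial (GoodIdx N bad) ℤ, evalGood N bad M P = 0 ∧
      (systemEval N bad a P : ZMod p) ≠ 0 := by
  classical
  by_contra hcon
  push Not at hcon
  set ev := evalGood N bad M
  set θ₀ : MvPolynomial (GoodIdx N bad) ℤ →+* ZMod p :=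
    (Int.castRingHom (ZMod p)).comp (systemEval N bad a) with hθ₀
  let φ : ev.range →+* ZMod p :=
    ev.rangeRestrict.liftOfRightInverse (Function.surjInv ev.rangeRestrict_surjective)
      (Function.rightInverse_surjInv _) ⟨θ₀, fun P hP => RingHom.mem_ker.2
        (hcon P (congrArg Subtype.val (RingHom.mem_ker.1 hP)))⟩
  have hφ : ∀ P, φ (ev.rangeRestrict P) = θ₀ P := fun P =>
    RingHom.liftOfRightInverse_comp_apply _ _ _ _ P
  let j := (Subalgebra.inclusion (CuspForm.heckeAlgebra_mono (N := M) (k := 2)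
    (Set.empty_subset (↑bad : Set ℕ)))).toRingHom
  have hgen : ∀ (l : ℕ) (hl : l.Prime) (hlM : ¬ l ∣ M) (hlb : l ∉ (↑bad : Set ℕ)),
      ∃ q : GoodIdx N bad, (q.1 : ℕ) = l ∧
        ev (MvPolynomial.X q) = j (CuspForm.heckeAlgebra.T hl hlM hlb) := by
    intro l hl hlM hlb
    refine ⟨⟨⟨l, hl⟩, fun h => hlb (hbad l hl h), hlb⟩, rfl, ?_⟩
    rw [evalGood_X]
    refine Subtype.ext ?_
    simp [j, CuspForms.heckeGen, hlM]
  have hj : ∀ x, j x ∈ ev.range := by
    rintro ⟨x, hx⟩
    induction hx using Algebra.adjoin_induction with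
    | mem T hT =>
      rcases hT with ⟨l, hl, hlM, hlb, rfl⟩ | ⟨l, hlM, hl, hlb, rfl⟩
      · obtain ⟨q, -, hq⟩ := hgen l hl hlM hlb
        exact ⟨_, hq⟩
      · exact absurd (hbad l hl (hlM.trans hMN)) hlb
    | algebraMap r =>
      have h : j ((r : ℤ) : CuspForm.heckeAlgebra M 2 (↑bad : Set ℕ)) ∈ ev.range :=
        ⟨(r : MvPolynomial (GoodIdx N bad) ℤ), by rw [map_intCast, map_intCast]⟩
      convert h using 2
      exact Subtype.ext (by simp)
    | add x y hx hy h1 h2 => exact add_mem h1 h2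
    | mul x y hx hy h1 h2 => exact mul_mem h1 h2
  refine hns ⟨inferInstance, φ.comp (j.codRestrict ev.range hj), fun l hl hlM hlb V hV σ hσ => ?_⟩
  obtain ⟨q, hql, hq⟩ := hgen l hl hlM hlb
  rw [RingHom.comp_apply, show j.codRestrict ev.range hj (CuspForm.heckeAlgebra.T hl hlM hlb) =
    ev.rangeRestrict (MvPolynomial.X q) from Subtype.ext hq.symm, hφ, hθ₀, RingHom.comp_apply,
    systemEval, MvPolynomial.eval_X, hql, ha l hl (fun h => hlb (hbad l hl h)) hlb V hV σ hσ]
  rfl

end System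

section Main

variable {p : ℕ} [Fact p.Prime] [NeZero p] {N : ℕ} [NeZero N]
  (κ : AlgebraicClosure ℚ →+* ℂ)

theorem classOf_intSmul (c : ℤ) (v : FLTAgent.EigenLattice.Ix N → ZMod p) :
    classOf N κ p ((c : ZMod p) • v) = c • classOf N κ p v := by
  rw [classOf, Int.cast_smul_eq_zsmul, map_zsmul]; rfl

variable {t M : ℕ} [Fact t.Prime] [NeZero t] [NeZero M] [NeZero (M * t)]

/-- Away from `p`, a system killed at the lower level forces `t ≡ 1` and a scalar Frobenius. -/
theorem scalar_of_killed (D : P1.Datum p) (htM : ¬ t ∣ M) (htp : t ≠ p)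
    (h5 : 5 ≤ t ∨ t = 3 ∧ 2 ∣ M) {a : ℕ → ℤ} (hE : HasSys D (M * t) a)
    (h0 : eigenSpace (M * t) p D.bad a ≠ ⊥)
    (P : MvPolynomial (GoodIdx (M * t) D.bad) ℤ) (hP0 : evalGood (M * t) D.bad M P = 0)
    (hPa : (systemEval (M * t) D.bad a P : ZMod p) ≠ 0)
    {V : ValuationSubring QA} (hV : V.LiesOverPrime t)
    (hram : ∀ σ ∈ V.inertiaSubgroupIn ℚ, D.rb σ = 1) {φ : GG} (hφ : V.IsFrobeniusAt φ t) :
    (t : ZMod p) = 1 ∧
      ∃ b : ZMod p, (D.rb φ : Matrix (Fin 2) (Fin 2) (ZMod p)) = b • 1 := by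
  set κ := FLTAgent.Kronecker.complexEmb
  haveI : IsAlgClosed (ResidueField V) := FrobTrace.isAlgClosed_residueField V
  haveI : CharP (ResidueField V) t := FrobTrace.charP_residueField hV
  haveI := isFunctionField_full (ResidueField V) M rfl (BadRed.natCast_ne_zero htM (ResidueField V))
  have hsm := smooth_removed htM hV h5
  have hp := (Fact.out : p.Prime)
  have hnS : ∀ l : ℕ, l.Prime → l ∣ p → l ∈ D.bad := fun l hl h =>
    ((Nat.prime_dvd_prime_iff_eq hl hp).1 h) ▸ D.p_mem
  have htn : ¬ t ∣ p := fun h => htp ((Nat.prime_dvd_prime_iff_eq Fact.out hp).1 h)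
  have h12 : p.Coprime 12 := hp.coprime_iff_not_dvd.2 fun h => by
    have h1 : p ∣ 2 * 2 * 3 := h
    rcases hp.dvd_mul.1 h1 with h1 | h1
    · rcases hp.dvd_mul.1 h1 with h1 | h1 <;>
        have := Nat.le_of_dvd (by norm_num) h1 <;> have := D.p_gt <;> omega
    · have := Nat.le_of_dvd (by norm_num) h1
      have := D.p_gt
      omega
  obtain ⟨r, hr, hrN, hrb, hra⟩ := exists_good_not_eisenstein D hE
  haveI : Fact r.Prime := ⟨hr⟩
  haveI : NeZero r := ⟨hr.ne_zero⟩
  obtain ⟨W, hW0, hWst, hWfix⟩ := exists_stable_kerFixed D κ hE h0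
  set d : ℤ := a r - ((r + 1 : ℕ) : ℤ) with hd
  set c : ZMod p := (systemEval (M * t) D.bad a P : ZMod p) * (d : ZMod p) with hc
  have hc0 : c ≠ 0 := mul_ne_zero hPa (by rw [hd]; push_cast; exact hra)
  have key : ∀ v ∈ W, φ • classOf (M * t) κ p v.1 +
      t • (swapAut htM • classOf (M * t) κ p v.1) = 0 := by
    intro v hv
    set u : FLTAgent.EigenLattice.Ix (M * t) → ZMod p := c⁻¹ • v.1 with hu
    have huE : u ∈ eigenSpace (M * t) p D.bad a := Submodule.smul_mem _ _ v.2
    set x := (torsCoord (N := M * t) κ p).symm u with hx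
    set w := (torsCoord (N := M * t) κ p).symm ((d : ZMod p) • u) with hw
    have hxc : (x : JZero (M * t)) = classOf (M * t) κ p u := rfl
    have hwc : (w : JZero (M * t)) = classOf (M * t) κ p ((d : ZMod p) • u) := rfl
    have hfix : ∀ τ ∈ V.inertiaSubgroupIn ℚ, τ • (x : JZero (M * t)) = x := fun τ hτ => by
      rw [hxc, smul_classOf, hu, Matrix.mulVec_smul, ← coe_eigenSpaceRep,
        hWfix τ (hram τ hτ) v hv]
    have hT : heckeOperatorAlong QA (M * t) r (x : JZero (M * t)) = a r • (x : JZero (M * t)) := by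
      rw [hxc]
      exact hecke_classOf (M * t) κ p D.bad a huE r hr hrN hrb
    have hα : pushPic M t (heckeAlphaBar QA M t) (x : JZero (M * t)) = 0 :=
      pushPic_classOf κ p D.bad a _ (fun τ u => (galois_smul_alpha τ u).symm) D.p_mem P hP0 hPa huE
    have h := frobenius_eq htM hV hsm D.bad κ (n := p) hφ htn h12 hnS P hP0 (r := r) hrN x w
      (by rw [hT, hwc, classOf_intSmul, hd, sub_smul, neg_smul, ← hxc, sub_eq_add_neg])
      hfix hα (fun τ hτ => by
        rw [hT, hxc]
        exact (map_zsmul (DistribSMul.toAddMonoidHom (JZero (M * t)) τ) (a r)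
          (classOf (M * t) κ p u)).trans
          (congrArg (a r • ·) (hfix τ hτ)))
      (by rw [hT, map_zsmul, hα, smul_zero])
    have hz : (opAct κ p (evalGood (M * t) D.bad (M * t) P) w : JZero (M * t)) =
        classOf (M * t) κ p v.1 := by
      rw [classOf]
      refine congrArg Subtype.val ((torsCoord (N := M * t) κ p).injective ?_)
      rw [torsCoord_opAct, hw, AddEquiv.apply_symm_apply, AddEquiv.apply_symm_apply]
      show Matrix.mulVec (heckeP (M * t) p _) _ = _
      rw [evalGood_mulVec (M * t) p D.bad a P (Submodule.smul_mem _ _ huE), smul_smul, hu,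
        smul_smul, ← hc, mul_inv_cancel₀ hc0, one_smul]
    rw [hz] at h
    exact h
  set rE := eigenSpaceRep (M * t) κ p D.bad a
  have hcls : ∀ g (v : eigenSpace (M * t) p D.bad a),
      classOf (M * t) κ p (rE g v).1 = g • classOf (M * t) κ p v.1 := fun g v => by
    rw [coe_eigenSpaceRep, ← smul_classOf]
  have hneg : ∀ v ∈ W, φ • classOf (M * t) κ p v.1 =
      -(t • (swapAut htM • classOf (M * t) κ p v.1)) := fun v hv =>
    eq_neg_of_add_eq_zero_left (key v hv)
  refine one_and_scalar_of_central D.rb rE D.surjective W hW0 hWst (fun g w _ => ?_)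
    (det_rb_frobenius D Fact.out htp hV hφ) (fun g v hv => ?_) fun v hv => ?_
  · have h := DFunLike.congr_fun (eigen_relation D κ hE g) w
    simpa using h
  · refine Subtype.ext (classOf_injective _ κ p ?_)
    rw [hcls φ, hcls g (rE φ v), hcls φ v, hneg _ (hWst g v hv), hcls g v, hneg v hv,
      swapAut_smul_galois,
      smul_neg, smul_comm g t]
  · refine Subtype.ext (classOf_injective _ κ p ?_)
    have hsw : swapAut htM • (swapAut htM • classOf (M * t) κ p v.1) =
        classOf (M * t) κ p v.1 := by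
      rw [← mul_smul, show swapAut htM * swapAut htM = (1 : SemilinearAut QA (X0Bar (M * t))) from
        Subtype.ext (Prod.ext (RingEquiv.ext fun z => swapEnd_swapEnd htM z)
          (RingEquiv.ext fun z => rfl)), one_smul]
    rw [hcls, hcls, hneg v hv, smul_neg, smul_comm φ t, ← swapAut_smul_galois, hneg v hv,
      smul_neg, smul_comm (swapAut htM) t, hsw, neg_nsmul, neg_neg, Submodule.coe_smul,
      ← Nat.cast_mul, classOf_smul]
    exact (mul_nsmul _ _ _).symm

end Main

/-- **Mazur's principle away from `p`.** -/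
theorem targetPrinciple : TargetPrinciple := by
  intro p _ D N t hsq hpN ht htN h5 hbad hram hseen hns
  classical
  haveI : NeZero p := ⟨(Fact.out : p.Prime).ne_zero⟩
  haveI : Fact t.Prime := ⟨ht⟩
  haveI : NeZero t := ⟨ht.ne_zero⟩
  obtain ⟨M, rfl⟩ : ∃ M, N = M * t := ⟨N / t, (Nat.div_mul_cancel htN).symm⟩
  rw [Nat.mul_div_cancel _ ht.pos] at hns
  obtain ⟨hN0, θ, hθ⟩ := hseen
  haveI := hN0
  haveI : NeZero M := ⟨left_ne_zero_of_mul (NeZero.ne (M * t))⟩
  have htM : ¬ t ∣ M := fun h => ht.not_isUnit (hsq t (Nat.mul_dvd_mul_right h t))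
  have htp : t ≠ p := fun h => hpN (h ▸ htN)
  have h5' : 5 ≤ t ∨ t = 3 ∧ 2 ∣ M := h5.imp_right fun h => ⟨h.1, by
    rcases Nat.prime_two.dvd_mul.1 h.2 with h2 | h2
    · exact h2
    · rw [h.1] at h2; norm_num at h2⟩
  set a : ℕ → ℤ := fun l =>
    if h : l.Prime ∧ ¬ l ∣ M * t ∧ l ∉ (↑D.bad : Set ℕ) then
      ((θ (CuspForm.heckeAlgebra.T h.1 h.2.1 h.2.2)).val : ℤ) else 0
  have haT : ∀ (l : ℕ) (hl : l.Prime) (hlN : ¬ l ∣ M * t) (hlb : l ∉ (↑D.bad : Set ℕ)),
      θ (CuspForm.heckeAlgebra.T hl hlN hlb) = (a l : ZMod p) := fun l hl hlN hlb => by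
    simp only [a, dif_pos (show l.Prime ∧ ¬ l ∣ M * t ∧ l ∉ (↑D.bad : Set ℕ) from ⟨hl, hlN, hlb⟩),
      Int.cast_natCast, ZMod.natCast_zmod_val]
  have hE : HasSys D (M * t) a := fun l hl hlN hlb A hA τ hτ =>
    (hθ l hl hlN (fun h => hlb (Finset.mem_coe.1 h)) A hA τ hτ).symm.trans (haT l hl hlN _)
  obtain ⟨P, hP0, hPa⟩ := exists_killed (p := p) (a := a) (dvd_mul_right M t) hbad
    (fun l hl hlN hlb V hV σ hσ => hE l hl hlN hlb V hV σ hσ) hns
  have h0 := eigenSpace_ne_bot_of_char θ haT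
  have main := fun (V : ValuationSubring QA) (hV : V.LiesOverPrime t) (φ : GG)
      (hφ : V.IsFrobeniusAt φ t) =>
    scalar_of_killed D htM htp h5' hE h0 P hP0 hPa hV (hram V hV) hφ
  obtain ⟨V, hV⟩ := Frobenius.exists_liesOverPrime t ht
  obtain ⟨φ, hφ⟩ := Frobenius.exists_isFrobeniusAt V t ht hV
  refine ⟨(ZMod.natCast_eq_zero_iff (t - 1) p).1 ?_, fun V hV φ hφ => (main V hV φ hφ).2⟩
  rw [Nat.cast_sub ht.one_le, (main V hV φ hφ).1, Nat.cast_one, sub_self]

end FLTAgent.Lowering.P7
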