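import Fermat.Agent.EigenLattice.Extend
import Fermat.Agent.EigenReps.Hecke
import Mathlib.NumberTheory.Padics.PadicIntegers

/-!
# Coefficients for a system with values in a finite `ℤ_p`-domain

The system extends to a character of the full Hecke algebra with values in the integers of a finite
extension of `ℚ_p`.
-/

set_option autoImplicit false
set_option linter.style.haveILetI false
set_option linter.unusedSectionVars false

noncomputable section

namespace FLTAgent.Lowering.P7

open IsLocalRing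
open FLTAgent.EigenReps (toFull toFull_injective)

/-- A hom to an algebraically closed field extends along an injective hom to a finite ring. -/
theorem exists_extend_closed {T B Ω : Type*} [CommRing T] [CommRing B] [Module.Finite ℤ B]
    [Field Ω] [IsAlgClosed Ω] (ev : T →+* B) (hev : Function.Injective ev) (φ : T →+* Ω) :
    ∃ χ : B →+* Ω, ∀ x, χ (ev x) = φ x := by
  letI : Algebra T B := ev.toAlgebra
  haveI : Algebra.IsIntegral ℤ B := Algebra.IsIntegral.of_finite ℤ _
  haveI : Algebra.IsIntegral T B := Algebra.IsIntegral.tower_top (R := ℤ)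
  haveI : (RingHom.ker φ).IsPrime := RingHom.ker_isPrime φ
  obtain ⟨Q, -, hQ, hQc⟩ := Ideal.exists_ideal_over_prime_of_isIntegral (R := T) (S := B)
    (RingHom.ker φ) ⊥ (by
      rw [← RingHom.ker_eq_comap_bot, RingHom.algebraMap_toAlgebra,
        (RingHom.injective_iff_ker_eq_bot _).1 hev]
      exact bot_le)
  letI : Algebra (T ⧸ RingHom.ker φ) (B ⧸ Q) :=
    (Ideal.quotientMap Q (algebraMap T B) hQc.ge).toAlgebra
  haveI : Algebra.IsIntegral (T ⧸ RingHom.ker φ) (B ⧸ Q) := by
    constructor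
    intro x
    obtain ⟨x, rfl⟩ := Ideal.Quotient.mk_surjective x
    obtain ⟨P, hPm, hP⟩ := Algebra.IsIntegral.isIntegral (R := T) x
    refine ⟨P.map (Ideal.Quotient.mk _), hPm.map _, ?_⟩
    rw [Polynomial.eval₂_map, RingHom.algebraMap_toAlgebra, Ideal.quotientMap_comp_mk,
      ← Polynomial.hom_eval₂, hP, map_zero]
  letI : Algebra (T ⧸ RingHom.ker φ) Ω := (RingHom.kerLift φ).toAlgebra
  haveI : FaithfulSMul (T ⧸ RingHom.ker φ) Ω :=
    (faithfulSMul_iff_algebraMap_injective _ _).2 (RingHom.kerLift_injective φ)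
  haveI : FaithfulSMul (T ⧸ RingHom.ker φ) (B ⧸ Q) :=
    (faithfulSMul_iff_algebraMap_injective _ _).2 (Ideal.quotientMap_injective' hQc.le)
  haveI : Algebra.IsAlgebraic (T ⧸ RingHom.ker φ) (B ⧸ Q) := Algebra.IsIntegral.isAlgebraic
  let F : (B ⧸ Q) →ₐ[T ⧸ RingHom.ker φ] Ω := IsAlgClosed.lift
  exact ⟨F.toRingHom.comp (Ideal.Quotient.mk Q), fun x => F.commutes (Ideal.Quotient.mk _ x)⟩

/-- Coefficients in a complete discrete valuation ring carrying a character of the full algebra. -/
theorem exists_coefficients (p : ℕ) [hp : Fact p.Prime] (N : ℕ) [NeZero N] (bad : Finset ℕ)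
    (A : Type) [CommRing A] [IsDomain A] [CharZero A] [Algebra ℤ_[p] A] [Module.Finite ℤ_[p] A]
    (θ : CuspForm.heckeAlgebra N 2 (↑bad : Set ℕ) →+* A) :
    ∃ (O : Type) (_ : CommRing O) (_ : IsDomain O) (_ : IsDiscreteValuationRing O) (_ : CharZero O)
      (_ : IsAdicComplete (maximalIdeal O) O) (j : A →+* O)
      (χ : CuspForm.heckeAlgebra N 2 (∅ : Set ℕ) →+* O),
      (p : O) ∈ maximalIdeal O ∧ Function.Injective j ∧ ∀ x, χ (toFull N bad x) = j (θ x) := by
  classical
  set K := FractionRing ℤ_[p]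
  set Ω := AlgebraicClosure K
  have hinj : Function.Injective (algebraMap ℤ_[p] A) := by
    rw [RingHom.injective_iff_ker_eq_bot]
    by_contra hne
    haveI : (RingHom.ker (algebraMap ℤ_[p] A)).IsPrime := RingHom.ker_isPrime _
    have h1 : RingHom.ker (algebraMap ℤ_[p] A) = maximalIdeal ℤ_[p] :=
      IsLocalRing.eq_maximalIdeal (Ideal.IsPrime.isMaximal ‹_› hne)
    have h2 : (p : ℤ_[p]) ∈ maximalIdeal ℤ_[p] := by
      rw [PadicInt.maximalIdeal_eq_span_p]; exact Ideal.mem_span_singleton_self _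
    rw [← h1, RingHom.mem_ker, map_natCast] at h2
    exact hp.out.ne_zero (Nat.cast_eq_zero.1 h2)
  haveI : FaithfulSMul ℤ_[p] Ω := (faithfulSMul_iff_algebraMap_injective _ _).2 (by
    rw [IsScalarTower.algebraMap_eq ℤ_[p] K Ω]
    exact (algebraMap K Ω).injective.comp (IsFractionRing.injective ℤ_[p] K))
  haveI : FaithfulSMul ℤ_[p] A := (faithfulSMul_iff_algebraMap_injective _ _).2 hinj
  haveI : Algebra.IsIntegral ℤ_[p] A := Algebra.IsIntegral.of_finite ℤ_[p] A
  haveI : Algebra.IsAlgebraic ℤ_[p] A := Algebra.IsIntegral.isAlgebraic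
  let jΩ : A →ₐ[ℤ_[p]] Ω := IsAlgClosed.lift
  have hjinj : Function.Injective jΩ := by
    rw [injective_iff_map_eq_zero]
    intro a ha
    by_contra h0
    obtain ⟨c, hc, hca⟩ :=
      (Algebra.IsAlgebraic.isAlgebraic (R := ℤ_[p]) a).exists_nonzero_dvd
        (mem_nonZeroDivisors_of_ne_zero h0)
    obtain ⟨b, hb⟩ := hca
    have h1 := congrArg jΩ hb
    rw [AlgHom.commutes, map_mul, ha, zero_mul] at h1
    exact hc (FaithfulSMul.algebraMap_injective ℤ_[p] Ω (h1.trans (map_zero _).symm))
  haveI : Module.Finite ℤ (CuspForm.heckeAlgebra N 2 (∅ : Set ℕ)) := PeriodHecke.finite_hecke N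
  obtain ⟨χΩ, hχ⟩ := exists_extend_closed (toFull N bad) (toFull_injective N bad)
    (jΩ.toRingHom.comp θ)
  obtain ⟨gA, hgA⟩ := (inferInstance : Module.Finite ℤ_[p] A).fg_top
  obtain ⟨gT, hgT⟩ :=
    (inferInstance : Module.Finite ℤ (CuspForm.heckeAlgebra N 2 (∅ : Set ℕ))).fg_top
  set L := IntermediateField.adjoin K (jΩ '' (gA : Set A) ∪ χΩ '' ↑gT)
  have hintA : ∀ a, IsIntegral ℤ_[p] (jΩ a) := fun a =>
    (Algebra.IsIntegral.isIntegral a).map jΩ
  have hintT : ∀ t, IsIntegral ℤ (χΩ t) := fun t => by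
    haveI := Algebra.IsIntegral.of_finite ℤ (CuspForm.heckeAlgebra N 2 (∅ : Set ℕ))
    convert map_isIntegral_int χΩ (Algebra.IsIntegral.isIntegral t)
    exact Subsingleton.elim _ _
  haveI : FiniteDimensional K L := by
    haveI : Finite ↥(jΩ '' (gA : Set A) ∪ χΩ '' ↑gT) :=
      (((Finset.finite_toSet gA).image _).union ((Finset.finite_toSet gT).image _)).to_subtype
    refine IntermediateField.finiteDimensional_adjoin fun x hx => ?_
    rcases hx with ⟨a, -, rfl⟩ | ⟨t, -, rfl⟩
    · exact (hintA a).tower_top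
    · exact (hintT t).tower_top
  letI : Algebra ℤ_[p] L := ((algebraMap K L).comp (algebraMap ℤ_[p] K)).toAlgebra
  haveI : IsScalarTower ℤ_[p] K L := IsScalarTower.of_algebraMap_eq fun _ => rfl
  obtain ⟨hdvr, -, hfin, hloc, hinjO⟩ := EigenLattice.exists_integers ℤ_[p] L
  haveI := hdvr
  haveI := hfin
  haveI := hloc
  haveI : IsAdicComplete (maximalIdeal (integralClosure ℤ_[p] L)) (integralClosure ℤ_[p] L) :=
    IsLocalRing.isAdicComplete_of_module_finite (𝒪 := ℤ_[p])
  haveI : CharZero (integralClosure ℤ_[p] L) := charZero_of_injective_algebraMap hinjO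
  have hmemA : ∀ a, jΩ a ∈ L := fun a => by
    have ha : a ∈ Submodule.span ℤ_[p] (gA : Set A) := hgA ▸ Submodule.mem_top
    induction ha using Submodule.span_induction with
    | mem x hx => exact IntermediateField.subset_adjoin K _ (Or.inl ⟨x, hx, rfl⟩)
    | zero => rw [map_zero]; exact zero_mem _
    | add x y _ _ hx hy => rw [map_add]; exact add_mem hx hy
    | smul c x _ hx =>
      rw [map_smul, Algebra.smul_def, IsScalarTower.algebraMap_apply ℤ_[p] K Ω]
      exact mul_mem (IntermediateField.algebraMap_mem _ _) hx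
  have hmemT : ∀ t, χΩ t ∈ L := fun t => by
    have ht : t ∈ Submodule.span ℤ (gT : Set (CuspForm.heckeAlgebra N 2 (∅ : Set ℕ))) :=
      hgT ▸ Submodule.mem_top
    induction ht using Submodule.span_induction with
    | mem x hx => exact IntermediateField.subset_adjoin K _ (Or.inr ⟨x, hx, rfl⟩)
    | zero => rw [map_zero]; exact zero_mem _
    | add x y _ _ hx hy => rw [map_add]; exact add_mem hx hy
    | smul c x _ hx => rw [map_zsmul]; exact zsmul_mem hx c
  let jL : A →+* L := jΩ.toRingHom.codRestrict L hmemA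
  let χL : CuspForm.heckeAlgebra N 2 (∅ : Set ℕ) →+* L := χΩ.codRestrict L hmemT
  have hiA : ∀ a, jL a ∈ integralClosure ℤ_[p] L := fun a =>
    (isIntegral_algHom_iff (L.val.restrictScalars ℤ_[p]) Subtype.val_injective).1 (hintA a)
  have hiT : ∀ t, χL t ∈ integralClosure ℤ_[p] L := fun t => by
    haveI := Algebra.IsIntegral.of_finite ℤ (CuspForm.heckeAlgebra N 2 (∅ : Set ℕ))
    exact (map_isIntegral_int χL (Algebra.IsIntegral.isIntegral t)).tower_top
  refine ⟨integralClosure ℤ_[p] L, inferInstance, inferInstance, inferInstance, inferInstance,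
    inferInstance, jL.codRestrict (integralClosure ℤ_[p] L).toSubring hiA,
    χL.codRestrict (integralClosure ℤ_[p] L).toSubring hiT, ?_, fun a b h => ?_, fun x => ?_⟩
  · have h2 : (p : ℤ_[p]) ∈ maximalIdeal ℤ_[p] := by
      rw [PadicInt.maximalIdeal_eq_span_p]; exact Ideal.mem_span_singleton_self _
    rw [mem_maximalIdeal] at h2 ⊢
    exact fun hu => h2 (IsUnit.of_map (algebraMap ℤ_[p] (integralClosure ℤ_[p] L)) _
      (by rw [map_natCast]; exact hu))
  · exact hjinj (congrArg (fun z : integralClosure ℤ_[p] L => ((z : L) : Ω)) h)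
  · exact Subtype.ext (Subtype.ext (hχ x))

end FLTAgent.Lowering.P7
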