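import Fermat.Agent.DetCyclo.Basic

/-!
# Two representations tied by quadratic relations

`m` satisfies at almost all Frobenius elements the characteristic relation of `R`, some commutator
of `R` has trace different from two. Then the relation holds everywhere, the determinants agree,
`m` has a commutator of trace different from two, and `m` is trivial on the kernel of `R`.
-/

set_option autoImplicit false
set_option linter.style.haveILetI false

noncomputable section

namespace FLTAgent.Lowering.P7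

open Matrix FLTAgent.Deformation FLTAgent.DetCyclo IsLocalRing

local notation "GG" => (AlgebraicClosure ℚ ≃ₐ[ℚ] AlgebraicClosure ℚ)

section Field

variable {K : Type*} [Field K] {G : Type*} [Group G] (m : G →* Matrix (Fin 2) (Fin 2) K)

theorem det_hom_ne (g : G) : (m g).det ≠ 0 := fun h => by
  have h1 := congrArg Matrix.det (map_mul m g g⁻¹)
  rw [mul_inv_cancel, map_one, Matrix.det_one, Matrix.det_mul, h, zero_mul] at h1
  exact one_ne_zero h1

/-- A singular additive commutator gives a commutator of trace two. -/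
theorem trace_commutator_of_det_sub (g h : G) (hZ : (m g * m h - m h * m g).det = 0) :
    (m (g * h * g⁻¹ * h⁻¹)).trace = 2 := by
  set C := m (g * h * g⁻¹ * h⁻¹)
  have hC : C * (m h * m g) = m g * m h := by
    rw [← map_mul, ← map_mul, ← map_mul]
    congr 1
    group
  have hd : C.det = 1 := by
    have e : ∀ x : G, (m x).det * (m x⁻¹).det = 1 := fun x => by
      rw [← Matrix.det_mul, ← map_mul, mul_inv_cancel, map_one, Matrix.det_one]
    show (m (g * h * g⁻¹ * h⁻¹)).det = 1
    rw [map_mul, map_mul, map_mul, Matrix.det_mul, Matrix.det_mul, Matrix.det_mul]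
    linear_combination (m h).det * (m h⁻¹).det * e g + e h
  have h2 : (C - 1).det = 2 - C.trace := by
    rw [Matrix.det_fin_two] at hd
    simp [Matrix.det_fin_two, Matrix.trace_fin_two]
    linear_combination hd
  rw [← hC, ← sub_one_mul, Matrix.det_mul, Matrix.det_mul, h2] at hZ
  rcases mul_eq_zero.1 hZ with h0 | h0
  · exact (sub_eq_zero.1 h0).symm
  · rcases mul_eq_zero.1 h0 with h0 | h0 <;> exact absurd h0 (det_hom_ne m _)

theorem trace_of_sq_zero {N : Matrix (Fin 2) (Fin 2) K} (hN : N * N = 0) : N.trace = 0 :=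
  (Matrix.isNilpotent_trace_of_isNilpotent ⟨2, by rw [pow_two]; exact hN⟩).eq_zero

variable {m} (hgh : ∃ g h : G, (m (g * h * g⁻¹ * h⁻¹)).trace ≠ 2)

include hgh in
/-- No nonzero nilpotent matrix is orthogonal to the image. -/
theorem eq_zero_of_nilpotent {N : Matrix (Fin 2) (Fin 2) K} (hN : N * N = 0)
    (htr : ∀ g, (N * m g).trace = 0) : N = 0 := by
  by_contra hne
  obtain ⟨g, h, hgh⟩ := hgh
  refine hgh (trace_commutator_of_det_sub m g h ?_)
  have ht := trace_of_sq_zero hN
  rw [Matrix.trace_fin_two] at ht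
  have h00 := congrFun (congrFun hN 0) 0
  have hg := htr g
  have hh := htr h
  simp [Matrix.mul_apply, Matrix.trace_fin_two, Fin.sum_univ_two] at h00 hg hh
  have h11 : N 1 1 = -N 0 0 := by linear_combination ht
  rw [h11] at hg hh
  set A := m g
  set B := m h
  simp [Matrix.det_fin_two, Matrix.mul_apply, Fin.sum_univ_two]
  by_cases hb : N 0 1 = 0
  · have ha : N 0 0 = 0 := by
      rw [hb, zero_mul, add_zero] at h00
      exact mul_self_eq_zero.1 h00
    have hc : N 1 0 ≠ 0 := fun hc => hne (by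
      ext i j; fin_cases i <;> fin_cases j <;> simp [ha, hb, hc, h11])
    rw [ha, hb] at hg hh
    have hA : A 0 1 = 0 := by
      refine (mul_eq_zero.1 (?_ : N 1 0 * A 0 1 = 0)).resolve_left hc
      linear_combination hg
    have hB : B 0 1 = 0 := by
      refine (mul_eq_zero.1 (?_ : N 1 0 * B 0 1 = 0)).resolve_left hc
      linear_combination hh
    rw [hA, hB]; ring
  · set t := N 0 0 / N 0 1
    have ha : N 0 0 = t * N 0 1 := (div_mul_cancel₀ _ hb).symm
    have hc : N 1 0 = -(t * t * N 0 1) := by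
      refine mul_left_cancel₀ hb ?_
      linear_combination h00 - (N 0 0 + t * N 0 1) * ha
    rw [ha, hc] at hg hh
    have hA : A 1 0 = t * t * A 0 1 - t * A 0 0 + t * A 1 1 := by
      refine mul_left_cancel₀ hb ?_
      linear_combination hg
    have hB : B 1 0 = t * t * B 0 1 - t * B 0 0 + t * B 1 1 := by
      refine mul_left_cancel₀ hb ?_
      linear_combination hh
    rw [hA, hB]; ring

include hgh in
/-- A matrix commuting with the image is scalar. -/
theorem scalar_of_commute {X : Matrix (Fin 2) (Fin 2) K} (hX : ∀ g, X * m g = m g * X) :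
    IsScalarMat X := by
  by_contra hne
  obtain ⟨g, h, hgh⟩ := hgh
  refine hgh (trace_commutator_of_det_sub m g h ?_)
  suffices e : m g * m h - m h * m g = 0 by rw [e]; simp
  set A := m g
  set B := m h
  have eA := fun i j => congrFun (congrFun (hX g) i) j
  have eB := fun i j => congrFun (congrFun (hX h) i) j
  have a00 := eA 0 0
  have a01 := eA 0 1
  have a10 := eA 1 0
  have b00 := eB 0 0
  have b01 := eB 0 1
  have b10 := eB 1 0
  simp only [Matrix.mul_apply, Fin.sum_univ_two] at a00 a01 a10 b00 b01 b10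
  by_cases h01 : X 0 1 = 0
  · by_cases h10 : X 1 0 = 0
    · have hd : X 0 0 - X 1 1 ≠ 0 := fun e => hne ⟨h01, h10, sub_eq_zero.1 e⟩
      rw [h01] at a01 b01
      rw [h10] at a10 b10
      have A01 : A 0 1 = 0 := (mul_eq_zero.1 (show (X 0 0 - X 1 1) * A 0 1 = 0 by
        linear_combination a01)).resolve_left hd
      have A10 : A 1 0 = 0 := (mul_eq_zero.1 (show (X 0 0 - X 1 1) * A 1 0 = 0 by
        linear_combination -a10)).resolve_left hd
      have B01 : B 0 1 = 0 := (mul_eq_zero.1 (show (X 0 0 - X 1 1) * B 0 1 = 0 by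
        linear_combination b01)).resolve_left hd
      have B10 : B 1 0 = 0 := (mul_eq_zero.1 (show (X 0 0 - X 1 1) * B 1 0 = 0 by
        linear_combination -b10)).resolve_left hd
      ext i j
      fin_cases i <;> fin_cases j <;>
        simp [Matrix.mul_apply, Fin.sum_univ_two, A01, A10, B01, B10] <;> ring
    · set e := (X 0 0 - X 1 1) / X 1 0
      have he : X 0 0 - X 1 1 = e * X 1 0 := (div_mul_cancel₀ _ h10).symm
      rw [h01] at a00 b00
      have A01 : A 0 1 = 0 := (mul_eq_zero.1 (show X 1 0 * A 0 1 = 0 by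
        linear_combination -a00)).resolve_left h10
      have B01 : B 0 1 = 0 := (mul_eq_zero.1 (show X 1 0 * B 0 1 = 0 by
        linear_combination -b00)).resolve_left h10
      have A00 : A 0 0 = A 1 1 + e * A 1 0 := mul_left_cancel₀ h10 (by
        linear_combination a10 + A 1 0 * he)
      have B00 : B 0 0 = B 1 1 + e * B 1 0 := mul_left_cancel₀ h10 (by
        linear_combination b10 + B 1 0 * he)
      ext i j
      fin_cases i <;> fin_cases j <;>
        simp [Matrix.mul_apply, Fin.sum_univ_two, A01, B01, A00, B00] <;> ring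
  · set u := X 1 0 / X 0 1
    set e := (X 0 0 - X 1 1) / X 0 1
    have hu : X 1 0 = u * X 0 1 := (div_mul_cancel₀ _ h01).symm
    have he : X 0 0 - X 1 1 = e * X 0 1 := (div_mul_cancel₀ _ h01).symm
    have A10 : A 1 0 = u * A 0 1 := mul_left_cancel₀ h01 (by
      linear_combination a00 + A 0 1 * hu)
    have B10 : B 1 0 = u * B 0 1 := mul_left_cancel₀ h01 (by
      linear_combination b00 + B 0 1 * hu)
    have A11 : A 1 1 = A 0 0 - e * A 0 1 := mul_left_cancel₀ h01 (by
      linear_combination a01 - A 0 1 * he)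
    have B11 : B 1 1 = B 0 0 - e * B 0 1 := mul_left_cancel₀ h01 (by
      linear_combination b01 - B 0 1 * he)
    ext i j
    fin_cases i <;> fin_cases j <;>
      simp [Matrix.mul_apply, Fin.sum_univ_two, A10, B10, A11, B11] <;> ring

include hgh in
/-- A normal subgroup acting by unipotent matrices acts trivially. -/
theorem eq_one_of_unipotent_kernel (H : Subgroup G) [H.Normal]
    (hH : ∀ x ∈ H, (m x - 1) * (m x - 1) = 0) {x : G} (hx : x ∈ H) : m x = 1 := by
  refine sub_eq_zero.1 (eq_zero_of_nilpotent hgh (hH x hx) fun g => ?_)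
  set N := m x - 1 with hN
  set B := m g with hB
  set B' := m g⁻¹ with hB'
  have hy : g * x * g⁻¹ ∈ H := Subgroup.Normal.conj_mem ‹H.Normal› x hx g
  have hBB : B * B' = 1 := by rw [hB, hB', ← map_mul, mul_inv_cancel, map_one]
  have hN' : m (g * x * g⁻¹) - 1 = B * N * B' := by
    rw [map_mul, map_mul, ← hB, ← hB', hN, mul_sub, mul_one, sub_mul, hBB]
  have hd := det_hom_ne m g
  rw [← hB] at hd
  have hNN : (N * (B * N * B')).trace = 0 := by
    have h1 := trace_of_sq_zero (hH _ (H.mul_mem hx hy))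
    have h2 := trace_of_sq_zero (hH x hx)
    have h3 := trace_of_sq_zero (hH _ hy)
    rw [hN'] at h3
    rw [map_mul, show m x * m (g * x * g⁻¹) - 1 =
      N + (m (g * x * g⁻¹) - 1) + N * (m (g * x * g⁻¹) - 1) by rw [hN]; noncomm_ring, hN',
      Matrix.trace_add, Matrix.trace_add, h2, h3, zero_add, zero_add] at h1
    exact h1
  have h00 := congrFun (congrFun (hH x hx) 0) 0
  have ht := trace_of_sq_zero (hH x hx)
  rw [← hN] at h00 ht
  have hadj : B.det • B' = B.adjugate := by
    have h := congrArg (B.adjugate * ·) hBB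
    simp only [← mul_assoc, Matrix.adjugate_mul, smul_mul_assoc, one_mul, mul_one] at h
    exact h
  have h3 : (N * (B * N * B.adjugate)).trace = 0 := by
    rw [← hadj, Matrix.mul_smul, Matrix.mul_smul, Matrix.trace_smul, hNN, smul_zero]
  rw [Matrix.adjugate_fin_two] at h3
  simp [Matrix.mul_apply, Matrix.trace_fin_two, Fin.sum_univ_two] at h00 ht h3 ⊢
  have h11 : N 1 1 = -N 0 0 := by linear_combination ht
  rw [h11] at h3 ⊢
  refine mul_self_eq_zero.1 ?_
  linear_combination -h3 + (B 0 0 * B 0 0 + B 1 1 * B 1 1 + 2 * (B 0 1 * B 1 0)) * h00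

end Field

section Relation

variable {R₀ : Type*} [CommRing R₀]

/-- A characteristic relation passes to powers. -/
theorem quad_pow {X A : Matrix (Fin 2) (Fin 2) R₀}
    (hX : X * X - A.trace • X + A.det • 1 = 0) (k : ℕ) :
    X ^ k * X ^ k - (A ^ k).trace • X ^ k + (A ^ k).det • 1 = 0 := by
  obtain ⟨u, v, hXk, hAk⟩ : ∃ u v : R₀, X ^ k = u • X + v • 1 ∧ A ^ k = u • A + v • 1 := by
    induction k with
    | zero => exact ⟨0, 1, by simp, by simp⟩
    | succ k ih =>
      obtain ⟨u, v, h1, h2⟩ := ih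
      refine ⟨u * A.trace + v, -(u * A.det), ?_, ?_⟩
      · rw [pow_succ, h1, add_mul, smul_mul_assoc, smul_mul_assoc, one_mul,
          show X * X = A.trace • X - A.det • (1 : Matrix (Fin 2) (Fin 2) R₀) by
            rw [← sub_eq_zero, ← hX]; abel,
          smul_sub, smul_smul, smul_smul, add_smul, neg_smul]
        abel
      · rw [pow_succ, h2, add_mul, smul_mul_assoc, smul_mul_assoc, one_mul]
        ext i j
        fin_cases i <;> fin_cases j <;>
          simp [Matrix.mul_apply, Fin.sum_univ_two, Matrix.trace_fin_two, Matrix.det_fin_two] <;>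
          ring
  have ht : (A ^ k).trace = u * A.trace + 2 * v := by
    rw [hAk]; simp [Matrix.trace_fin_two]; ring
  have hd : (A ^ k).det = u * u * A.det + u * v * A.trace + v * v := by
    rw [hAk]; simp [Matrix.det_fin_two, Matrix.trace_fin_two]; ring
  rw [ht, hd, hXk,
    show (u • X + v • 1) * (u • X + v • 1) - (u * A.trace + 2 * v) • (u • X + v • 1) +
      (u * u * A.det + u * v * A.trace + v * v) • (1 : Matrix (Fin 2) (Fin 2) R₀) =
      (u * u) • (X * X - A.trace • X + A.det • 1) by
      simp only [add_mul, mul_add, smul_mul_assoc, mul_smul_comm, mul_one, one_mul, smul_smul,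
        smul_add, smul_sub]
      module,
    hX, smul_zero]

theorem det_hom_commutator {G : Type*} [Group G] (m : G →* Matrix (Fin 2) (Fin 2) R₀) (g h : G) :
    (m (g * h * g⁻¹ * h⁻¹)).det = 1 := by
  have e : ∀ x : G, (m x).det * (m x⁻¹).det = 1 := fun x => by
    rw [← Matrix.det_mul, ← map_mul, mul_inv_cancel, map_one, Matrix.det_one]
  rw [map_mul, map_mul, map_mul, Matrix.det_mul, Matrix.det_mul, Matrix.det_mul]
  linear_combination (m h).det * (m h⁻¹).det * e g + e h

end Relation

section Adic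

variable {O : Type} [CommRing O] [IsLocalRing O] [IsDomain O] [CharZero O]
  [IsHausdorff (maximalIdeal O) O] (p : ℕ) [Fact p.Prime]
  {m R : GG →* M2 O} (hm : MatCts m) (hR : MatCts R) (S : Finset ℕ)

omit [IsDomain O] [CharZero O] [IsHausdorff (maximalIdeal O) O] in
include hm hR in
/-- Modulo a power of the maximal ideal both representations are powers of Frobenius elements. -/
theorem exists_frobenius_mod (n : ℕ) (g : GG) :
    ∃ (ℓ : ℕ) (V : ValuationSubring (AlgebraicClosure ℚ)) (τ : GG) (k : ℕ), ℓ.Prime ∧ ℓ ∉ S ∧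
      V.LiesOverPrime ℓ ∧ V.IsFrobeniusAt τ ℓ ∧
      (Ideal.Quotient.mk (maximalIdeal O ^ n)).mapMatrix (m g) =
        (Ideal.Quotient.mk (maximalIdeal O ^ n)).mapMatrix (m τ ^ k) ∧
      (Ideal.Quotient.mk (maximalIdeal O ^ n)).mapMatrix (R g) =
        (Ideal.Quotient.mk (maximalIdeal O ^ n)).mapMatrix (R τ ^ k) := by
  obtain ⟨L₁, hL₁, h₁⟩ := hm n
  obtain ⟨L₂, hL₂, h₂⟩ := hR n
  haveI := hL₁
  haveI := hL₂
  obtain ⟨ℓ, V, τ, k, hℓ, hℓS, hV, hτ, heq⟩ := Frobenius.exists_frobenius_pow_eqOn (L₁ ⊔ L₂) g S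
  have hfix : ∀ x ∈ L₁ ⊔ L₂, ((τ ^ k)⁻¹ * g) x = x := fun x hx => by
    rw [AlgEquiv.mul_apply, heq x hx, ← AlgEquiv.mul_apply, inv_mul_cancel, AlgEquiv.one_apply]
  set q := Ideal.Quotient.mk (maximalIdeal O ^ n)
  have key : ∀ (r : GG →* M2 O), (∀ i j, (r ((τ ^ k)⁻¹ * g) - 1) i j ∈ maximalIdeal O ^ n) →
      q.mapMatrix (r g) = q.mapMatrix (r τ ^ k) := by
    intro r h
    have hz : q.mapMatrix (r ((τ ^ k)⁻¹ * g)) = 1 := by
      rw [← map_one q.mapMatrix]
      ext i j
      rw [RingHom.mapMatrix_apply, RingHom.mapMatrix_apply, Matrix.map_apply, Matrix.map_apply,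
        Ideal.Quotient.eq, ← Matrix.sub_apply]
      exact h i j
    conv_lhs => rw [show g = τ ^ k * ((τ ^ k)⁻¹ * g) by rw [mul_inv_cancel_left]]
    rw [map_mul, map_mul, hz, mul_one, map_pow r]
  exact ⟨ℓ, V, τ, k, hℓ, hℓS, hV, hτ,
    key m (h₁ _ fun x hx => hfix x ((le_sup_left : L₁ ≤ L₁ ⊔ L₂) hx)),
    key R (h₂ _ fun x hx => hfix x ((le_sup_right : L₂ ≤ L₁ ⊔ L₂) hx))⟩

variable (hrel : ∀ ℓ : ℕ, ℓ.Prime → ℓ ∉ S → ∀ V : ValuationSubring (AlgebraicClosure ℚ),
  V.LiesOverPrime ℓ → ∀ τ : GG, V.IsFrobeniusAt τ ℓ →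
    m τ * m τ - (R τ).trace • m τ + (R τ).det • 1 = 0)

include hm hR hrel in
/-- The relation holds everywhere. -/
theorem relation_all (g : GG) : m g * m g - (R g).trace • m g + (R g).det • 1 = 0 := by
  have h : ∀ n i j, (m g * m g - (R g).trace • m g + (R g).det • 1) i j - 0 ∈
      maximalIdeal O ^ n := by
    intro n i j
    obtain ⟨ℓ, V, τ, k, hℓ, hℓS, hV, hτ, e1, e2⟩ := exists_frobenius_mod hm hR S n g
    set q := Ideal.Quotient.mk (maximalIdeal O ^ n) with hq
    have hs : ∀ (c : O) (X : M2 O), q.mapMatrix (c • X) = q c • q.mapMatrix X := fun c X => by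
      ext a b; simp
    have e : q.mapMatrix (m g * m g - (R g).trace • m g + (R g).det • 1) = 0 := by
      have h0 := congrArg q.mapMatrix (quad_pow (hrel ℓ hℓ hℓS V hV τ hτ) k)
      rw [map_zero] at h0
      rw [← h0]
      simp only [map_add, map_sub, map_mul, hs, map_one, e1]
      have et : q ((R g).trace) = q ((R τ ^ k).trace) := by
        simp only [Matrix.trace_fin_two, map_add]
        exact congrArg₂ (· + ·) (congrFun (congrFun e2 0) 0) (congrFun (congrFun e2 1) 1)
      have ed : q ((R g).det) = q ((R τ ^ k).det) := by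
        rw [RingHom.map_det, RingHom.map_det, e2]
      rw [et, ed]
    rw [sub_zero, ← Ideal.Quotient.eq_zero_iff_mem]
    exact congrFun (congrFun e i) j
  ext i j
  exact eq_of_forall_sub_mem fun n => h n i j

variable (hgh : ∃ g h : GG, (R (g * h * g⁻¹ * h⁻¹)).trace ≠ 2)

include hR hgh in
/-- Some Frobenius element is not of Eisenstein type. -/
theorem exists_not_eisenstein_frobenius :
    ∃ (ℓ : ℕ) (V : ValuationSubring (AlgebraicClosure ℚ)) (τ : GG), ℓ.Prime ∧ ℓ ∉ S ∧
      V.LiesOverPrime ℓ ∧ V.IsFrobeniusAt τ ℓ ∧ (R τ).trace ≠ 1 + (R τ).det := by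
  by_contra hall
  push Not at hall
  obtain ⟨g₀, h₀, hne⟩ := hgh
  refine hne ?_
  have key : ∀ g, (R g).trace = 1 + (R g).det := fun g => eq_of_forall_sub_mem fun n => by
    obtain ⟨ℓ, V, τ, k, hℓ, hℓS, hV, hτ, -, e2⟩ := exists_frobenius_mod hR hR S n g
    rw [← Ideal.Quotient.eq]
    set q := Ideal.Quotient.mk (maximalIdeal O ^ n)
    have et : q ((R g).trace) = q ((R τ ^ k).trace) := by
      simp only [Matrix.trace_fin_two, map_add]
      exact congrArg₂ (· + ·) (congrFun (congrFun e2 0) 0) (congrFun (congrFun e2 1) 1)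
    have ed : q ((R g).det) = q ((R τ ^ k).det) := by rw [RingHom.map_det, RingHom.map_det, e2]
    have h1 : (R τ).trace = (Matrix.diagonal ![(1 : O), (R τ).det]).trace := by
      rw [hall ℓ V τ hℓ hℓS hV hτ]; simp [Matrix.trace_fin_two]
    have h2 : (R τ).det = (Matrix.diagonal ![(1 : O), (R τ).det]).det := by simp
    rw [map_add, et, ed, Frobenius.trace_pow_eq h1 h2 k, Matrix.det_pow]
    simp [Matrix.diagonal_pow, Matrix.trace_fin_two]
  rw [key, det_hom_commutator]
  norm_num

include hm hR hrel hgh in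
theorem exists_not_scalar : ∃ g, ¬ IsScalarMat (m g) := by
  by_contra hall
  push Not at hall
  obtain ⟨g, h, hne⟩ := hgh
  refine hne ?_
  have hc : m g * m h = m h * m g := by
    rw [exists_eq_smul_one (hall g), exists_eq_smul_one (hall h), smul_mul_smul_comm,
      smul_mul_smul_comm, mul_comm]
  have hC : m (g * h * g⁻¹ * h⁻¹) = 1 := by
    rw [map_mul, map_mul, map_mul, hc, mul_assoc (m h) (m g), ← map_mul m g g⁻¹, mul_inv_cancel,
      map_one, mul_one, ← map_mul, mul_inv_cancel, map_one]
  have h2 := congrFun (congrFun (relation_all hm hR S hrel (g * h * g⁻¹ * h⁻¹)) 0) 0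
  rw [hC, det_hom_commutator] at h2
  simp [-map_mul] at h2
  linear_combination -h2

include hm hR hrel hgh in
/-- The determinants agree. -/
theorem det_eq_det (g : GG) : (m g).det = (R g).det := by
  obtain ⟨g₁, hg₁⟩ := exists_not_scalar hm hR S hrel hgh
  have key : ∀ x, ¬ IsScalarMat (m x) → (m x).det = (R x).det := fun x hx =>
    (trace_det_of_relation hx (relation_all hm hR S hrel x)).2
  by_cases hg : IsScalarMat (m g)
  · have hns : ¬ IsScalarMat (m (g * g₁)) := fun h => hg₁ (by
      have h' := (hg.of_mul_eq_one (M' := m g⁻¹) (by rw [← map_mul, mul_inv_cancel, map_one])).mul h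
      rwa [← map_mul, inv_mul_cancel_left] at h')
    have h1 := key _ hns
    rw [map_mul, map_mul, Matrix.det_mul, Matrix.det_mul, key _ hg₁] at h1
    refine mul_right_cancel₀ (fun h0 => ?_) h1
    have h2 := congrArg Matrix.det (map_mul R g₁ g₁⁻¹)
    rw [mul_inv_cancel, map_one, Matrix.det_one, Matrix.det_mul, h0, zero_mul] at h2
    exact one_ne_zero h2
  · exact key g hg

include hm hR hrel hgh in
/-- Some commutator of `m` has trace different from two. -/
theorem exists_trace_commutator_ne_two : ∃ g h : GG, (m (g * h * g⁻¹ * h⁻¹)).trace ≠ 2 := by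
  obtain ⟨g, h, hne⟩ := hgh
  refine ⟨g, h, ?_⟩
  have hr := relation_all hm hR S hrel (g * h * g⁻¹ * h⁻¹)
  rw [det_hom_commutator] at hr
  by_cases hs : IsScalarMat (m (g * h * g⁻¹ * h⁻¹))
  · intro ht
    have h11 := hs.2.2
    rw [Matrix.trace_fin_two, ← h11] at ht
    have hc : m (g * h * g⁻¹ * h⁻¹) 0 0 = 1 := by
      refine mul_left_cancel₀ (two_ne_zero' O) ?_
      linear_combination ht
    rw [exists_eq_smul_one hs, hc, one_smul, mul_one] at hr
    have h2 := congrFun (congrFun hr 0) 0
    simp [-map_mul] at h2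
    exact hne (by linear_combination -h2)
  · rw [(trace_det_of_relation hs hr).1]
    exact hne

include hm hR hrel hgh in
/-- `m` is trivial where `R` is. -/
theorem eq_one_of_eq_one {x : GG} (hx : R x = 1) : m x = 1 := by
  set K := FractionRing O
  set ι : O →+* K := algebraMap O K
  let mK : GG →* Matrix (Fin 2) (Fin 2) K := ι.mapMatrix.toMonoidHom.comp m
  obtain ⟨g, h, hne⟩ := exists_trace_commutator_ne_two hm hR S hrel hgh
  have hghK : ∃ g h : GG, (mK (g * h * g⁻¹ * h⁻¹)).trace ≠ 2 := by
    refine ⟨g, h, fun ht => hne (IsFractionRing.injective O K ?_)⟩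
    show ι _ = ι _
    rw [map_ofNat, ← ht]
    simp [mK, Matrix.trace_fin_two, -map_mul]
  have hker : ∀ y ∈ R.ker, (mK y - 1) * (mK y - 1) = 0 := fun y hy => by
    have hr := relation_all hm hR S hrel y
    rw [MonoidHom.mem_ker.1 hy] at hr
    simp at hr
    have e : (m y - 1) * (m y - 1) = 0 := by
      rw [← hr]; simp only [mul_sub, sub_mul, mul_one, one_mul]; module
    show (ι.mapMatrix (m y) - 1) * (ι.mapMatrix (m y) - 1) = 0
    rw [← map_one ι.mapMatrix, ← map_sub, ← map_mul, e, map_zero]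
  have h1 := eq_one_of_unipotent_kernel hghK R.ker hker (MonoidHom.mem_ker.2 hx)
  ext i j
  have h2 := congrFun (congrFun h1 i) j
  refine IsFractionRing.injective O K ?_
  show ι _ = ι _
  rw [show ι ((1 : M2 O) i j) = (ι.mapMatrix (1 : M2 O)) i j from rfl, map_one]
  exact h2

include hm hR hrel hgh in
/-- A matrix commuting with the image of `m` is scalar. -/
theorem isScalarMat_of_commute {X : M2 O} (hX : ∀ g, X * m g = m g * X) : IsScalarMat X := by
  set K := FractionRing O
  set ι : O →+* K := algebraMap O K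
  let mK : GG →* Matrix (Fin 2) (Fin 2) K := ι.mapMatrix.toMonoidHom.comp m
  obtain ⟨g, h, hne⟩ := exists_trace_commutator_ne_two hm hR S hrel hgh
  have hghK : ∃ g h : GG, (mK (g * h * g⁻¹ * h⁻¹)).trace ≠ 2 := by
    refine ⟨g, h, fun ht => hne (IsFractionRing.injective O K ?_)⟩
    show ι _ = ι _
    rw [map_ofNat, ← ht]
    simp [mK, Matrix.trace_fin_two, -map_mul]
  obtain ⟨h1, h2, h3⟩ := scalar_of_commute hghK (X := ι.mapMatrix X) fun g => by
    show ι.mapMatrix X * ι.mapMatrix (m g) = ι.mapMatrix (m g) * ι.mapMatrix X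
    rw [← map_mul, ← map_mul, hX]
  have hi : Function.Injective ι := IsFractionRing.injective O K
  exact ⟨hi (h1.trans (map_zero ι).symm), hi (h2.trans (map_zero ι).symm), hi h3⟩

end Adic

end FLTAgent.Lowering.P7
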