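import Fermat.Agent.Specialization.Modular

/-!
# Algebra structures of the special fibres, found once

The search for these structures is slow; they are used as local instances.
-/

set_option autoImplicit false
set_option synthInstance.maxHeartbeats 400000

noncomputable section

open ModularCurve

namespace FLTAgent.Lowering.P7

open FLTAgent.Specialization

/-- The functions on a special fibre as an algebra over the constants. -/
@[instance_reducible]
def fullCAlgebra (k : Type) [Field k] (M : ℕ) [NeZero M] :
    Algebra k (modularFunctionFieldFullC k M) := inferInstance

/-- Laurent series as an algebra over the constants. -/
@[instance_reducible]
def laurentAlgebra (k : Type) [Field k] : Algebra k (LaurentSeries k) := inferInstance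

/-- The functions on the modular curve as an algebra over the constants. -/
@[instance_reducible]
def x0BarAlgebra (M : ℕ) [NeZero M] :
    Algebra (AlgebraicClosure ℚ) (X0Bar M) := inferInstance

end FLTAgent.Lowering.P7
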