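import Fermat.Agent.MazurPrinciple.HeckeTrans
import Fermat.Agent.MazurPrinciple.HeckeUnit
import Fermat.Agent.MazurPrinciple.Count
import Fermat.Agent.BadRed.Symmetry
import Fermat.Agent.Lowering.P7.Shortcuts

/-!
# Hecke operators on first reductions of functions of level `Mq`

The reduction of the norm computing `T_r` has for divisor the image of the divisor of the reduction
under the operator of the special fibre of level `M`, so classes with a function whose reduction
has divisor `n` times a specialised divisor are stable under `T_r`.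
-/

set_option autoImplicit false
set_option linter.style.haveILetI false
set_option linter.unusedSectionVars false
set_option synthInstance.maxHeartbeats 400000
set_option maxHeartbeats 1000000

noncomputable section

open AlgebraicCurve ModularCurve IsLocalRing

namespace FLTAgent.Lowering.P7

open FLTAgent.Curves FLTAgent.Specialization FLTAgent.BadRed FLTAgent.MazurPrinciple
open FLTAgent.Kronecker (normAlpha)

local notation "QA" => AlgebraicClosure ℚ

attribute [local instance 2000] fullCAlgebra laurentAlgebra x0BarAlgebra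

section TFun

variable {N r : ℕ} [NeZero N] [Fact r.Prime]

/-- The norm computing `T_r`. -/
def tN (N r : ℕ) [NeZero N] [Fact r.Prime] (f : X0Bar N) : X0Bar N :=
  normAlpha N r (heckeBetaBar QA N r f)

theorem tN_mul (f g : X0Bar N) : tN N r (f * g) = tN N r f * tN N r g := by
  letI := algebraAlong (heckeAlphaBar QA N r)
  show Algebra.norm (X0Bar N) _ = Algebra.norm (X0Bar N) _ * Algebra.norm (X0Bar N) _
  rw [map_mul, map_mul]

theorem tN_algebraMap [NeZero (N * r)] (c : QA) : ∃ d : ℕ,
    tN N r (algebraMap QA (X0Bar N) c) = algebraMap QA (X0Bar N) (c ^ d) := by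
  letI := algebraAlong (heckeAlphaBar QA N r)
  haveI := isScalarTower_along (heckeAlphaBar QA N r)
  refine ⟨Module.finrank (X0Bar N) (X0Bar (N * r)), ?_⟩
  show Algebra.norm (X0Bar N) (heckeBetaBar QA N r _) = _
  rw [AlgHom.commutes, IsScalarTower.algebraMap_apply QA (X0Bar N) (X0Bar (N * r)),
    Algebra.norm_algebraMap, map_pow]

theorem tN_ne_zero [NeZero (N * r)] {f : X0Bar N} (hf : f ≠ 0) : tN N r f ≠ 0 := by
  letI := algebraAlong (heckeAlphaBar QA N r)
  haveI : Module.Finite (X0Bar N) (X0Bar (N * r)) := Kronecker.finiteAlong _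
  exact Algebra.norm_ne_zero_iff.mpr ((_root_.map_ne_zero _).mpr hf)

end TFun

section Quot

variable {N : ℕ} [NeZero N] {A : ValuationSubring QA} {q : ℕ} [Fact q.Prime]
  (hA : A.LiesOverPrime q)

local notation "kk" => ResidueField A

include hA in
/-- Every function is a constant times a quotient of primitive integral series of its level. -/
theorem exists_series_quot {f : X0Bar N} (hf : f ≠ 0) :
    ∃ (c : QA) (ya yb : LaurentSeries A) (ha : coeffMap A.subtype ya ∈ X0Bar N)
      (hb : coeffMap A.subtype yb ∈ X0Bar N), c ≠ 0 ∧ coeffMap (residue A) ya ≠ 0 ∧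
      coeffMap (residue A) yb ≠ 0 ∧
      f * ⟨_, hb⟩ = algebraMap QA (X0Bar N) c * ⟨_, ha⟩ := by
  have hfm : (f : LaurentSeries QA) ∈ modularFunctionFieldFullC QA N := by
    rw [← laurentBaseChange_full_eq]; exact f.2
  rw [modularFunctionFieldFullC, IntermediateField.mem_adjoin_iff_div] at hfm
  obtain ⟨a, ha, b, hb, hab⟩ := hfm
  have hf' : (f : LaurentSeries QA) ≠ 0 := fun h => hf (Subtype.ext h)
  have ha0 : a ≠ 0 := fun h => hf' (by rw [hab, h, zero_div])
  have hb0 : b ≠ 0 := fun h => hf' (by rw [hab, h, div_zero])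
  have hle : Algebra.adjoin QA (divisorExpansionsC QA N) ≤ (X0Bar N).toSubalgebra := by
    rw [X0Bar, laurentBaseChange_full_eq]
    exact IntermediateField.algebra_adjoin_le_adjoin QA _
  obtain ⟨u, ya, hu, hya, hyak⟩ := exists_integral_multiple hA N ha ha0
  obtain ⟨w, yb, hw, hyb, hybk⟩ := exists_integral_multiple hA N hb hb0
  have hma : coeffMap A.subtype ya ∈ X0Bar N :=
    hya.symm ▸ mul_mem (IntermediateField.algebraMap_mem _ _) (hle ha)
  have hmb : coeffMap A.subtype yb ∈ X0Bar N :=
    hyb.symm ▸ mul_mem (IntermediateField.algebraMap_mem _ _) (hle hb)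
  refine ⟨w / u, ya, yb, hma, hmb, div_ne_zero hw hu, hyak, hybk, Subtype.ext ?_⟩
  rw [MulMemClass.coe_mul, MulMemClass.coe_mul, IntermediateField.coe_algebraMap_apply]
  show _ * coeffMap A.subtype yb = _ * coeffMap A.subtype ya
  rw [hya, hyb, hab, map_div₀]
  field_simp [(_root_.map_ne_zero (algebraMap QA (LaurentSeries QA))).2 hu]

include hA in
/-- The reduction of a scaled function through a quotient of series. -/
theorem exists_res_quot {f : X0Bar N} {c : QA} {ya yb : LaurentSeries A}
    {ha : coeffMap A.subtype ya ∈ X0Bar N} {hb : coeffMap A.subtype yb ∈ X0Bar N}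
    (hak : coeffMap (residue A) ya ≠ 0)
    (he : f * ⟨_, hb⟩ = algebraMap QA (X0Bar N) c * ⟨_, ha⟩) {d : QA} {g : LaurentSeries kk}
    (_hg : g ≠ 0) (hr : (laurentReduction (residue A) (X0Bar N)).Res (d • f) g) :
    ∃ (cA : A), (cA : QA) = d * c ∧
      g * coeffMap (residue A) yb =
        algebraMap kk (LaurentSeries kk) (residue A cA) * coeffMap (residue A) ya := by
  set R := laurentReduction (residue A) (X0Bar N)
  have h1 := hr.mul (laurentReduction_res hb)
  rw [smul_mul_assoc, he, ← Algebra.smul_def, smul_smul] at h1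
  by_cases hm : d * c ∈ A
  · refine ⟨⟨_, hm⟩, rfl, ?_⟩
    refine h1.unique ?_
    have h2 := (laurentReduction_res (π := residue A) (E := X0Bar N) ha).smul (⟨_, hm⟩ : A)
    rw [Algebra.smul_def] at h2
    exact h2
  · exfalso
    have hinv : (d * c)⁻¹ ∈ A := (A.mem_or_inv_mem _).resolve_left hm
    have hdc : d * c ≠ 0 := fun h0 => hm (h0 ▸ A.zero_mem)
    have hπ : residue A ⟨_, hinv⟩ = 0 :=
      Reduction.map_eq_zero_of_inv_notMem residue_surjective (by simpa using hm)
    have h2 := (R.res_algebraMap ⟨_, hinv⟩).mul h1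
    rw [hπ, map_zero, zero_mul, ← Algebra.smul_def, smul_smul,
      show ((⟨_, hinv⟩ : A) : QA) * (d * c) = 1 from inv_mul_cancel₀ hdc, one_smul] at h2
    exact hak ((laurentReduction_res ha).unique h2)

end Quot

section Cusps

variable {M : ℕ} [NeZero M] {A : ValuationSubring QA} [IsAlgClosed (ResidueField A)]
  [Curves.IsFunctionField (ResidueField A) (modularFunctionFieldFullC (ResidueField A) M)]
  (hMk : (M : ResidueField A) ≠ 0)
  (hM : (modularModel (residue_surjective (R := A)) M hMk).Smooth)

local notation "kA" => ResidueField A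
local notation "Jk" => modularFunctionFieldFullC (ResidueField A) M

/-- Every place of the special fibre is a specialisation. -/
theorem place_surjective (Q : Place kA Jk) : ∃ P, Model.place hM P = Q := by
  classical
  by_contra hQ
  push Not at hQ
  have hzero : ∀ D : Divisor QA (X0Bar M), Model.divMap hM D Q = 0 := fun D => by
    induction D using Finsupp.induction_linear with
    | zero => simp
    | add D E hD hE => rw [map_add, Finsupp.add_apply, hD, hE, add_zero]
    | single P n => rw [Model.divMap_single, Finsupp.single_eq_of_ne (hQ P).symm]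
  obtain ⟨gb, hgb0, hgb⟩ := exists_ord_eq_int Q 1
  obtain ⟨a, ha, b, hb, hab⟩ := IntermediateField.mem_adjoin_iff_div.1
    (show (gb : LaurentSeries kA) ∈ IntermediateField.adjoin kA (divisorExpansionsC kA M) from gb.2)
  have hgb' : (gb : LaurentSeries kA) ≠ 0 := fun h0 => hgb0 (Subtype.ext h0)
  have hb0 : b ≠ 0 := fun h0 => hgb' (by rw [hab, h0, div_zero])
  have ha0 : a ≠ 0 := fun h0 => hgb' (by rw [hab, h0, zero_div])
  have key : ∀ z, z ∈ Algebra.adjoin kA (divisorExpansionsC kA M) → z ≠ 0 →
      ∃ w : Jk, (w : LaurentSeries kA) = z ∧ w ≠ 0 ∧ Q.ord w = 0 := by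
    intro z hz hz0
    obtain ⟨y, hy, rfl⟩ := Mazur.exists_series_lift (residue_surjective (R := A)) hz
    have hyk : coeffMap (residue A) y ∈ Jk := IntermediateField.algebra_adjoin_le_adjoin _ _ hz
    have hne : (⟨_, hyk⟩ : Jk) ≠ 0 := fun h => hz0 (congrArg Subtype.val h)
    refine ⟨⟨_, hyk⟩, rfl, hne, ?_⟩
    rw [← Curves.divOf_apply, ← Model.divMap_divOf hM
      (modularModel_res_series residue_surjective M hMk hy hyk) hne, hzero]
  obtain ⟨wa, hwa, hwa0, hwa'⟩ := key a ha ha0
  obtain ⟨wb, hwb, hwb0, hwb'⟩ := key b hb hb0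
  have he : gb = wa / wb := Subtype.ext (by rw [IntermediateField.coe_div, hwa, hwb]; exact hab)
  rw [he, Curves.ord_div Q hwa0 hwb0, hwa', hwb', sub_zero] at hgb
  exact zero_ne_one hgb

variable {r : ℕ} [Fact r.Prime] [HasPrincipalDivisors QA (modularFunctionFieldBar (M * r))]
  (hα : HeckeAlphaBarIntegral QA M r) (hβ : HeckeBetaBarIntegral QA M r)

/-- The operator of the special fibre sends divisors supported at cusps to such divisors. -/
theorem residual_cusp {T : Divisor kA Jk →+ Divisor kA Jk}
    (hT : ∀ D, T (Model.divMap hM D) = Model.divMap hM (heckeDivBar hα hβ D))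
    {C : Divisor kA Jk}
    (hC : ∀ P, C P ≠ 0 → P.ord (modularModel (residue_surjective (R := A)) M hMk).xb < 0)
    {Q : Place kA Jk} (hQ : 0 ≤ Q.ord (modularModel (residue_surjective (R := A)) M hMk).xb) :
    T C Q = 0 := by
  classical
  have hlift : ∀ P : Place kA Jk,
      P.ord (modularModel (residue_surjective (R := A)) M hMk).xb < 0 →
      ∃ R, Model.place hM R = P ∧ R.ord (Kronecker.jEl M) < 0 := by
    intro P hP
    by_contra hno
    push Not at hno
    have h1 := DFunLike.congr_fun (divMap_poleDiv hM) P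
    have h2 : Model.divMap hM (poleDiv QA (modularModel (residue_surjective (R := A)) M hMk).x) P
        = 0 := by
      show Finsupp.mapDomain (Model.place hM) _ P = 0
      by_contra h0
      obtain ⟨R, hR, hRP⟩ := Finset.mem_image.1 (Finsupp.mapDomain_support
        (Finsupp.mem_support_iff.2 h0))
      have := hno R hRP
      rw [Finsupp.mem_support_iff, poleDiv_apply, BadRed.modelX_eq] at hR
      omega
    rw [h2, poleDiv_apply] at h1
    omega
  rw [← Finsupp.sum_single C, Finsupp.sum, map_sum, Finsupp.finsetSum_apply]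
  refine Finset.sum_eq_zero fun P hP => ?_
  obtain ⟨R, rfl, hR⟩ := hlift P (hC P (Finsupp.mem_support_iff.1 hP))
  rw [← Model.divMap_single hM R (C (Model.place hM R)), hT]
  show Finsupp.mapDomain (Model.place hM) _ Q = 0
  by_contra h0
  obtain ⟨R', hR', hRQ⟩ := Finset.mem_image.1 (Finsupp.mapDomain_support
    (Finsupp.mem_support_iff.2 h0))
  have h1 := hecke_cusp hα hβ (D := Finsupp.single R (C (Model.place hM R))) (fun v hv => by
    rw [Finsupp.single_apply, ite_ne_right_iff] at hv
    exact hv.1 ▸ hR) R' (Finsupp.mem_support_iff.1 hR')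
  rw [← BadRed.modelX_eq residue_surjective hMk] at h1
  have h2 := (place_finite hM (R := R') (hRQ.symm ▸ hQ)).1
  omega

end Cusps

section Step

variable {q : ℕ} [Fact q.Prime] [NeZero q] {M : ℕ} [NeZero M] [NeZero (M * q)] (hqM : ¬ q ∣ M)
  {A : ValuationSubring QA} [IsAlgClosed (ResidueField A)] [CharP (ResidueField A) q]
  [Curves.IsFunctionField (ResidueField A) (modularFunctionFieldFullC (ResidueField A) M)]
  (hA : A.LiesOverPrime q)

local notation "kk" => ResidueField A
local notation "Jk" => modularFunctionFieldFullC (ResidueField A) M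

/-- What is used of the residual operator. -/
structure ResOp (r : ℕ) [Fact r.Prime] (T : Divisor kk Jk →+ Divisor kk Jk) : Prop where
  unit : ∀ ub : Jk, (ub : LaurentSeries kk) = unitSer kk q → ub ≠ 0 →
    T (divOf kk ub) = ((r + 1 : ℕ) : ℤ) • divOf kk ub
  step : ∀ (f : X0Bar (M * q)) (d : QA) (g : Jk), f ≠ 0 → g ≠ 0 →
    (sheetAt hqM hA).R₁.Res (d • f) g →
    ∃ (d' : QA) (g' : Jk), g' ≠ 0 ∧
      (sheetAt hqM hA).R₁.Res (d' • tN (M * q) r f) g' ∧ divOf kk g' = T (divOf kk g)

variable {r : ℕ} [Fact r.Prime]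
  (hMk : (M : ResidueField A) ≠ 0)
  (hM : (modularModel (residue_surjective (R := A)) M hMk).Smooth)

include hM in
theorem exists_resOp (hr : ¬ r ∣ M * q)
    [HasPrincipalDivisors QA (modularFunctionFieldBar (M * r))]
    (hα : HeckeAlphaBarIntegral QA M r) (hβ : HeckeBetaBarIntegral QA M r) :
    ∃ T : Divisor kk Jk →+ Divisor kk Jk, ResOp hqM hA r T ∧
      ∀ D, T (Model.divMap hM D) = Model.divMap hM (heckeDivBar hα hβ D) := by
  have hgen : PrincipalGeneratedByIntegral A (residue A) M :=
    principalGeneratedByIntegral hA M hqM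
  obtain ⟨T, R, E, hE, hTd, hR0, hRN, hTg⟩ :=
    exists_residual_hecke hMk hM hgen (N' := M * q) (dvd_mul_right M q) hr hα hβ
  haveI := hE
  haveI : NeZero (M * q * r) := ⟨mul_ne_zero (NeZero.ne (M * q)) (Fact.out : r.Prime).ne_zero⟩
  refine ⟨T, ⟨fun ub hub hne => ?_, fun f d g hf hg hres => ?_⟩, hTd⟩
  · obtain ⟨c, hc, hRc⟩ := exists_unit_norm (M := M) hr hRN hR0
    obtain ⟨G, hG, hTG, hGE⟩ := hTg ub hne
    have hG' : G = algebraMap kk Jk c * ub ^ (r + 1) := by
      refine Subtype.ext (qExpand_injective (R := kk) E ?_)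
      rw [hGE, hub, hRc, MulMemClass.coe_mul, IntermediateField.coe_pow, hub,
        IntermediateField.coe_algebraMap_apply]
    rw [hTG, hG', Specialization.divOf_mul ((_root_.map_ne_zero _).2 hc) (pow_ne_zero _ hne),
      Specialization.divOf_algebraMap, zero_add]
    ext v
    rw [Curves.divOf_apply, Curves.ord_pow, Finsupp.smul_apply, Curves.divOf_apply, smul_eq_mul]
  · have hgv : (g : LaurentSeries kk) ≠ 0 := fun h => hg (Subtype.ext h)
    have hres' := (sheet_res₁_iff hqM residue_surjective (rankOne_residue hA)).1 hres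
    obtain ⟨c, ya, yb, ha, hb, hc, hak, hbk, he⟩ := exists_series_quot hA hf
    obtain ⟨cA, hcA, hgq⟩ := exists_res_quot hA hak he hgv hres'
    have hcA0 : residue A cA ≠ 0 := fun h0 => by
      rw [h0, map_zero, zero_mul] at hgq
      exact mul_ne_zero hgv hbk hgq
    obtain ⟨ga, hga, hgak⟩ := hRN ya ha
    obtain ⟨gb, hgb, hgbk⟩ := hRN yb hb
    have hcmem : coeffMap A.subtype (HahnSeries.single 0 cA) ∈ X0Bar (M * q) := by
      rw [Specialization.coeffMap_single_zero, ← algebraMap_laurentSeries_eq_single]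
      exact IntermediateField.algebraMap_mem _ _
    obtain ⟨gc, hgc, hgck⟩ := hRN _ hcmem
    obtain ⟨e, he'⟩ := tN_algebraMap (N := M * q) (r := r) (cA : QA)
    have hconst : (⟨_, hcmem⟩ : X0Bar (M * q)) = algebraMap QA (X0Bar (M * q)) (cA : QA) :=
      Subtype.ext (by
        rw [IntermediateField.coe_algebraMap_apply, algebraMap_laurentSeries_eq_single]
        exact Specialization.coeffMap_single_zero _ _)
    have hgc' : gc = HahnSeries.single 0 (cA ^ e) := by
      refine coeffMap_subtype_injective A ?_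
      rw [hgc]
      change (tN (M * q) r ⟨_, hcmem⟩ : LaurentSeries QA) = _
      rw [hconst, he', IntermediateField.coe_algebraMap_apply,
        algebraMap_laurentSeries_eq_single, Specialization.coeffMap_single_zero]
      rfl
    -- the image of `g`
    obtain ⟨G, hG, hTG, hGE⟩ := hTg g hg
    have hRg : R (g : LaurentSeries kk) * R (coeffMap (residue A) yb) =
        qExpand kk E (algebraMap kk (LaurentSeries kk) (residue A cA ^ e)) *
          R (coeffMap (residue A) ya) := by
      rw [← map_mul, hgq, map_mul]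
      congr 1
      have h := hgck
      rw [hgc', Specialization.coeffMap_single_zero, map_pow, Specialization.coeffMap_single_zero,
        ← algebraMap_laurentSeries_eq_single, ← algebraMap_laurentSeries_eq_single] at h
      exact h.symm
    rw [← hGE, ← hgak, ← hgbk, ← map_mul, ← map_mul] at hRg
    have hGq := qExpand_injective (R := kk) E hRg
    have hga0 : coeffMap (residue A) ga ≠ 0 := fun h0 => hR0 _ hak (by rw [← hgak, h0, map_zero])
    have hgb0 : coeffMap (residue A) gb ≠ 0 := fun h0 => hR0 _ hbk (by rw [← hgbk, h0, map_zero])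
    -- the reduction of the norm
    have htn : tN (M * q) r f * tN (M * q) r ⟨_, hb⟩ =
        tN (M * q) r (algebraMap QA (X0Bar (M * q)) c) * tN (M * q) r ⟨_, ha⟩ := by
      rw [← tN_mul, ← tN_mul, he]
    have hgam : coeffMap A.subtype ga ∈ X0Bar (M * q) := hga ▸ SetLike.coe_mem _
    have hgbm : coeffMap A.subtype gb ∈ X0Bar (M * q) := hgb ▸ SetLike.coe_mem _
    obtain ⟨e', hec⟩ := tN_algebraMap (N := M * q) (r := r) c
    rw [show tN (M * q) r ⟨_, ha⟩ = ⟨_, hgam⟩ from Subtype.ext hga.symm,
      show tN (M * q) r ⟨_, hb⟩ = ⟨_, hgbm⟩ from Subtype.ext hgb.symm, hec] at htn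
    refine ⟨((cA ^ e : A) : QA) / c ^ e', G, hG, ?_, hTG.symm⟩
    refine (sheet_res₁_iff hqM residue_surjective (rankOne_residue hA)).2 ?_
    have h1 := ((laurentReduction_res (π := residue A) (E := X0Bar (M * q)) hgam).smul
      (cA ^ e : A)).div (laurentReduction_res hgbm) hgb0
    convert h1 using 1
    · have hgb1 : (⟨_, hgbm⟩ : X0Bar (M * q)) ≠ 0 :=
        (laurentReduction_res (π := residue A) hgbm).ne_zero hgb0
      rw [eq_div_iff hgb1, smul_mul_assoc, htn, ← Algebra.smul_def, smul_smul,
        div_mul_cancel₀ _ (pow_ne_zero _ hc)]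
    · rw [eq_div_iff hgb0, hGq, Algebra.smul_def, map_pow (residue A)]

end Step

end FLTAgent.Lowering.P7
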