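import Fermat.Agent.Lowering.P7.Geometry
import Fermat.Agent.Lowering.P7.Transfer
import Fermat.Agent.Lowering.P7.Shortcuts
import Fermat.Agent.MazurPrinciple.GlobalResidual
import Fermat.Agent.EigenLattice.Push

/-!
# Frobenius at a removed prime on the classes killed at the lower level

For a class fixed by inertia at `q` and killed by the push forward, an operator of the good Hecke
operators vanishing at level `M`, composed with `T_r - (r + 1)`, gives a class with both reductions
powers, so Frobenius acts on it as `-q` times the exchange.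
-/

set_option autoImplicit false
set_option linter.style.haveILetI false
set_option linter.unusedSectionVars false
set_option synthInstance.maxHeartbeats 400000
set_option maxHeartbeats 1000000

noncomputable section

open AlgebraicCurve ModularCurve IsLocalRing

namespace FLTAgent.Lowering.P7

open FLTAgent.Curves FLTAgent.Specialization FLTAgent.BadRed FLTAgent.MazurPrinciple
open FLTAgent.Kronecker (heckeOperatorAlong_mk heckeDivBar_apply_of_ord eq_of_principal_of_bounded)
open FLTAgent.EigenLattice (pushPic GoodIdx evalGood evalGood_X opAct opAct_mul opAct_add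
  opAct_intCast opAct_heckeGen smul_heckeOperatorAlong pushTors pushTors_opAct)

local notation "QA" => AlgebraicClosure ℚ
local notation "GG" => (AlgebraicClosure ℚ ≃ₐ[ℚ] AlgebraicClosure ℚ)

attribute [local instance 2000] fullCAlgebra laurentAlgebra x0BarAlgebra

section Div

theorem exists_smul_of_dvd {k F : Type*} [Field k] [Field F] [Algebra k F] {n : ℕ}
    (D : Divisor k F) (h : ∀ P, (n : ℤ) ∣ D P) : ∃ E : Divisor k F, D = (n : ℤ) • E :=
  ⟨fdiv n D, Finsupp.ext fun P => by
    rw [Finsupp.smul_apply, fdiv, Finsupp.mapRange_apply, smul_eq_mul,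
      Int.mul_ediv_cancel' (h P)]⟩

variable {L k : Type*} [Field L] [Field k] {A : ValuationSubring L} {π : A →+* k}
  {F Fb : Type*} [Field F] [Field Fb] [Algebra L F] [Algebra k Fb] {R : Reduction π F Fb}

/-- Two scalings of a function have proportional reductions. -/
theorem res_scale_eq (hπ : Function.Surjective π) {f : F} {a b : L} {g g' : Fb} (hg : g ≠ 0)
    (hg' : g' ≠ 0) (h : R.Res (a • f) g) (h' : R.Res (b • f) g') :
    ∃ c : k, c ≠ 0 ∧ g' = algebraMap k Fb c * g := by
  have hne := h.ne_zero hg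
  have hf : f ≠ 0 := fun h0 => hne (by rw [h0, smul_zero])
  have ha : a ≠ 0 := fun h0 => hne (by rw [h0, zero_smul])
  have h1 := h'.div h hg
  rw [Algebra.smul_def, Algebra.smul_def,
    mul_div_mul_right _ _ hf, ← map_div₀] at h1
  have hm : b / a ∈ A := by
    by_contra hn
    have hinv : (b / a)⁻¹ ∈ A := (A.mem_or_inv_mem _).resolve_left hn
    have hba : b / a ≠ 0 := fun h0 => hn (h0 ▸ A.zero_mem)
    have hz : π ⟨_, hinv⟩ = 0 := Reduction.map_eq_zero_of_inv_notMem hπ (by simpa using hn)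
    have h2 := (R.res_algebraMap ⟨_, hinv⟩).mul h1
    rw [← map_mul, inv_mul_cancel₀ hba, map_one, hz, map_zero, zero_mul] at h2
    exact one_ne_zero (R.res_one.unique h2)
  have h3 := h1.unique (R.res_algebraMap ⟨_, hm⟩)
  refine ⟨π ⟨_, hm⟩, fun h0 => ?_, ?_⟩
  · rw [h0, map_zero] at h3
    exact div_ne_zero hg' hg h3
  · rw [← h3, div_mul_cancel₀ _ hg]

end Div

section Rep

variable {q : ℕ} [Fact q.Prime] [NeZero q] {M : ℕ} [NeZero M] [NeZero (M * q)] (hqM : ¬ q ∣ M)
  {A : ValuationSubring QA} [IsAlgClosed (ResidueField A)] [CharP (ResidueField A) q]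
  [Curves.IsFunctionField (ResidueField A) (modularFunctionFieldFullC (ResidueField A) M)]
  (hA : A.LiesOverPrime q)

local notation "kk" => ResidueField A
local notation "Jk" => modularFunctionFieldFullC (ResidueField A) M
local notation "JN" => Divisor.degZero (K := QA) (F := X0Bar (M * q))
local notation "JM" => Divisor.degZero (K := QA) (F := X0Bar M)

/-- A representative with a scaled first reduction. -/
structure RepR (n : ℕ) (x : JZero (M * q)) where
  f : X0Bar (M * q)
  D : JN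
  d : QA
  g : Jk
  f_ne : f ≠ 0
  ord_f : ∀ v, v.ord f = (n : ℤ) * (D : Divisor QA (X0Bar (M * q))) v
  mk_D : Pic0.mk D = x
  g_ne : g ≠ 0
  res : (sheetAt hqM hA).R₁.Res (d • f) g

variable {hqM hA} {n : ℕ}

/-- The reductions of two representatives differ by an `n`-th power and a constant. -/
theorem RepR.congr {x : JZero (M * q)} (r r' : RepR hqM hA n x) (P : Place kk Jk) :
    (n : ℤ) ∣ P.ord r.g - P.ord r'.g := by
  haveI := instIsFunctionFieldX0Bar (M * q)
  obtain ⟨v, hv, hvv⟩ := AddSubgroup.mem_addSubgroupOf.1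
    (QuotientAddGroup.eq_iff_sub_mem.1 (r.mk_D.trans r'.mk_D.symm))
  obtain ⟨e, gv, hgv, hev⟩ := (sheetAt hqM hA).scaled₁ v hv
  have hf' := r'.f_ne
  obtain ⟨c, hc⟩ := Curves.eq_algebraMap_of_forall_ord_nonneg (K := QA)
    (f := r.f / (r'.f * v ^ n)) fun u => by
      have h1 := hvv u
      rw [AddSubgroupClass.coe_sub, Finsupp.sub_apply] at h1
      rw [Curves.ord_div u r.f_ne (mul_ne_zero hf' (pow_ne_zero _ hv)),
        u.ord_mul hf' (pow_ne_zero _ hv), Curves.ord_pow, r.ord_f, r'.ord_f, ← h1]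
      exact le_of_eq (by ring)
  have hfe : r.f = algebraMap QA (X0Bar (M * q)) c * (r'.f * v ^ n) := by
    rw [← hc, div_mul_cancel₀ _ (mul_ne_zero hf' (pow_ne_zero _ hv))]
  have h1 := r'.res.mul (hev.pow n)
  have h2 := r.res
  rw [_root_.smul_pow, smul_mul_smul_comm] at h1
  rw [hfe, ← Algebra.smul_def, smul_smul] at h2
  obtain ⟨z, hz, hzg⟩ := res_scale_eq residue_surjective (mul_ne_zero r'.g_ne (pow_ne_zero _ hgv))
    r.g_ne h1 h2
  rw [hzg, P.ord_mul ((_root_.map_ne_zero _).2 hz) (mul_ne_zero r'.g_ne (pow_ne_zero _ hgv)),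
    Curves.ord_algebraMap, P.ord_mul r'.g_ne (pow_ne_zero _ hgv), Curves.ord_pow, zero_add,
    add_sub_cancel_left]
  exact dvd_mul_right _ _

/-- The product of representatives. -/
def RepR.mul {x y : JZero (M * q)} (r : RepR hqM hA n x) (r' : RepR hqM hA n y) :
    RepR hqM hA n (x + y) where
  f := r.f * r'.f
  D := r.D + r'.D
  d := r.d * r'.d
  g := r.g * r'.g
  f_ne := mul_ne_zero r.f_ne r'.f_ne
  ord_f v := by
    rw [v.ord_mul r.f_ne r'.f_ne, r.ord_f, r'.ord_f, AddSubgroup.coe_add, Finsupp.add_apply,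
      mul_add]
  mk_D := (QuotientAddGroup.mk_add _ _ _).trans (congrArg₂ (· + ·) r.mk_D r'.mk_D)
  g_ne := mul_ne_zero r.g_ne r'.g_ne
  res := by rw [← smul_mul_smul_comm]; exact r.res.mul r'.res

/-- The inverse representative. -/
def RepR.inv {x : JZero (M * q)} (r : RepR hqM hA n x) : RepR hqM hA n (-x) where
  f := r.f⁻¹
  D := -r.D
  d := r.d⁻¹
  g := r.g⁻¹
  f_ne := inv_ne_zero r.f_ne
  ord_f v := by rw [v.ord_inv, r.ord_f, AddSubgroup.coe_neg, Finsupp.neg_apply, mul_neg]
  mk_D := (QuotientAddGroup.mk_neg _ _).trans (congrArg Neg.neg r.mk_D)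
  g_ne := inv_ne_zero r.g_ne
  res := by
    have h := r.res.inv r.g_ne
    rwa [Algebra.smul_def, mul_inv, ← map_inv₀, ← Algebra.smul_def] at h

/-- Transport along an equality of classes. -/
def RepR.cast {x y : JZero (M * q)} (r : RepR hqM hA n x) (h : x = y) : RepR hqM hA n y where
  f := r.f
  D := r.D
  d := r.d
  g := r.g
  f_ne := r.f_ne
  ord_f := r.ord_f
  mk_D := r.mk_D.trans h
  g_ne := r.g_ne
  res := r.res

theorem RepR.exists_pow {x : JZero (M * q)} (r : RepR hqM hA n x) (j : ℕ) :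
    ∃ r' : RepR hqM hA n (j • x), divOf kk r'.g = (j : ℤ) • divOf kk r.g := by
  induction j with
  | zero =>
    exact ⟨({ f := 1, D := 0, d := 1, g := 1, f_ne := one_ne_zero
              ord_f := fun v => by simp
              mk_D := QuotientAddGroup.mk_zero _, g_ne := one_ne_zero
              res := by rw [one_smul]; exact (sheetAt hqM hA).R₁.res_one } :
        RepR hqM hA n 0).cast (zero_nsmul x).symm,
      Finsupp.ext fun P => by simp [Curves.divOf_apply, RepR.cast]⟩
  | succ j ih =>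
    obtain ⟨r', hr'⟩ := ih
    refine ⟨(r'.mul r).cast (succ_nsmul x j).symm, ?_⟩
    show divOf kk (r'.g * r.g) = _
    rw [Specialization.divOf_mul r'.g_ne r.g_ne, hr', Nat.cast_succ, add_smul, one_smul]

theorem RepR.exists_zpow {x : JZero (M * q)} (r : RepR hqM hA n x) (c : ℤ) :
    ∃ r' : RepR hqM hA n (c • x), divOf kk r'.g = c • divOf kk r.g := by
  obtain ⟨j, rfl | rfl⟩ := c.eq_nat_or_neg
  · obtain ⟨r', hr'⟩ := r.exists_pow j
    exact ⟨r'.cast (natCast_zsmul x j).symm, hr'⟩
  · obtain ⟨r', hr'⟩ := r.exists_pow j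
    refine ⟨r'.inv.cast ((congrArg Neg.neg (natCast_zsmul x j).symm).trans (neg_zsmul x _).symm),
      Finsupp.ext fun P => ?_⟩
    show divOf kk r'.g⁻¹ P = _
    rw [neg_smul, ← hr', Finsupp.neg_apply, Curves.divOf_apply, Curves.divOf_apply, P.ord_inv]

theorem RepR.exists_hecke {x : JZero (M * q)} (rx : RepR hqM hA n x) {r : ℕ} [Fact r.Prime]
    {T : Divisor kk Jk →+ Divisor kk Jk} (hT : ResOp hqM hA r T) :
    haveI : NeZero r := ⟨(Fact.out : r.Prime).ne_zero⟩
    ∃ r' : RepR hqM hA n (heckeOperatorAlong QA (M * q) r x),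
      divOf kk r'.g = T (divOf kk rx.g) := by
  haveI : NeZero r := ⟨(Fact.out : r.Prime).ne_zero⟩
  haveI : NeZero (M * q * r) := ⟨mul_ne_zero (NeZero.ne (M * q)) (NeZero.ne r)⟩
  haveI : HasPrincipalDivisors QA (modularFunctionFieldBar (M * q * r)) :=
    FLTAgent.Curves.hasPrincipalDivisors
  have hα : HeckeAlphaBarIntegral QA (M * q) r := Kronecker.isIntegralAlong _
  have hβ : HeckeBetaBarIntegral QA (M * q) r := Kronecker.isIntegralAlong _
  obtain ⟨h, hmk⟩ := heckeOperatorAlong_mk (M * q) r hα hβ rx.D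
  obtain ⟨d', g', hg', hres, hdiv⟩ := hT.step rx.f rx.d rx.g rx.f_ne rx.g_ne rx.res
  refine ⟨{ f := tN (M * q) r rx.f, D := ⟨_, h⟩, d := d', g := g', f_ne := tN_ne_zero rx.f_ne
            ord_f := fun v => ?_
            mk_D := hmk.symm.trans (congrArg _ rx.mk_D)
            g_ne := hg', res := hres }, hdiv⟩
  have hE : ((n : ℤ) • (rx.D : Divisor QA (X0Bar (M * q)))) = divOf QA rx.f :=
    Finsupp.ext fun P => by rw [Finsupp.smul_apply, Curves.divOf_apply, rx.ord_f, smul_eq_mul]
  have h1 := heckeDivBar_apply_of_ord hα hβ rx.f_ne (E := divOf QA rx.f)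
    (fun P => Curves.divOf_apply _ P) v
  rw [← hE, map_zsmul, Finsupp.smul_apply, smul_eq_mul] at h1
  exact h1.symm

end Rep

section Main

variable {q : ℕ} [Fact q.Prime] [NeZero q] {M : ℕ} [NeZero M] [NeZero (M * q)] (hqM : ¬ q ∣ M)
  {A : ValuationSubring QA} [IsAlgClosed (ResidueField A)] [CharP (ResidueField A) q]
  [Curves.IsFunctionField (ResidueField A) (modularFunctionFieldFullC (ResidueField A) M)]
  (hA : A.LiesOverPrime q)
  (hsm : (modularModel (π := residue A) residue_surjective M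
    (BadRed.natCast_ne_zero hqM (ResidueField A))).Smooth)

local notation "kk" => ResidueField A
local notation "Jk" => modularFunctionFieldFullC (ResidueField A) M
local notation "JM" => Divisor.degZero (K := QA) (F := X0Bar M)

include hA hqM in
/-- A class whose specialised divisor is killed in the special fibre. -/
theorem isPrincipal_divMap_of_zero {Y : JM} (h0 : reductionModL A M (Pic0.mk Y) = 0) :
    (Model.divMap hsm (Y : Divisor QA (X0Bar M))).IsPrincipal := by
  have hgood : ∀ (M' : ℕ) [NeZero M'], auxLevel q ∣ M' → ¬ q ∣ M' → GoodLevel A M' :=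
    fun M' _ h1 h2 => GoodModel.goodLevel hA M' h1 h2
  have h : ReductionInputsModL A M := reductionInputsModL hA hgood M hqM
  have hpl := isPlaceReductionAlong_place (BadRed.natCast_ne_zero hqM kk) hsm
  have hgen := principalGeneratedByIntegral hA M hqM
  have hpr := isPlaceReductionModL_placeReductionModL h
  have hagree : Finsupp.mapDomain (placeReductionModL h) (Y : Divisor QA (X0Bar M)) =
      Model.divMap hsm (Y : Divisor QA (X0Bar M)) :=
    eq_of_principal_of_bounded
      (Finsupp.mapDomain.addMonoidHom (placeReductionModL h)) (Model.divMap hsm) 1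
      (fun P Q => by
        rw [Finsupp.mapDomain.addMonoidHom_apply, Finsupp.mapDomain_single]
        exact_mod_cast Kronecker.abs_single_apply_le _ _)
      (fun P Q => by
        rw [Model.divMap_single]
        exact_mod_cast Kronecker.abs_single_apply_le _ _)
      (fun E hE => mapDomain_eq_of_principal hpr hpl hgen hE) (Divisor.mem_degZero.1 Y.2)
  rw [reductionModL_mk h] at h0
  rw [← hagree]
  exact (QuotientAddGroup.eq_zero_iff _).1 h0

/-- A representative whose reduction has divisor `n` times a specialised one. -/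
def HasRes (n : ℕ) (x : JZero (M * q)) (y : JZero M) : Prop :=
  ∃ (rx : RepR hqM hA n x) (Y : JM), Pic0.mk Y = y ∧
    divOf kk rx.g = (n : ℤ) • Model.divMap hsm (Y : Divisor QA (X0Bar M))

variable {hqM hA hsm} {n : ℕ}

theorem HasRes.add {x x' : JZero (M * q)} {y y' : JZero M} (h : HasRes hqM hA hsm n x y)
    (h' : HasRes hqM hA hsm n x' y') : HasRes hqM hA hsm n (x + x') (y + y') := by
  obtain ⟨r, Y, hY, hd⟩ := h
  obtain ⟨r', Y', hY', hd'⟩ := h'
  refine ⟨r.mul r', Y + Y', (QuotientAddGroup.mk_add _ _ _).trans (congrArg₂ (· + ·) hY hY'), ?_⟩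
  show divOf kk (r.g * r'.g) = _
  rw [Specialization.divOf_mul r.g_ne r'.g_ne, hd, hd', AddSubgroup.coe_add, map_add, smul_add]

theorem HasRes.zsmul {x : JZero (M * q)} {y : JZero M} (h : HasRes hqM hA hsm n x y) (c : ℤ) :
    HasRes hqM hA hsm n (c • x) (c • y) := by
  obtain ⟨r, Y, hY, hd⟩ := h
  obtain ⟨r', hr'⟩ := r.exists_zpow c
  refine ⟨r', c • Y, (QuotientAddGroup.mk_zsmul _ _ _).trans (congrArg (c • ·) hY), ?_⟩
  rw [hr', hd, AddSubgroupClass.coe_zsmul, map_zsmul, smul_comm]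

theorem HasRes.hecke {x : JZero (M * q)} {y : JZero M} (h : HasRes hqM hA hsm n x y) {r : ℕ}
    [Fact r.Prime] [NeZero r] (hr : ¬ r ∣ M * q) :
    HasRes hqM hA hsm n (heckeOperatorAlong QA (M * q) r x) (heckeOperatorAlong QA M r y) := by
  haveI : NeZero (M * r) := ⟨mul_ne_zero (NeZero.ne M) (NeZero.ne r)⟩
  haveI : HasPrincipalDivisors QA (modularFunctionFieldBar (M * r)) :=
    FLTAgent.Curves.hasPrincipalDivisors
  have hα : HeckeAlphaBarIntegral QA M r := Kronecker.isIntegralAlong _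
  have hβ : HeckeBetaBarIntegral QA M r := Kronecker.isIntegralAlong _
  obtain ⟨T, hT, hTd⟩ := exists_resOp hqM hA (BadRed.natCast_ne_zero hqM kk) hsm hr hα hβ
  obtain ⟨rx, Y, hY, hd⟩ := h
  obtain ⟨r', hr'⟩ := rx.exists_hecke hT
  obtain ⟨hYm, hYe⟩ := heckeOperatorAlong_mk M r hα hβ Y
  refine ⟨r', ⟨_, hYm⟩, hYe.symm.trans (congrArg _ hY), ?_⟩
  rw [hr', hd, map_zsmul, hTd]

variable (hqM hA hsm) (S : Finset ℕ) (κ : AlgebraicClosure ℚ →+* ℂ) [NeZero n]

include hA hsm in
/-- Polynomials in the good operators at both levels. -/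
theorem exists_transfer (P : MvPolynomial (GoodIdx (M * q) S) ℤ) :
    ∃ e : JZero M →+ JZero M, (∀ (σ : GG) (x : JZero M), e (σ • x) = σ • e x) ∧
      (∀ (m : ℕ) [NeZero m] (x : Pic0.torsion QA (modularFunctionFieldBar M) m),
        e (x : JZero M) = (opAct κ m (evalGood (M * q) S M P) x : JZero M)) ∧
      ∀ (x : Pic0.torsion QA (modularFunctionFieldBar (M * q)) n) (y : JZero M),
        HasRes hqM hA hsm n (x : JZero (M * q)) y →
        HasRes hqM hA hsm n
          (opAct κ n (evalGood (M * q) S (M * q) P) x : JZero (M * q)) (e y) := by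
  induction P using MvPolynomial.induction_on with
  | C c =>
    refine ⟨zsmulAddGroupHom c, fun σ x => ?_, fun m _ x => ?_, fun x y h => ?_⟩
    · show c • (σ • x) = σ • (c • x)
      rw [smul_comm]
    · rw [eq_intCast MvPolynomial.C c, map_intCast, opAct_intCast]
      rfl
    · rw [eq_intCast MvPolynomial.C c, map_intCast, opAct_intCast]
      exact h.zsmul c
  | add P Q hP hQ =>
    obtain ⟨e, he1, he2, he3⟩ := hP
    obtain ⟨e', he1', he2', he3'⟩ := hQ
    refine ⟨e + e', fun σ x => ?_, fun m _ x => ?_, fun x y h => ?_⟩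
    · rw [AddMonoidHom.add_apply, AddMonoidHom.add_apply, he1, he1', smul_add]
    · rw [AddMonoidHom.add_apply, he2, he2', map_add, opAct_add]
      rfl
    · rw [AddMonoidHom.add_apply, map_add, opAct_add]
      exact (he3 x y h).add (he3' x y h)
  | mul_X P l hP =>
    obtain ⟨e, he1, he2, he3⟩ := hP
    haveI : Fact (l.1 : ℕ).Prime := ⟨l.1.2⟩
    haveI : NeZero (l.1 : ℕ) := ⟨l.1.2.ne_zero⟩
    refine ⟨(heckeOperatorAlong QA M (l.1 : ℕ)).comp e, fun σ x => ?_, fun m _ x => ?_,
      fun x y h => ?_⟩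
    · rw [AddMonoidHom.comp_apply, AddMonoidHom.comp_apply, he1, smul_heckeOperatorAlong]
    · rw [AddMonoidHom.comp_apply, he2, map_mul, evalGood_X, opAct_mul, opAct_heckeGen]
      exact (ModularCurve.heckeOperatorBar_apply M l.1 _).symm
    · rw [AddMonoidHom.comp_apply, map_mul, evalGood_X, opAct_mul, opAct_heckeGen]
      exact (he3 x y h).hecke l.2.1

variable {σ : GG} (hσ : A.IsFrobeniusAt σ q)

include hsm hσ in
/-- `T_r - (r + 1)` brings a fixed class killed below to a specialised divisor. -/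
theorem exists_hasRes (hqn : ¬ q ∣ n) (h12 : n.Coprime 12) {r : ℕ} [Fact r.Prime] [NeZero r]
    (hr : ¬ r ∣ M * q) {x : JZero (M * q)} (hnx : n • x = 0)
    (hfix : ∀ τ ∈ A.inertiaSubgroupIn ℚ, τ • x = x)
    (hα : pushPic M q (heckeAlphaBar QA M q) x = 0)
    (hfixT : ∀ τ ∈ A.inertiaSubgroupIn ℚ,
      τ • heckeOperatorAlong QA (M * q) r x = heckeOperatorAlong QA (M * q) r x)
    (hαT : pushPic M q (heckeAlphaBar QA M q) (heckeOperatorAlong QA (M * q) r x) = 0) :
    ∃ y, HasRes hqM hA hsm n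
      (heckeOperatorAlong QA (M * q) r x + (-((r + 1 : ℕ) : ℤ)) • x) y := by
  classical
  haveI : NeZero (M * r) := ⟨mul_ne_zero (NeZero.ne M) (NeZero.ne r)⟩
  haveI : HasPrincipalDivisors QA (modularFunctionFieldBar (M * r)) :=
    FLTAgent.Curves.hasPrincipalDivisors
  have hαr : HeckeAlphaBarIntegral QA M r := Kronecker.isIntegralAlong _
  have hβr : HeckeBetaBarIntegral QA M r := Kronecker.isIntegralAlong _
  obtain ⟨T, hT, hTd⟩ := exists_resOp hqM hA (BadRed.natCast_ne_zero hqM kk) hsm hr hαr hβr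
  obtain ⟨U, hu, -, hUw, hub⟩ := exists_unitData (M := M) hqM residue_surjective (rankOne_residue hA)
  set w := heckeOperatorAlong QA (M * q) r x + (-((r + 1 : ℕ) : ℤ)) • x with hw
  have hnw : n • w = 0 := by
    have h1 : n • heckeOperatorAlong QA (M * q) r x = 0 :=
      (map_nsmul (heckeOperatorAlong QA (M * q) r) n x).symm.trans
        ((congrArg (heckeOperatorAlong QA (M * q) r) hnx).trans (map_zero _))
    have h2 : n • ((-((r + 1 : ℕ) : ℤ)) • x) = 0 :=
      (smul_comm n (-((r + 1 : ℕ) : ℤ)) x).trans ((congrArg _ hnx).trans (zsmul_zero _))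
    exact (nsmul_add _ _ n).trans ((congrArg₂ (· + ·) h1 h2).trans (add_zero _))
  have hwfix : ∀ τ ∈ A.inertiaSubgroupIn ℚ, τ • w = w := fun τ hτ => by
    rw [hw, smul_add, hfixT τ hτ, smul_comm, hfix τ hτ]
  have hwα : pushPic M q (heckeAlphaBar QA M q) w = 0 := by
    rw [hw, map_add, map_zsmul, hαT, hα, smul_zero, add_zero]
  obtain ⟨f, D, d₁, d₂, g₁, g₂, hf, hD, hDx, hg₁, -, hr₁, -, -, e, hcong⟩ :=
    exists_congr_rep hqM hA hsm hσ U hu hUw hqn h12 hnx hfix hα
  obtain ⟨f', D', d₁', d₂', g₁', g₂', hf', hD', hDw, hg₁', -, hr₁', -, -, e', hcong'⟩ :=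
    exists_congr_rep hqM hA hsm hσ U hu hUw hqn h12 hnw hwfix hwα
  let rx : RepR hqM hA n x := ⟨f, D, d₁, g₁, hf, hD, hDx, hg₁, hr₁⟩
  let rw' : RepR hqM hA n w := ⟨f', D', d₁', g₁', hf', hD', hDw, hg₁', hr₁'⟩
  obtain ⟨rT, hrT⟩ := rx.exists_hecke hT
  obtain ⟨rm, hrm⟩ := rx.exists_zpow (-((r + 1 : ℕ) : ℤ))
  let rs : RepR hqM hA n w := rT.mul rm
  have hdiv : divOf kk rs.g = T (divOf kk g₁) + (-((r + 1 : ℕ) : ℤ)) • divOf kk g₁ := by
    show divOf kk (rT.g * rm.g) = _
    rw [Specialization.divOf_mul rT.g_ne rm.g_ne, hrT, hrm]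
  set MC := (sheetAt hqM hA).MC
  -- the part supported at the cusps and the part divisible by `n`
  set Z := divOf kk g₁ - e • divOf kk U.ub with hZ
  set C := Z.filter fun P : Place kk Jk => P.ord MC.xb < 0
  obtain ⟨E, hE⟩ := exists_smul_of_dvd (n := n) (Z.filter fun P : Place kk Jk => ¬ P.ord MC.xb < 0)
    fun P => by
      rw [Finsupp.filter_apply]
      split_ifs with hP
      · exact dvd_zero _
      · rw [hZ, Finsupp.sub_apply, Finsupp.smul_apply, Curves.divOf_apply, Curves.divOf_apply,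
          smul_eq_mul]
        exact (hcong P).1 (not_lt.1 hP)
  have hZe : divOf kk g₁ = e • divOf kk U.ub + C + (n : ℤ) • E := by
    rw [← hE, add_assoc, Finsupp.filter_add_filter_not, hZ, add_sub_cancel]
  have hTU := hT.unit U.ub hub U.ub_ne
  have hfin : ∀ P : Place kk Jk, (n : ℤ) ∣ divOf kk rs.g P := by
    intro P
    by_cases hP : P.ord MC.xb < 0
    · have h1 := dvd_add (rs.congr rw' P) ((hcong' P).2 hP)
      rw [sub_add_cancel] at h1
      rwa [Curves.divOf_apply]
    · have hC0 : C P = 0 := Finsupp.filter_apply_neg (fun P : Place kk Jk => P.ord MC.xb < 0) Z hP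
      have hTC : T C P = 0 := residual_cusp (BadRed.natCast_ne_zero hqM kk) hsm hαr hβr hTd
        (fun Q hQ => by
          by_contra hn
          exact hQ (Finsupp.filter_apply_neg (fun P : Place kk Jk => P.ord MC.xb < 0) Z hn))
        (not_lt.1 hP)
      rw [hdiv, hZe, map_add, map_add, map_zsmul, map_zsmul, hTU]
      simp only [Finsupp.add_apply, Finsupp.smul_apply, smul_eq_mul, hC0, hTC, add_zero]
      exact ⟨T E P - ((r + 1 : ℕ) : ℤ) * E P, by ring⟩
  obtain ⟨E', hE'⟩ := exists_smul_of_dvd (n := n) (divOf kk rs.g) hfin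
  choose s hs using place_surjective (BadRed.natCast_ne_zero hqM kk) hsm
  have hlift : ∀ E : Divisor kk Jk,
      Model.divMap hsm (Finsupp.mapDomain s E) = E := fun E => by
    show Finsupp.mapDomain _ (Finsupp.mapDomain s E) = E
    rw [← Finsupp.mapDomain_comp, show Model.place hsm ∘ s = id from funext hs,
      Finsupp.mapDomain_id]
  have hdeg : Finsupp.mapDomain s E' ∈ Divisor.degZero (K := QA) (F := X0Bar M) := by
    rw [Divisor.mem_degZero, ← Model.degree_divMap hsm, hlift]
    have h1 := Curves.degree_divOf (K := kk) rs.g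
    rw [hE', map_zsmul, smul_eq_mul, mul_eq_zero] at h1
    exact h1.resolve_left (Int.natCast_ne_zero.2 (NeZero.ne n))
  exact ⟨Pic0.mk ⟨_, hdeg⟩, rs, ⟨_, hdeg⟩, rfl, by rw [hlift]; exact hE'⟩

include hA hsm hσ in
/-- **Frobenius is minus `q` times the exchange** on the image of an operator killed below. -/
theorem frobenius_eq (hqn : ¬ q ∣ n) (h12 : n.Coprime 12)
    (hnS : ∀ l : ℕ, l.Prime → l ∣ n → l ∈ S) (P : MvPolynomial (GoodIdx (M * q) S) ℤ)
    (hP : evalGood (M * q) S M P = 0) {r : ℕ} [Fact r.Prime] [NeZero r] (hr : ¬ r ∣ M * q)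
    (x w : Pic0.torsion QA (modularFunctionFieldBar (M * q)) n)
    (hw : (w : JZero (M * q)) =
      heckeOperatorAlong QA (M * q) r (x : JZero (M * q)) + (-((r + 1 : ℕ) : ℤ)) • (x : JZero (M * q)))
    (hfix : ∀ τ ∈ A.inertiaSubgroupIn ℚ, τ • (x : JZero (M * q)) = (x : JZero (M * q)))
    (hα : pushPic M q (heckeAlphaBar QA M q) (x : JZero (M * q)) = 0)
    (hfixT : ∀ τ ∈ A.inertiaSubgroupIn ℚ,
      τ • heckeOperatorAlong QA (M * q) r (x : JZero (M * q)) =
        heckeOperatorAlong QA (M * q) r (x : JZero (M * q)))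
    (hαT : pushPic M q (heckeAlphaBar QA M q)
      (heckeOperatorAlong QA (M * q) r (x : JZero (M * q))) = 0) :
    σ • (opAct κ n (evalGood (M * q) S (M * q) P) w : JZero (M * q)) +
      q • (swapAut hqM • (opAct κ n (evalGood (M * q) S (M * q) P) w : JZero (M * q))) = 0 := by
  haveI := instIsFunctionFieldX0Bar M
  haveI := instIsFunctionFieldX0Bar (M * q)
  have hnk : (n : kk) ≠ 0 := fun h => hqn ((CharP.cast_eq_zero_iff kk q n).1 h)
  have hnx : n • (x : JZero (M * q)) = 0 := by
    have h := Pic0.mem_torsion.1 x.2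
    rwa [natCast_zsmul] at h
  obtain ⟨y, hy⟩ := exists_hasRes hqM hA hsm hσ hqn h12 hr hnx hfix hα hfixT hαT
  rw [← hw] at hy
  obtain ⟨e, he1, he2, he3⟩ := exists_transfer hqM hA hsm S κ (n := n) P
  obtain ⟨rz, Y, hY, hd⟩ := he3 w y hy
  have h0 := reduction_eq_zero_of_killsTorsion hA M hqM e he1 (fun m hm u hu => by
    haveI : NeZero m := ⟨hm.ne'⟩
    have h := he2 m ⟨u, Pic0.mem_torsion.2 (by rw [natCast_zsmul]; exact hu)⟩
    rw [hP, ← Int.cast_zero, opAct_intCast, zero_zsmul] at h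
    exact h) y
  rw [← hY] at h0
  obtain ⟨hb, hb0, hbv⟩ := isPrincipal_divMap_of_zero hqM hA hsm h0
  -- the first reduction is a power
  obtain ⟨γ, hγ⟩ := Curves.eq_algebraMap_of_forall_ord_nonneg (K := kk)
    (f := rz.g / hb ^ n) fun v => by
      rw [Curves.ord_div v rz.g_ne (pow_ne_zero _ hb0), Curves.ord_pow, ← Curves.divOf_apply, hd,
        Finsupp.smul_apply, smul_eq_mul, ← hbv, sub_self]
  have hn0 : n ≠ 0 := NeZero.ne n
  obtain ⟨c, hc⟩ := IsAlgClosed.exists_pow_nat_eq γ (Nat.pos_of_ne_zero hn0)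
  set h₁ := algebraMap kk Jk c * hb
  have hg1 : rz.g = h₁ ^ n := by
    rw [mul_pow, ← map_pow, hc, ← hγ, div_mul_cancel₀ _ (pow_ne_zero _ hb0)]
  have hh1 : h₁ ≠ 0 := fun h => rz.g_ne (by rw [hg1, h, zero_pow hn0])
  -- the second one follows
  have hzα : pushPic M q (heckeAlphaBar QA M q)
      (opAct κ n (evalGood (M * q) S (M * q) P) w : JZero (M * q)) = 0 := by
    have h1 := congrArg Subtype.val (pushTors_opAct κ n (heckeAlphaBar QA M q)
      (fun τ u => (galois_smul_alpha τ u).symm) S hnS P w)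
    refine h1.trans ?_
    rw [hP, ← Int.cast_zero, opAct_intCast, zero_zsmul]
    rfl
  obtain ⟨d₂, g₂, hg₂, hr₂⟩ := (sheetAt hqM hA).scaled₂ rz.f rz.f_ne
  obtain ⟨h, hh⟩ := exists_res_rel hqM hA hσ hnk rz.f_ne rz.D rz.ord_f (rz.mk_D.symm ▸ hzα)
    rz.g_ne hg₂ rz.res hr₂
  set ψ := SemilinearAut.toRingAut (Kronecker.specialAut M
    (Kronecker.residueAut A ⟨σ, hσ.mem_decompositionSubgroup⟩))
  set h₂ := ψ.symm (h / h₁)
  have hg2 : g₂ = h₂ ^ n := by
    refine ψ.injective ?_
    rw [map_pow, RingEquiv.apply_symm_apply, div_pow, ← hg1,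
      eq_div_iff rz.g_ne, mul_comm, ← hh]
    rfl
  have hh2 : h₂ ≠ 0 := fun h0 => hg₂ (by rw [hg2, h0, zero_pow hn0])
  have hr1 := rz.res
  rw [hg1] at hr1
  rw [hg2] at hr₂
  have key := (exchangeAt hqM hA).smul_mk_add (good hqM hA hsm) (frobSym hqM hA hσ)
    (frobSym_V hqM hA hσ) hnk rz.D rz.f_ne rz.ord_f hh1 hh2 hr1 hr₂
  rw [rz.mk_D] at key
  rw [galois_smul_pic0_def]
  exact key

end Main

end FLTAgent.Lowering.P7
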