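import Fermat.Agent.Lowering.P7.Interface
import Fermat.Agent.Lowering.P7.Residual
import Fermat.Agent.Lowering.P7.Relations
import Fermat.Agent.Lowering.P7.Coefficients
import Fermat.Agent.EigenLattice.Rep
import Fermat.Agent.FrobTrace.Global

/-!
# A system unramified at a prime exactly dividing the level is old there

Otherwise some good operator kills level `M` but not the eigen lattice of level `Mt`. On its image
Frobenius at `t` is minus `t` times the exchange, so it commutes with the Galois action and squares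
to `t²`: it is a scalar of determinant `t²`, but the determinant is `t`.
-/

set_option autoImplicit false
set_option linter.style.haveILetI false
set_option linter.unusedSectionVars false
set_option synthInstance.maxHeartbeats 400000
set_option maxHeartbeats 2000000

noncomputable section

open AlgebraicCurve ModularCurve IsLocalRing Matrix

namespace FLTAgent.Lowering.P7

open FLTAgent.BadRed FLTAgent.MazurPrinciple FLTAgent.Deformation
open FLTAgent.EigenLattice (Ix torsCoord galO eigenVec eigenRep GoodIdx evalGood evalGood_X opAct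
  torsCoord_opAct opAct_heckeGen functional_galO functional_intMulVec galMx_mulVec pushPic
  pushPic_opAct_eq_zero vec_ext eigenRep_frobenius coe_eigenRep_apply)
open FLTAgent.EigenReps (toFull toFull_T)

local notation "QA" => AlgebraicClosure ℚ
local notation "GG" => (AlgebraicClosure ℚ ≃ₐ[ℚ] AlgebraicClosure ℚ)

attribute [local instance 2000] fullCAlgebra laurentAlgebra x0BarAlgebra

section Classes

variable (N : ℕ) [NeZero N] (p : ℕ) [Fact p.Prime] (κ : AlgebraicClosure ℚ →+* ℂ)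
  {O : Type} [CommRing O] [IsDomain O] [IsDiscreteValuationRing O] [CharZero O]
  [IsAdicComplete (maximalIdeal O) O]

instance instNeZeroPPow (k : ℕ) : NeZero (p ^ k) :=
  ⟨pow_ne_zero _ (Fact.out : p.Prime).ne_zero⟩

/-- The torsion class with coordinates the values of a functional. -/
def clsHomO {k : ℕ} (g : O →+ ZMod (p ^ k)) :
    (Ix N → O) →+ Pic0.torsion QA (modularFunctionFieldBar N) (p ^ k) :=
  (torsCoord (N := N) κ (p ^ k)).symm.toAddMonoidHom.comp (g.compLeft (Ix N))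

variable {N p κ}

theorem torsCoord_clsHomO {k : ℕ} (g : O →+ ZMod (p ^ k)) (v : Ix N → O) :
    torsCoord (N := N) κ (p ^ k) (clsHomO N p κ g v) = fun i => g (v i) :=
  AddEquiv.apply_symm_apply _ _

variable (hp : (p : O) ∈ maximalIdeal O)

theorem smul_clsHomO {k : ℕ} (g : O →+ ZMod (p ^ k)) (σ : GG) (v : Ix N → O) :
    σ • (clsHomO N p κ g v : JZero N) = (clsHomO N p κ g (galO N p κ O hp σ *ᵥ v) : JZero N) := by
  have h : ModularCurve.JZero.torsionGaloisRep N (p ^ k) σ (clsHomO N p κ g v) =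
      clsHomO N p κ g (galO N p κ O hp σ *ᵥ v) := by
    refine (torsCoord (N := N) κ (p ^ k)).injective ?_
    rw [← galMx_mulVec, torsCoord_clsHomO, torsCoord_clsHomO]
    funext i
    exact (functional_galO N p κ O hp g σ v i).symm
  have h2 := congrArg Subtype.val h
  rwa [ModularCurve.JZero.coe_torsionGaloisRep_apply] at h2

include hp in
theorem eq_of_clsHomO {a b : Ix N → O}
    (h : ∀ (k : ℕ) (g : O →+ ZMod (p ^ k)),
      (clsHomO N p κ g a : JZero N) = (clsHomO N p κ g b : JZero N)) : a = b :=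
  vec_ext N p O hp fun k g i => by
    have h1 := congrArg (torsCoord (N := N) κ (p ^ k)) (Subtype.ext (h k g))
    rw [torsCoord_clsHomO, torsCoord_clsHomO] at h1
    exact congrFun h1 i

theorem opAct_clsHomO (χ : CuspForm.heckeAlgebra N 2 (∅ : Set ℕ) →+* O) {k : ℕ}
    (g : O →+ ZMod (p ^ k)) (t : CuspForm.heckeAlgebra N 2 (∅ : Set ℕ)) {v : Ix N → O}
    (hv : v ∈ eigenVec N χ) :
    opAct κ (p ^ k) t (clsHomO N p κ g v) = clsHomO N p κ g (χ t • v) := by
  refine (torsCoord (N := N) κ (p ^ k)).injective ?_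
  rw [torsCoord_opAct, torsCoord_clsHomO, torsCoord_clsHomO]
  funext i
  exact (functional_intMulVec p g _ v i).symm.trans (congrArg g (congrFun (hv t) i))

end Classes

section Core

variable {p : ℕ} [Fact p.Prime] {t : ℕ} [Fact t.Prime] [NeZero t] {M : ℕ} [NeZero M]
  [NeZero (M * t)] (htM : ¬ t ∣ M) (κ : AlgebraicClosure ℚ →+* ℂ) (bad : Finset ℕ)
  {O : Type} [CommRing O] [IsDomain O] [IsDiscreteValuationRing O] [CharZero O]
  [IsAdicComplete (maximalIdeal O) O] (hp : (p : O) ∈ maximalIdeal O)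
  (χ : CuspForm.heckeAlgebra (M * t) 2 (∅ : Set ℕ) →+* O)
  {A : ValuationSubring QA} (hA : A.LiesOverPrime t) {σ : GG} (hσ : A.IsFrobeniusAt σ t)

include htM hσ hA in
/-- The key relation on the scaled eigen classes. -/
theorem frobenius_scaled (hp5 : 5 ≤ p) (ht5 : 5 ≤ t) (htp : t ≠ p) (hpb : p ∈ bad)
    (hfix : ∀ τ ∈ A.inertiaSubgroupIn ℚ, ∀ v ∈ eigenVec (M * t) χ,
      galO (M * t) p κ O hp τ *ᵥ v = v)
    (P : MvPolynomial (GoodIdx (M * t) bad) ℤ) (hP : evalGood (M * t) bad M P = 0)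
    {r : ℕ} (hr : r.Prime) (hrN : ¬ r ∣ M * t) {k : ℕ} (g : O →+ ZMod (p ^ k))
    {v : Ix (M * t) → O} (hv : v ∈ eigenVec (M * t) χ) :
    let c := χ (evalGood (M * t) bad (M * t) P) * (χ (CuspForms.heckeGen (M * t) r hr) +
      ((-((r + 1 : ℕ) : ℤ) : ℤ) : O)) * χ (evalGood (M * t) bad (M * t) P)
    σ • (clsHomO (M * t) p κ g (c • v) : JZero (M * t)) +
      t • (swapAut htM • (clsHomO (M * t) p κ g (c • v) : JZero (M * t))) = 0 := by
  intro c
  haveI : Fact r.Prime := ⟨hr⟩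
  haveI : NeZero r := ⟨hr.ne_zero⟩
  haveI : IsAlgClosed (ResidueField A) := FrobTrace.isAlgClosed_residueField A
  haveI : CharP (ResidueField A) t := FrobTrace.charP_residueField hA
  haveI := Specialization.isFunctionField_full (ResidueField A) M rfl (BadRed.natCast_ne_zero htM (ResidueField A))
  have hsm := smooth_level htM hA (.inl ht5)
  have htk : ¬ t ∣ p ^ k := fun h =>
    htp ((Nat.prime_dvd_prime_iff_eq Fact.out Fact.out).1 ((Fact.out : t.Prime).dvd_of_dvd_pow h))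
  have hnS : ∀ l : ℕ, l.Prime → l ∣ p ^ k → l ∈ bad := fun l hl h => by
    rw [(Nat.prime_dvd_prime_iff_eq hl Fact.out).1 (hl.dvd_of_dvd_pow h)]
    exact hpb
  have h12 : (p ^ k).Coprime 12 := by
    refine Nat.Coprime.pow_left _ ((Nat.Prime.coprime_iff_not_dvd Fact.out).2 fun h => ?_)
    have hpp := (Fact.out : p.Prime)
    have := Nat.le_of_dvd (by norm_num) h
    interval_cases p <;> revert hpp h <;> norm_num
  set Pf := evalGood (M * t) bad (M * t) P
  set Tr := CuspForms.heckeGen (M * t) r hr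
  have hsc : ∀ (a : O), a • v ∈ eigenVec (M * t) χ := fun a => Submodule.smul_mem _ a hv
  set x := clsHomO (M * t) p κ g (χ Pf • v) with hx
  set w := opAct κ (p ^ k) Tr x + (-((r + 1 : ℕ) : ℤ)) • x with hw
  have hT : (opAct κ (p ^ k) Tr x : JZero (M * t)) =
      heckeOperatorAlong QA (M * t) r (x : JZero (M * t)) := by
    exact (congrArg Subtype.val (opAct_heckeGen κ (p ^ k) ⟨r, hr⟩ x)).trans
      (ModularCurve.heckeOperatorBar_apply (M * t) ⟨r, hr⟩ _)
  have hwx : opAct κ (p ^ k) Pf w = clsHomO (M * t) p κ g (c • v) := by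
    have e : w = clsHomO (M * t) p κ g
        (((χ Tr + ((-((r + 1 : ℕ) : ℤ) : ℤ) : O)) * χ Pf) • v) := by
      rw [hw, hx, opAct_clsHomO χ g Tr (hsc _), ← map_zsmul, ← map_add, add_mul, add_smul,
        smul_smul, ← Int.cast_smul_eq_zsmul O, smul_smul]
    rw [e, opAct_clsHomO χ g Pf (hsc _), smul_smul]
    exact congrArg (fun a : O => clsHomO (M * t) p κ g (a • v)) (by ring)
  have hpush : ∀ u : Ix (M * t) → O, u ∈ eigenVec (M * t) χ →
      pushPic M t (heckeAlphaBar QA M t)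
        (clsHomO (M * t) p κ g (χ Pf • u) : JZero (M * t)) = 0 := fun u hu => by
    rw [← opAct_clsHomO χ g Pf hu]
    exact pushPic_opAct_eq_zero κ (p ^ k) (heckeAlphaBar QA M t)
      (fun τ u => (galois_smul_alpha τ u).symm) bad hnS P hP _
  have hfixc : ∀ u : Ix (M * t) → O, u ∈ eigenVec (M * t) χ → ∀ τ ∈ A.inertiaSubgroupIn ℚ,
      τ • (clsHomO (M * t) p κ g u : JZero (M * t)) = (clsHomO (M * t) p κ g u : JZero (M * t)) :=
    fun u hu τ hτ => by rw [smul_clsHomO hp, hfix τ hτ u hu]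
  have hTx : heckeOperatorAlong QA (M * t) r (x : JZero (M * t)) =
      (clsHomO (M * t) p κ g (χ Pf • (χ Tr • v)) : JZero (M * t)) := by
    rw [← hT, hx, opAct_clsHomO χ g Tr (hsc _), smul_comm]
  have key := frobenius_eq (n := p ^ k) htM hA hsm bad κ hσ htk h12 hnS P hP hrN x w
    (by rw [← hT, hw]; rfl)
    (fun τ hτ => hfixc _ (hsc _) τ hτ) (hpush v hv)
    (fun τ hτ => by rw [hTx]; exact hfixc _ (Submodule.smul_mem _ _ (hsc _)) τ hτ)
    (by rw [hTx]; exact hpush _ (hsc _))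
  rw [hwx] at key
  exact key

include htM hσ hA in
/-- Frobenius commutes with the Galois action and squares to `t²` on the eigen lattice. -/
theorem frobenius_central (hp5 : 5 ≤ p) (ht5 : 5 ≤ t) (htp : t ≠ p) (hpb : p ∈ bad)
    (hfix : ∀ τ ∈ A.inertiaSubgroupIn ℚ, ∀ v ∈ eigenVec (M * t) χ,
      galO (M * t) p κ O hp τ *ᵥ v = v)
    (P : MvPolynomial (GoodIdx (M * t) bad) ℤ) (hP : evalGood (M * t) bad M P = 0)
    (hPθ : χ (evalGood (M * t) bad (M * t) P) ≠ 0)
    {r : ℕ} (hr : r.Prime) (hrN : ¬ r ∣ M * t)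
    (hE : χ (CuspForms.heckeGen (M * t) r hr) ≠ (r : O) + 1)
    {v : Ix (M * t) → O} (hv : v ∈ eigenVec (M * t) χ) :
    (∀ γ : GG, galO (M * t) p κ O hp σ *ᵥ (galO (M * t) p κ O hp γ *ᵥ v) =
      galO (M * t) p κ O hp γ *ᵥ (galO (M * t) p κ O hp σ *ᵥ v)) ∧
    galO (M * t) p κ O hp σ *ᵥ (galO (M * t) p κ O hp σ *ᵥ v) = ((t : O) * t) • v := by
  set c := χ (evalGood (M * t) bad (M * t) P) * (χ (CuspForms.heckeGen (M * t) r hr) +
      ((-((r + 1 : ℕ) : ℤ) : ℤ) : O)) * χ (evalGood (M * t) bad (M * t) P) with hc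
  have hc0 : c ≠ 0 := by
    refine mul_ne_zero (mul_ne_zero hPθ fun h => hE ?_) hPθ
    push_cast at h
    linear_combination h
  set G := galO (M * t) p κ O hp
  have key : ∀ (k : ℕ) (g : O →+ ZMod (p ^ k)) (u : Ix (M * t) → O), u ∈ eigenVec (M * t) χ →
      σ • (clsHomO (M * t) p κ g (c • u) : JZero (M * t)) =
        -(t • (swapAut htM • (clsHomO (M * t) p κ g (c • u) : JZero (M * t)))) :=
    fun k g u hu => eq_neg_of_add_eq_zero_left
      (frobenius_scaled htM κ bad hp χ hA hσ hp5 ht5 htp hpb hfix P hP hr hrN g hu)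
  have hmem : ∀ γ, ∀ u ∈ eigenVec (M * t) χ, G γ *ᵥ u ∈ eigenVec (M * t) χ := fun γ u hu =>
    EigenLattice.galO_mem (M * t) p κ hp χ γ hu
  constructor
  · intro γ
    refine smul_right_injective (Ix (M * t) → O) hc0 ?_
    show c • (G σ *ᵥ (G γ *ᵥ v)) = c • (G γ *ᵥ (G σ *ᵥ v))
    refine eq_of_clsHomO (κ := κ) hp fun k g => ?_
    rw [show c • (G σ *ᵥ (G γ *ᵥ v)) = G σ *ᵥ (c • (G γ *ᵥ v)) from (Matrix.mulVec_smul _ _ _).symm,
      show c • (G γ *ᵥ (G σ *ᵥ v)) = G γ *ᵥ (G σ *ᵥ (c • v)) by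
        rw [Matrix.mulVec_smul, Matrix.mulVec_smul],
      ← smul_clsHomO hp, key k g _ (hmem γ v hv), ← smul_clsHomO hp, ← smul_clsHomO hp,
      key k g v hv, smul_neg, smul_comm γ t, ← swapAut_smul_galois, smul_clsHomO hp,
      Matrix.mulVec_smul]
  · refine smul_right_injective (Ix (M * t) → O) hc0 ?_
    show c • (G σ *ᵥ (G σ *ᵥ v)) = c • (((t : O) * t) • v)
    refine eq_of_clsHomO (κ := κ) hp fun k g => ?_
    rw [show c • (G σ *ᵥ (G σ *ᵥ v)) = G σ *ᵥ (G σ *ᵥ (c • v)) by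
        rw [Matrix.mulVec_smul, Matrix.mulVec_smul],
      ← smul_clsHomO hp, ← smul_clsHomO hp, key k g v hv, smul_neg, smul_comm σ t,
      ← swapAut_smul_galois, key k g v hv, smul_neg, neg_nsmul, neg_neg,
      smul_comm (swapAut htM) t, ← mul_smul (swapAut htM),
      show swapAut htM * swapAut htM = 1 from
        Subtype.ext (Prod.ext (RingEquiv.ext fun z => swapEnd_swapEnd htM z)
          (RingEquiv.ext fun a => rfl)), one_smul, smul_comm c, smul_smul, ← Nat.cast_mul,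
      Nat.cast_smul_eq_nsmul O, map_nsmul]
    rfl

end Core

theorem mapMatrix_trace {A O : Type} [CommRing A] [CommRing O] (j : A →+* O)
    (X : Matrix (Fin 2) (Fin 2) A) : (j.mapMatrix X).trace = j X.trace := by
  simp [Matrix.trace_fin_two]

/-- An operator killing the lower level has eigenvalue zero. -/
theorem system_eq_zero {p : ℕ} [Fact p.Prime] {t : ℕ} [Fact t.Prime] [NeZero t] {M : ℕ} [NeZero M]
    [NeZero (M * t)] (htM : ¬ t ∣ M) (bad : Finset ℕ) (hp5 : 5 ≤ p) (ht5 : 5 ≤ t) (htp : t ≠ p)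
    (hpb : p ∈ bad) (hMb : ∀ l : ℕ, l.Prime → l ∣ M * t → l ∈ bad)
    {A : Type} [CommRing A] [IsDomain A] [CharZero A] [Algebra ℤ_[p] A] [Module.Finite ℤ_[p] A]
    (r : GG →* GL (Fin 2) A)
    (hcts : ∀ n : ℕ, ∃ L : IntermediateField ℚ QA, FiniteDimensional ℚ L ∧
      ∀ σ : GG, (∀ x ∈ L, σ x = x) → ∀ i j, (r σ : Matrix (Fin 2) (Fin 2) A) i j -
        (1 : Matrix (Fin 2) (Fin 2) A) i j ∈ Ideal.span {(p : A) ^ n})
    (hdet : ∀ (n : ℕ) (σ : GG) (c : ℕ), DetCyclo.CycloExponent p n σ c →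
      detGL (r σ) - (c : A) ∈ Ideal.span {(p : A) ^ n})
    (hur : ∀ V : ValuationSubring QA, V.LiesOverPrime t → ∀ σ ∈ V.inertiaSubgroupIn ℚ, r σ = 1)
    (hbig : ∃ g h : GG, IsUnit (trGL (r (g * h * g⁻¹ * h⁻¹)) - 2))
    (θ : CuspForm.heckeAlgebra (M * t) 2 (↑bad : Set ℕ) →+* A)
    (hθ : ∀ (l : ℕ) (hl : l.Prime) (hlM : ¬ l ∣ M * t) (hlb : l ∉ (↑bad : Set ℕ)),
      ∀ V : ValuationSubring QA, V.LiesOverPrime l → ∀ σ : GG, V.IsFrobeniusAt σ l →
        θ (CuspForm.heckeAlgebra.T hl hlM hlb) = trGL (r σ))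
    (P : MvPolynomial (GoodIdx (M * t) bad) ℤ) (hP : evalGood (M * t) bad M P = 0)
    (u : CuspForm.heckeAlgebra (M * t) 2 (↑bad : Set ℕ))
    (hu : toFull (M * t) bad u = evalGood (M * t) bad (M * t) P) : θ u = 0 := by
  classical
  obtain ⟨O, _, _, _, _, _, j, χ, hp, hj, hχ⟩ := exists_coefficients p (M * t) bad A θ
  by_contra hne
  have hPθ : χ (evalGood (M * t) bad (M * t) P) ≠ 0 := by
    rw [← hu, hχ]
    exact fun h => hne (hj (h.trans (map_zero j).symm))
  set κ := FLTAgent.Kronecker.complexEmb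
  set ρ := eigenRep (M * t) p κ hp χ
  obtain ⟨b⟩ := nonempty_basis ρ
  set m := matOf ρ b
  let R : GG →* M2 O := j.mapMatrix.toMonoidHom.comp ((Units.coeHom _).comp r)
  have hspan : ∀ {n : ℕ} {x : A}, x ∈ Ideal.span {(p : A) ^ n} → j x ∈ maximalIdeal O ^ n := by
    intro n x hx
    obtain ⟨y, rfl⟩ := Ideal.mem_span_singleton.1 hx
    rw [map_mul, map_pow, map_natCast]
    exact Ideal.mul_mem_right _ _ (Ideal.pow_mem_pow hp n)
  have hR : MatCts R := fun n => by
    obtain ⟨L, hL, h⟩ := hcts n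
    refine ⟨L, hL, fun σ hσ i k => ?_⟩
    have h1 := hspan (h σ hσ i k)
    rw [map_sub] at h1
    convert h1 using 1
    simp [R, Matrix.one_apply, apply_ite j]
  have hRdet : ∀ (σ : GG) (c : ℕ), (∀ n, DetCyclo.CycloExponent p n σ c) →
      (R σ).det = (c : O) := fun σ c hc => by
    refine DetCyclo.eq_of_forall_sub_mem fun n => ?_
    have h1 := hspan (hdet n σ c (hc n))
    rw [map_sub, map_natCast, RingHom.map_det] at h1
    exact h1
  have hcyc : ∀ {l : ℕ}, l.Prime → l ≠ p → ∀ {V : ValuationSubring QA}, V.LiesOverPrime l →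
      ∀ {τ : GG}, V.IsFrobeniusAt τ l → (R τ).det = (l : O) := fun hl hlp V hV τ hτ =>
    hRdet _ _ fun n => DetCyclo.cycloExponent_frobenius hl hlp hV hτ n
  have hT : ∀ (l : ℕ) (hl : l.Prime), l ∉ bad → ∀ V : ValuationSubring QA, V.LiesOverPrime l →
      ∀ τ : GG, V.IsFrobeniusAt τ l →
        χ (CuspForms.heckeGen (M * t) l hl) = (R τ).trace := fun l hl hlb V hV τ hτ => by
    have hlM : ¬ l ∣ M * t := fun h => hlb (hMb l hl h)
    rw [← toFull_T (M * t) bad hl hlM (by simpa using hlb), hχ,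
      hθ l hl hlM (by simpa using hlb) V hV τ hτ]
    exact (mapMatrix_trace j _).symm
  have hm : MatCts m := matCts_matOf ρ b
  have hrel : ∀ l : ℕ, l.Prime → l ∉ bad → ∀ V : ValuationSubring QA, V.LiesOverPrime l →
      ∀ τ : GG, V.IsFrobeniusAt τ l →
        m τ * m τ - (R τ).trace • m τ + (R τ).det • 1 = 0 := fun l hl hlb V hV τ hτ => by
    have hlp : l ≠ p := fun h => hlb (h ▸ hpb)
    have h := congrArg (LinearMap.toMatrixAlgEquiv b)
      (eigenRep_frobenius (M * t) p κ hp χ hl (fun h => hlb (hMb l hl h)) hlp hV hτ)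
    rw [hcyc hl hlp hV hτ, ← hT l hl hlb V hV τ hτ]
    simpa [m, matOf] using h
  have hgh : ∃ g h : GG, (R (g * h * g⁻¹ * h⁻¹)).trace ≠ 2 := by
    obtain ⟨g, h, hu⟩ := hbig
    refine ⟨g, h, fun he => (hu.map j).ne_zero ?_⟩
    rw [map_sub, map_ofNat, ← mapMatrix_trace, sub_eq_zero]
    exact he
  obtain ⟨l, V₁, τ₁, hl, hlb, hV₁, hτ₁, hE⟩ := exists_not_eisenstein_frobenius hR bad hgh
  have hlp : l ≠ p := fun h => hlb (h ▸ hpb)
  rw [hcyc hl hlp hV₁ hτ₁, ← hT l hl hlb V₁ hV₁ τ₁ hτ₁] at hE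
  obtain ⟨B, hB⟩ := Frobenius.exists_liesOverPrime t (Fact.out : t.Prime)
  obtain ⟨σ, hσ⟩ := Frobenius.exists_isFrobeniusAt B t (Fact.out : t.Prime) hB
  have hfix : ∀ τ ∈ B.inertiaSubgroupIn ℚ, ∀ v ∈ eigenVec (M * t) χ,
      galO (M * t) p κ O hp τ *ᵥ v = v := fun τ hτ v hv => by
    have hR1 : R τ = 1 := by
      show j.mapMatrix (r τ : Matrix (Fin 2) (Fin 2) A) = 1
      rw [hur B hB τ hτ, Units.val_one, map_one]
    have h1 : ρ.ρ τ = 1 := (LinearMap.toMatrixAlgEquiv b).injective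
      ((eq_one_of_eq_one hm hR bad hrel hgh hR1).trans (map_one _).symm)
    have h2 := coe_eigenRep_apply (M * t) p κ hp χ τ ⟨v, hv⟩
    rw [h1] at h2
    exact h2.symm
  have hcen := fun (v : Ix (M * t) → O) (hv : v ∈ eigenVec (M * t) χ) =>
    frobenius_central htM κ bad hp χ hB hσ hp5 ht5 htp hpb hfix P hP hPθ hl
      (fun h => hlb (hMb l hl h)) (fun h => hE (by rw [h]; ring)) hv
  have hcomm : ∀ γ, ρ.ρ σ * ρ.ρ γ = ρ.ρ γ * ρ.ρ σ := fun γ =>
    LinearMap.ext fun (v : eigenVec (M * t) χ) => Subtype.ext ((hcen v.1 v.2).1 γ)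
  have hsq : ρ.ρ σ * ρ.ρ σ = ((t : O) * t) • 1 :=
    LinearMap.ext fun (v : eigenVec (M * t) χ) => Subtype.ext (hcen v.1 v.2).2
  obtain ⟨h01, h10, h11⟩ := isScalarMat_of_commute hm hR bad hrel hgh (X := m σ) fun γ => by
    have h := congrArg (LinearMap.toMatrixAlgEquiv b) (hcomm γ)
    simpa [m, matOf] using h
  have hsq' : m σ * m σ = ((t : O) * t) • 1 := by
    have h := congrArg (LinearMap.toMatrixAlgEquiv b) hsq
    simpa [m, matOf] using h
  have hd := det_eq_det hm hR bad hrel hgh σ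
  rw [hcyc (Fact.out : t.Prime) htp hB hσ, Matrix.det_fin_two, h01, h10, ← h11] at hd
  have h00 := congrFun (congrFun hsq' 0) 0
  simp [Matrix.mul_apply, Fin.sum_univ_two, h01] at h00
  have htt : ((t * t : ℕ) : O) = (t : O) := by push_cast; linear_combination hd - h00
  have := Nat.cast_injective (R := O) htt
  nlinarith

theorem targetUnramifiedOld : TargetUnramifiedOld := by
  intro p _ M t bad hp5 htpr ht5 htp htM ht2 hpb hMb A _ _ _ _ _ _ r hcts hdet _ hur hbig hseen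
  obtain ⟨M', rfl⟩ : ∃ M', M = M' * t := by
    obtain ⟨c, rfl⟩ := htM
    exact ⟨c, mul_comm _ _⟩
  obtain ⟨hN, θ, hθ⟩ := hseen
  haveI := hN
  haveI : Fact t.Prime := ⟨htpr⟩
  haveI : NeZero t := ⟨htpr.ne_zero⟩
  haveI : NeZero M' := ⟨fun h => NeZero.ne (M' * t) (by rw [h, zero_mul])⟩
  have hM' : ¬ t ∣ M' := fun h => ht2 (by rw [pow_two]; exact mul_dvd_mul_right h t)
  have hidx : ∀ (L : ℕ), L ∣ M' * t → ∀ q : GoodIdx (M' * t) bad, ¬ (q.1 : ℕ) ∣ L :=
    fun L hL q h => q.2.1 (h.trans hL)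
  let gen : ∀ (L : ℕ) [NeZero L], L ∣ M' * t → GoodIdx (M' * t) bad →
      CuspForm.heckeAlgebra L 2 (↑bad : Set ℕ) := fun L _ hL q =>
    CuspForm.heckeAlgebra.T q.1.2 (hidx L hL q) (Finset.mem_coe.not.2 q.2.2)
  set ev := fun (L : ℕ) [NeZero L] (hL : L ∣ M' * t) =>
    (MvPolynomial.aeval (R := ℤ) (gen L hL)).toRingHom
  have hev : ∀ (L : ℕ) [NeZero L] (hL : L ∣ M' * t) (P : MvPolynomial (GoodIdx (M' * t) bad) ℤ),
      toFull L bad (ev L hL P) = evalGood (M' * t) bad L P := by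
    intro L _ hL P
    refine RingHom.congr_fun (MvPolynomial.ringHom_ext (f := (toFull L bad).comp (ev L hL))
      (fun c => by simp) fun q => ?_) P
    rw [RingHom.comp_apply, evalGood_X]
    exact (congrArg (toFull L bad) (MvPolynomial.aeval_X _ q)).trans (toFull_T L bad _ _ _)
  rw [Nat.mul_div_cancel _ htpr.pos]
  have hd : M' ∣ M' * t := dvd_mul_right _ _
  have hsurj : Function.Surjective (ev M' hd) := by
    rintro ⟨x, hx⟩
    induction hx using Algebra.adjoin_induction with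
    | mem x hx =>
      rcases hx with ⟨l, hl, hlM, hlb, rfl⟩ | ⟨q, hqM, hq, hqb, rfl⟩
      · exact ⟨MvPolynomial.X ⟨⟨l, hl⟩, fun h => hlb (hMb l hl h), by simpa using hlb⟩,
          MvPolynomial.aeval_X _ _⟩
      · exact absurd (hMb q hq (hqM.trans hd)) (by simpa using hqb)
    | algebraMap c => exact ⟨MvPolynomial.C c, MvPolynomial.aeval_C _ c⟩
    | add x y _ _ hx hy =>
      obtain ⟨a, ha⟩ := hx
      obtain ⟨b, hb⟩ := hy
      exact ⟨a + b, by rw [map_add, ha, hb]; rfl⟩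
    | mul x y _ _ hx hy =>
      obtain ⟨a, ha⟩ := hx
      obtain ⟨b, hb⟩ := hy
      exact ⟨a * b, by rw [map_mul, ha, hb]; rfl⟩
  have hker : RingHom.ker (ev M' hd) ≤ RingHom.ker (θ.comp (ev (M' * t) dvd_rfl)) := fun P hP =>
    system_eq_zero hM' bad hp5 ht5 htp hpb hMb r hcts hdet hur hbig θ hθ P
      (by rw [← hev M' hd, RingHom.mem_ker.1 hP, map_zero]) _ (hev _ dvd_rfl P)
  refine ⟨inferInstance, RingHom.liftOfSurjective (ev M' hd) hsurj ⟨_, hker⟩,
    fun l hl hlM hlb V hV σ hσ => ?_⟩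
  have hlN : ¬ l ∣ M' * t := fun h => hlb (hMb l hl h)
  let q : GoodIdx (M' * t) bad := ⟨⟨l, hl⟩, hlN, by simpa using hlb⟩
  rw [show CuspForm.heckeAlgebra.T hl hlM hlb = ev M' hd (MvPolynomial.X q) from
    (MvPolynomial.aeval_X (gen M' hd) q).symm, RingHom.liftOfRightInverse_comp_apply]
  exact (congrArg θ (MvPolynomial.aeval_X _ q)).trans (hθ l hl hlN hlb V hV σ hσ)

end FLTAgent.Lowering.P7
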