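import Fermat.Agent.BadRed.Torsion

/-!
# Frobenius and the exchange of the sheets on glued data

A Frobenius symmetry `σ` and an automorphism `W` over the constants exchanging the two sheets have
gluing constants related by `ζ_σ ζ_W ^ q = 1`, so `σ f (W f) ^ q` is an `n`-th power up to a
constant for data with both reductions `n`-th powers.
-/

set_option autoImplicit false
set_option linter.style.haveILetI false
set_option linter.unusedSectionVars false

noncomputable section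

namespace FLTAgent.Lowering.P7

open AlgebraicCurve FLTAgent.Curves FLTAgent.Specialization FLTAgent.BadRed IntermediateField
open AlgebraicCurve.SemilinearAut (baseAut)

variable {L k : Type*} [Field L] [Field k] {A : ValuationSubring L} {π : A →+* k}
  {FC Fb F : Type*} [Field FC] [Field Fb] [Field F] [Algebra L FC]
  [Algebra k Fb] [Algebra L F] [IsAlgClosed L] [IsFunctionField L FC] [IsFunctionField L F]
  [IsAlgClosed k] [IsFunctionField k Fb] {q : ℕ} {S : Sheet π FC Fb F q}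

/-- An automorphism over the constants exchanging the two sheets. -/
structure Exchange (S : Sheet π FC Fb F q) where
  W : SemilinearAut L F
  base : baseAut W = 1
  res₁ : ∀ f g, S.R₂.Res f g → S.R₁.Res (W • f) g
  res₂ : ∀ f g, S.R₁.Res f g → S.R₂.Res (W • f) g
  WX : W • S.X = S.β S.MC.x

namespace Exchange

variable (E : Exchange S)

theorem smul_const (c : L) (f : F) : E.W • (c • f) = c • (E.W • f) := by
  rw [Algebra.smul_def, smul_mul', SemilinearAut.smul_algebraMap, E.base, Algebra.smul_def]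
  rfl

theorem poles_smul (hS : S.Good) {a : ℕ} {f : F}
    (hf : f ∈ riemannRochSpace ((a : ℤ) • poleDiv L S.X)) :
    E.W • f ∈ riemannRochSpace (((q * a : ℕ) : ℤ) • poleDiv L S.X) := by
  refine mem_rrSpace.2 fun v => ?_
  rcases eq_or_ne f 0 with rfl | hf0
  · rw [smul_zero]; exact ordGE_zero _ _
  have h := (mem_rrSpace.1 hf (E.W⁻¹ • v)).le_ord hf0
  rw [Finsupp.smul_apply, smul_eq_mul, poleDiv_apply] at h ⊢
  rw [← BadRed.ord_smul' E.W S.X, E.WX, ← BadRed.ord_smul' E.W f] at h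
  refine ordGE_of_le (le_trans ?_ h)
  have hb : S.β S.MC.x ≠ 0 := by
    rw [← E.WX, ne_eq, smul_eq_zero_iff_eq]
    exact ne_zero_of_transcendental S.transcendental_X
  have key : max (-v.ord (S.β S.MC.x)) 0 ≤ (q : ℤ) * max (-v.ord S.X) 0 := by
    rcases le_or_gt 0 (v.ord S.X) with h0 | h0
    · have := (hS.β_int v h0).le_ord hb
      rw [max_eq_right (by omega), max_eq_right (by omega), mul_zero]
    · have := (hS.β_le v h0).le_ord hb
      rw [max_eq_left (a := -v.ord S.X) (by omega)]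
      exact max_le (by linarith)
        (mul_nonneg (Int.natCast_nonneg q) (by omega))
  push_cast
  have := mul_le_mul_of_nonneg_left key (Int.natCast_nonneg a)
  linarith

/-- The data of the image under the exchange. -/
def swapData {n : ℕ} (z : S.KData n) : S.KData n where
  n_ne := z.n_ne
  f := E.W • (z.d⁻¹ ^ n • z.f)
  f_ne := (smul_ne_zero_iff_ne E.W).2
    (smul_ne_zero (pow_ne_zero _ (inv_ne_zero z.d_ne)) z.f_ne)
  dvd v := by
    have hd : algebraMap L F (z.d⁻¹ ^ n) ≠ 0 :=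
      (_root_.map_ne_zero _).2 (pow_ne_zero _ (inv_ne_zero z.d_ne))
    rw [BadRed.ord_smul', Algebra.smul_def, Place.ord_mul _ hd z.f_ne, ord_algebraMap, zero_add]
    exact z.dvd _
  d := z.d⁻¹
  d_ne := inv_ne_zero z.d_ne
  g := (z.g.2, z.g.1)
  g₁_ne := z.g₂_ne
  g₂_ne := z.g₁_ne
  res := by
    refine ⟨E.res₁ _ _ z.res.2, ?_⟩
    rw [← E.smul_const, smul_smul, inv_inv, ← mul_pow, mul_inv_cancel₀ z.d_ne, one_pow, one_smul]
    exact E.res₂ _ _ z.res.1

theorem mem_normImg_swapData (hS : S.Good) {n : ℕ} (z : S.KData n) {m : ℕ} {φ : Fb × Fb}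
    (h : φ ∈ z.normImg m) : (φ.2, φ.1) ∈ (E.swapData z).normImg (q * m) := by
  obtain ⟨u, hu, w, hw, rfl⟩ := z.mem_normImg.1 h
  refine (E.swapData z).mem_normImg.2 ⟨E.W • (z.d • u), ?_, (w.2, w.1),
    ⟨E.res₁ _ _ hw.2, ?_⟩, rfl⟩
  · refine Sheet.KData.mem_space_of_pow _ ?_
    change (E.W • (z.d • u)) ^ n * E.W • (z.d⁻¹ ^ n • z.f) ∈ _
    rw [← smul_pow', ← smul_mul', _root_.smul_pow, smul_mul_smul_comm, ← mul_pow,
      mul_inv_cancel₀ z.d_ne, one_pow, one_smul]
    have := E.poles_smul hS (z.npow_mem hu)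
    rwa [show q * (n * m) = n * (q * m) by ring] at this
  · change S.R₂.Res (z.d⁻¹ • E.W • (z.d • u)) w.1
    rw [← E.smul_const, smul_smul, inv_mul_cancel₀ z.d_ne, one_smul]
    exact E.res₂ _ _ hw.1

/-- **The gluing constants of the Frobenius conjugate and of the exchanged data.** -/
theorem exists_frobenius_mul (hS : S.Good) (P : S.Sym) (hV : ∀ g, S.V (P.σb g) = g ^ q) {n : ℕ}
    (z : S.KData n) :
    ∃ (c : L) (h : F), c ≠ 0 ∧ P.σ • z.f * (E.W • z.f) ^ q = c • h ^ n := by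
  obtain ⟨N⟩ := hS.nonempty_nodes
  set ζ := z.twist N
  obtain ⟨a, ha, has⟩ := N.surj N.m₀ le_rfl fun i => (ζ i)⁻¹
  have har : a ∈ S.regular := (mem_rrSpace_poles.1 ha).1
  have hφ : ((a, 1) : Fb × Fb) ∈ z.normImg N.m₀ := by
    rw [z.normImg_eq_twisted hS N (z.twist_spec N) (z.twist_ne N) le_rfl, Sheet.mem_twisted]
    refine ⟨⟨ha, ?_⟩, fun i => ?_⟩
    · refine mem_rrSpace.2 fun v => ordGE_of_le ?_
      rw [v.ord_one, neg_nonpos, Finsupp.smul_apply, smul_eq_mul]
      exact mul_nonneg (Int.natCast_nonneg _) (poleDiv_nonneg _ _)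
    · show N.s i (S.V 1) = ζ i * N.s i a
      rw [map_one, N.s_one, has, mul_inv_cancel₀ (z.twist_ne N i)]
  have hσ := P.mem_normImg_mapData z hφ
  have hW := E.mem_normImg_swapData hS z hφ
  have hσb : P.σb a ∈ S.regular :=
    (mem_rrSpace_poles.1 ((P.mapData z).normImg_le_targ _ hσ).1).1
  have htw : (P.mapData z).twist N * (E.swapData z).twist N ^ q = 1 := by
    funext i
    have h1 := (P.mapData z).twist_spec N _ _ hσ i
    have h2 := (E.swapData z).twist_spec N _ _ hW i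
    simp only [map_one, N.s_one] at h1
    rw [← N.s_V i _ hσb, hV, map_pow, N.s_pow i (S.V_mem_regular har)] at h1
    simp only [N.s_one, mul_one] at h2
    rw [h2] at h1
    exact h1.symm
  have hroot : ((P.mapData z).mul ((E.swapData z).npow q)).twist N = 1 := by
    rw [Sheet.KData.twist_mul hS, Sheet.KData.twist_npow hS N, htw]
  obtain ⟨h, hh⟩ := Sheet.KData.exists_root _ hS N hroot
  change h ^ n = P.σ • z.f * ((E.swapData z).npow q).f at hh
  rw [Sheet.KData.npow_f] at hh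
  change h ^ n = P.σ • z.f * (E.W • (z.d⁻¹ ^ n • z.f)) ^ q at hh
  rw [E.smul_const, _root_.smul_pow, mul_smul_comm] at hh
  refine ⟨((z.d⁻¹ ^ n) ^ q)⁻¹, h,
    inv_ne_zero (pow_ne_zero _ (pow_ne_zero _ (inv_ne_zero z.d_ne))), ?_⟩
  rw [hh, inv_smul_smul₀ (pow_ne_zero _ (pow_ne_zero _ (inv_ne_zero z.d_ne)))]

/-- **Frobenius is minus `q` times the exchange** on classes of data with both reductions powers. -/
theorem smul_mk_add (hS : S.Good) (P : S.Sym) (hV : ∀ g, S.V (P.σb g) = g ^ q) {n : ℕ}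
    (hn : (n : k) ≠ 0) (D : Divisor.degZero (K := L) (F := F)) {f : F} (hf : f ≠ 0)
    (hD : ∀ v : Place L F, v.ord f = (n : ℤ) * (D : Divisor L F) v) {c₁ c₂ : L} {h₁ h₂ : Fb}
    (h1 : h₁ ≠ 0) (h2 : h₂ ≠ 0) (r1 : S.R₁.Res (c₁ • f) (h₁ ^ n))
    (r2 : S.R₂.Res (c₂ • f) (h₂ ^ n)) :
    P.σ • (Pic0.mk D : Pic0 L F) + q • (E.W • (Pic0.mk D : Pic0 L F)) = 0 := by
  have hne : n ≠ 0 := fun h => hn (by rw [h, Nat.cast_zero])
  obtain ⟨z, hz⟩ := Sheet.exists_data hn hf (fun v => Dvd.intro _ (hD v).symm) h1 h2 r1 r2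
  obtain ⟨c, h, hc, hh⟩ := E.exists_frobenius_mul hS P hV z
  have hσf : P.σ • z.f ≠ 0 := (smul_ne_zero_iff_ne _).2 z.f_ne
  have hWf : E.W • z.f ≠ 0 := (smul_ne_zero_iff_ne _).2 z.f_ne
  have hh0 : h ≠ 0 := by
    rintro rfl
    rw [zero_pow hne, smul_zero] at hh
    exact mul_ne_zero hσf (pow_ne_zero _ hWf) hh
  have hzord : ∀ v, v.ord z.f = (n : ℤ) * (D : Divisor L F) v := fun v => by
    have hc1 : algebraMap L F c₁ ≠ 0 := fun h0 => z.f_ne (by
      rw [hz, Algebra.smul_def, h0, zero_mul])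
    rw [hz, Algebra.smul_def, Place.ord_mul _ hc1 hf, ord_algebraMap, zero_add, hD]
  simp only [SemilinearAut.pic0_smul_mk]
  refine ((congrArg _ (QuotientAddGroup.mk_nsmul _ _ q).symm).trans
    (QuotientAddGroup.mk_add _ _ _).symm).trans ?_
  refine (BadRed.mk_eq_of_ord (E := 0) hne hh0 fun v => ?_).trans (QuotientAddGroup.mk_zero _)
  have e := congrArg v.ord hh
  rw [Algebra.smul_def, v.ord_mul hσf (pow_ne_zero _ hWf), ord_pow, BadRed.ord_smul',
    BadRed.ord_smul', hzord, hzord, v.ord_mul ((_root_.map_ne_zero _).2 hc) (pow_ne_zero _ hh0),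
    ord_algebraMap, zero_add, ord_pow] at e
  simp only [AddSubgroup.coe_add, AddSubgroupClass.coe_nsmul, Finsupp.add_apply, Finsupp.smul_apply,
    SemilinearAut.coe_degZeroSMulHom, SemilinearAut.divisor_smul_apply, nsmul_eq_mul,
    ZeroMemClass.coe_zero, Finsupp.coe_zero, Pi.zero_apply, mul_zero, zero_add]
  rw [← e]
  ring

end Exchange

end FLTAgent.Lowering.P7
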