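import Fermat.Agent.MazurPrinciple.Slopes

/-!
# The order of the first reduction at a glued point and the two scales

For `f` with divisor `n D` and a glued point `t`, reciprocity with a quotient of two test functions
produces a number `λ`, fixed by every automorphism fixing `D` and the test functions, such that
`n v(λ) = U.w ord_t g₁ + ord_t ū (v d₂ - v d₁)`.
-/

set_option autoImplicit false
set_option linter.style.haveILetI false
set_option linter.unusedSectionVars false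
set_option maxHeartbeats 1000000

noncomputable section

namespace FLTAgent.Lowering.P7

open AlgebraicCurve FLTAgent.Curves FLTAgent.Specialization FLTAgent.BadRed IntermediateField
open AlgebraicCurve.SemilinearAut (baseAut)
open FLTAgent.MazurPrinciple

variable {L k : Type*} [Field L] [Field k] {A : ValuationSubring L} {π : A →+* k}
  {FC Fb F : Type*} [Field FC] [Field Fb] [Field F] [Algebra L FC]
  [Algebra k Fb] [Algebra L F] [IsAlgClosed L] [IsFunctionField L FC] [IsFunctionField L F]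
  [IsAlgClosed k] [IsFunctionField k Fb] {q : ℕ} [Fact q.Prime] {S : Sheet π FC Fb F q}
  {U : UnitData S} {H : Set (SemilinearAut L F)}

variable (V : RatVal π q) (hS : S.Good) (hdeg : finrankAlong L S.β = q + 1)
  (hS' : ∀ h, (S.swap h).Good)

include V hS hdeg hS'

theorem exists_slope_nth (hH : LiftsInvariant S H)
    (hliftc : ∀ a : k, ∃ c : A, π c = a ∧ ∀ σ ∈ H, baseAut σ (c : L) = c)
    (hu : ∀ σ ∈ H, σ • U.u = U.u) {n : ℕ}
    {f : F} (hf0 : f ≠ 0) (D : Divisor L F) (hD : ∀ Q, Q.ord f = (n : ℤ) * D Q)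
    {d₁ d₂ : L} {g₁ g₂ : Fb} (hg₁ : g₁ ≠ 0) (hg₂ : g₂ ≠ 0)
    (hr₁ : S.R₁.Res (d₁ • f) g₁) (hr₂ : S.R₂.Res (d₂ • f) g₂)
    {t : Place k Fb} (ht : t ∈ U.nodes) :
    ∃ lam : L, lam ≠ 0 ∧ (∀ σ ∈ H, (∀ Q, D (σ • Q) = D Q) → baseAut σ lam = lam) ∧
      (n : ℚ) * V.v lam = U.w * (t.ord g₁ : ℚ) + (t.ord U.ub : ℚ) * (V.v d₂ - V.v d₁) := by
  classical
  haveI : CharP k q := (CharP.charP_iff_prime_eq_zero Fact.out).2 (by
    rw [← map_natCast π]; exact UnitData.map_p V)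
  set U' := U.swap hS' hdeg
  -- the thresholds near the glued points
  have hnode : ∀ t' ∈ U.nodes, ∃ ρ : ℚ, 0 < ρ ∧ ∀ Q : Place L F, InChart S Q →
      red hS Q = t' → U.theta V Q < ρ → Q.ord f = 0 ∧ ev Q f ≠ 0 ∧
        V.v (ev Q f) = -V.v d₁ + (t'.ord g₁ : ℚ) / t'.ord U.ub * U.theta V Q := by
    intro t' ht'
    obtain ⟨h1, h2⟩ := U.mem_nodes.1 ht'
    obtain ⟨ρ, hρ, hv⟩ := fun_node_value U V hS h1 h2 hg₁ hr₁
    refine ⟨ρ, hρ, fun Q hQ hred hθ => ?_⟩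
    obtain ⟨ha, hb, hc⟩ := hv Q hQ hred hθ
    refine ⟨ha, hb, ?_⟩
    have : (t'.ord U.ub : ℚ) ≠ 0 := by exact_mod_cast h2.ne'
    rw [div_mul_eq_mul_div, ← hc]
    field_simp
    ring
  choose! ρf hρf hρ' using hnode
  set ρs : Finset ℚ := insert 1 (U.nodes.image ρf)
  set ρ := ρs.min' ⟨1, Finset.mem_insert_self _ _⟩
  have hρ : 0 < ρ := by
    refine (Finset.lt_min'_iff _ _).2 ?_
    intro y hy
    simp only [ρs, Finset.mem_insert, Finset.mem_image] at hy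
    rcases hy with rfl | ⟨t', ht', rfl⟩
    exacts [one_pos, hρf t' ht']
  have hρle : ∀ t' ∈ U.nodes, ρ ≤ ρf t' := fun t' ht' =>
    Finset.min'_le _ _ (Finset.mem_insert_of_mem (Finset.mem_image_of_mem _ ht'))
  obtain ⟨B₁, hB₁⟩ := fun_general_value U V hS hg₁ hr₁
  obtain ⟨B₂v, hB₂v⟩ := fun_general_value U' V (hS' hdeg) hg₂ hr₂
  -- the two test functions
  have htZ : (0 : Divisor k Fb) ≤ Finsupp.single t 1 := Finsupp.single_nonneg.2 zero_le_one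
  have htf : ∀ P : Place k Fb, P.ord S.MC.xb < 0 → Finsupp.single t (1 : ℤ) P = 0 := fun P hP =>
    Finsupp.single_eq_of_ne fun h => by
      have := (U.mem_nodes.1 ht).1
      rw [← h] at this
      omega
  obtain ⟨m₁, hm₁⟩ := nonempty_probe hS U hH htZ htf
  obtain ⟨m₂, hm₂⟩ := nonempty_probe hS U hH (Z := (0 : Divisor k Fb)) le_rfl fun P _ => rfl
  set m := 1 + m₁ + m₂
  obtain ⟨P₁⟩ := hm₁ m (by omega) B₁
  obtain ⟨P₀⟩ := hm₂ m (by omega) B₁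
  obtain ⟨C₁, n₁, hC₁⟩ := P₁.exists_class V hS hdeg hS' B₂v hρ
  obtain ⟨C₀, n₀, hC₀⟩ := P₀.exists_class V hS hdeg hS' B₂v hρ
  obtain ⟨b₁, hb₁⟩ := P₁.exists_big (by omega)
  obtain ⟨b₀, hb₀⟩ := P₀.exists_big (by omega)
  set e := n₁ + n₀ + b₁ + b₀
  have he₁ := hb₁ e (by omega)
  have he₀ := hb₀ e (by omega)
  obtain ⟨x₁, hx₁, hx₁'⟩ := exists_ne_pow k q C₁ (fun P => ev P P₁.w ^ (e * q))
    (fun P => ev P U.ub)
  obtain ⟨x₀, hx₀, hx₀'⟩ := exists_ne_pow k q C₀ (fun P => ev P P₀.w ^ (e * q))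
    (fun P => ev P U.ub)
  obtain ⟨c₁, hc₁, hc₁H⟩ := hliftc x₁
  obtain ⟨c₀, hc₀, hc₀H⟩ := hliftc x₀
  have hc₁0 : π c₁ ≠ 0 := hc₁ ▸ hx₁
  have hc₀0 : π c₀ ≠ 0 := hc₀ ▸ hx₀
  have hav₁ : P₁.Avoids e (π c₁) C₁ :=
    ⟨fun P hP => Finsupp.single_eq_of_ne fun h => hP (h ▸ ht), htZ,
      fun P hP _ hub => hc₁ ▸ hx₁' P hP hub⟩
  have hav₀ : P₀.Avoids e (π c₀) C₀ :=
    ⟨fun P _ => rfl, le_rfl, fun P hP _ hub => hc₀ ▸ hx₀' P hP hub⟩
  set slope : Place k Fb → ℚ := fun P => (P.ord g₁ : ℚ) / P.ord U.ub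
  set W : Place L F → ℚ := fun Q =>
    if U.theta V Q = U.w then -V.v d₂
    else if red hS Q ∈ U.nodes then -V.v d₁ + slope (red hS Q) * U.theta V Q else -V.v d₁
  set y : Place L F → L := fun _ => 1
  -- the common control
  have hsame : ∀ {Q : Place L F}, Q.ord f = 0 → ev Q f ≠ 0 →
      OrdGE Q 0 f ∧ V.Near 0 (ev Q f) (y Q * ev Q f) := fun hf hne => by
    refine ⟨ordGE_of_le hf.ge, ?_⟩
    simp only [y, one_mul]
    exact V.near_refl hne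
  have hclass : ∀ {Z : Divisor k Fb} (P : Probe S U H Z B₁ m) (Q : Place L F),
      InChart S Q →
      ((red hS Q ∈ P.zeros ∧ red hS Q ∈ U.nodes ∧ U.theta V Q < ρ ∧
          U.theta V Q * ((red hS Q).ord U.ub + e * Z (red hS Q) : ℤ) =
            U.w * (red hS Q).ord U.ub) ∨
      (red hS Q ∈ P.zeros ∧ red hS Q ∉ U.nodes ∧ U.theta V Q = 0 ∧ red hS Q ∉ B₁) ∨
      (red hS Q ∉ P.zeros ∧ U.theta V Q = U.w ∧ red (hS' hdeg) Q ∉ B₂v)) →
      (Q.ord f = 0 ∧ ev Q f ≠ 0 ∧ V.v (ev Q f) = W Q ∧ OrdGE Q 0 f ∧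
        V.Near 0 (ev Q f) (y Q * ev Q f)) ∧
      (red hS Q ∈ P.zeros → y Q = 1 ∧
        ((red hS Q ∈ U.nodes ∧ U.theta V Q * ((red hS Q).ord U.ub + e * Z (red hS Q) : ℤ) =
            U.w * (red hS Q).ord U.ub ∧ W Q = -V.v d₁ + slope (red hS Q) * U.theta V Q) ∨
          (red hS Q ∉ U.nodes ∧ W Q = -V.v d₁))) ∧
      (red hS Q ∉ P.zeros → y Q = 1 ∧ W Q = -V.v d₂) := by
    intro Z P Q hQ h
    rcases h with ⟨hz, hn, hθ, hθe⟩ | ⟨hz, hn, hθ, hb⟩ | ⟨hz, hθ, hb⟩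
    · have hθ12 : U.theta V Q ≠ U.w :=
        ((U.theta_pos_of_node V hQ hS ((U.mem_nodes_iff (U.mem_nodes.1 hn).1).1 hn)).2).ne
      obtain ⟨h1, h2, h3⟩ := hρ' _ hn Q hQ rfl (hθ.trans_le (hρle _ hn))
      obtain ⟨h6, h7⟩ := hsame h1 h2
      have hW : W Q = -V.v d₁ + slope (red hS Q) * U.theta V Q := by
        simp only [W, if_neg hθ12, if_pos hn]
      exact ⟨⟨h1, h2, h3.trans hW.symm, h6, h7⟩,
        fun _ => ⟨rfl, Or.inl ⟨hn, hθe, hW⟩⟩, fun h => absurd hz h⟩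
    · have hθ12 : U.theta V Q ≠ U.w := by
        rw [hθ]; exact_mod_cast U.w_pos.ne
      obtain ⟨h1, h2, h3⟩ := hB₁ Q hQ hθ hb
      obtain ⟨h6, h7⟩ := hsame h1 h2
      have hW : W Q = -V.v d₁ := by simp only [W, if_neg hθ12, if_neg hn]
      exact ⟨⟨h1, h2, by rw [hW]; linarith, h6, h7⟩,
        fun _ => ⟨rfl, Or.inr ⟨hn, hW⟩⟩, fun h => absurd hz h⟩
    · have hθ' : U'.theta V Q = 0 := by
        rw [show U'.theta V Q = U.w - U.theta V Q from U.v_ev' V hQ, hθ, sub_self]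
      obtain ⟨h1, h2, h3⟩ := hB₂v Q (hQ.swap hS hdeg) hθ' hb
      obtain ⟨h6, h7⟩ := hsame h1 h2
      have hW : W Q = -V.v d₂ := if_pos hθ
      exact ⟨⟨h1, h2, by rw [hW]; linarith, h6, h7⟩,
        fun h => absurd h hz, fun _ => ⟨rfl, hW⟩⟩
  have hall₁ : ∀ Q ∈ finZeros S (P₁.num e (c₁ : L)), _ := fun Q hQ =>
    hclass P₁ Q (P₁.ord_pos he₁ hc₁0 V hS hQ).1 (hC₁ e (by omega) he₁ c₁ hc₁0 hav₁ Q hQ)
  have hall₀ : ∀ Q ∈ finZeros S (P₀.num e (c₀ : L)), _ := fun Q hQ =>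
    hclass P₀ Q (P₀.ord_pos he₀ hc₀0 V hS hQ).1 (hC₀ e (by omega) he₀ c₀ hc₀0 hav₀ Q hQ)
  obtain ⟨hne₁, hv₁, -⟩ := P₁.num_prod V hS he₁ hc₁0 hav₁ slope le_rfl
    (fun Q hQ => (hall₁ Q hQ).1) (fun Q hQ => (hall₁ Q hQ).2.1) (fun Q hQ => (hall₁ Q hQ).2.2)
    one_ne_zero one_ne_zero {t} (t.ord U.ub)
    (by
      ext P
      simp only [Finset.mem_singleton, Finset.mem_filter, Finsupp.single_apply]
      refine ⟨fun h => ⟨h ▸ ht, by rw [if_pos h.symm]; exact one_pos⟩, fun h => ?_⟩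
      by_contra hP
      rw [if_neg (Ne.symm hP)] at h
      exact lt_irrefl _ h.2)
    (by rw [Finset.sum_singleton])
  obtain ⟨hne₀, hv₀, -⟩ := P₀.num_prod V hS he₀ hc₀0 hav₀ slope le_rfl
    (fun Q hQ => (hall₀ Q hQ).1) (fun Q hQ => (hall₀ Q hQ).2.1) (fun Q hQ => (hall₀ Q hQ).2.2)
    one_ne_zero one_ne_zero ∅ 0 (by simp) (by simp)
  -- the quotient
  set N₁ := P₁.num e (c₁ : L)
  set N₀ := P₀.num e (c₀ : L)
  set Φ := N₁ / N₀ with hΦ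
  have h₁0 : N₁ ≠ 0 := P₁.num_ne he₁ hc₁0 V hS
  have h₀0 : N₀ ≠ 0 := P₀.num_ne he₀ hc₀0 V hS
  have hcancel : ∀ Q : Place L F, Q.ord S.X < 0 → Q.ord N₁ = Q.ord N₀ := fun Q hQ => by
    rw [P₁.ord_num_pole he₁ hc₁0 V hQ, P₀.ord_num_pole he₀ hc₀0 V hQ]
  have hevne : ∀ Q ∈ finZeros S N₁ ∪ finZeros S N₀, Q.ord f = 0 ∧ ev Q f ≠ 0 := by
    intro Q hQ
    rcases Finset.mem_union.1 hQ with h | h
    · exact ⟨(hall₁ Q h).1.1, (hall₁ Q h).1.2.1⟩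
    · exact ⟨(hall₀ Q h).1.1, (hall₀ Q h).1.2.1⟩
  obtain ⟨hsupp, hR⟩ := prod_support_div h₁0 h₀0 hcancel (φ := f) fun Q hQ => (hevne Q hQ).2
  have hΦfix : ∀ σ ∈ H, σ • Φ = Φ := fun σ hσ => by
    rw [hΦ, smul_div₀', P₁.num_fix hσ (hu σ hσ) (hc₁H σ hσ), P₀.num_fix hσ (hu σ hσ) (hc₀H σ hσ)]
  have hΦT : Transcendental L Φ := by
    obtain ⟨htf', hto⟩ := U.mem_nodes.1 ht
    have hsum := P₁.filter_red he₁ hc₁0 V hS (P := t) htf'
    rw [P₁.ord_nrm_node he₁ hc₁0 ht (hav₁.nonneg t), Finsupp.single_eq_same, if_neg one_ne_zero,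
      mul_one] at hsum
    obtain ⟨Q, hQ, -⟩ := Finset.exists_ne_zero_of_sum_ne_zero
      (s := (finZeros S N₁).filter fun Q => red hS Q = t) (f := fun Q => Q.ord N₁)
      (by rw [hsum]; positivity)
    rw [Finset.mem_filter] at hQ
    obtain ⟨hchart, hpos, -, -⟩ := P₁.ord_pos he₁ hc₁0 V hS hQ.1
    have h0 : Q.ord N₀ = 0 := by
      by_contra hne
      have hmem : Q ∈ finZeros S N₀ := mem_finZeros.2 ⟨hne, hchart.1⟩
      rcases hC₀ e (by omega) he₀ c₀ hc₀0 hav₀ Q hmem with ⟨hz, -⟩ | ⟨-, hn, -⟩ | ⟨-, hθ, -⟩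
      · have := (P₀.mem_zeros.1 hz).2
        rw [hQ.2, P₀.node t ht] at this
        exact lt_irrefl _ this
      · exact hn (hQ.2 ▸ ht)
      · exact ((U.theta_pos_of_node V hchart hS
          (hQ.2 ▸ (U.mem_nodes_iff htf').1 ht)).2).ne hθ
    refine transcendental_of_ord_ne (Q := Q) ?_
    rw [hΦ, ord_div Q h₁0 h₀0, h0, sub_zero]
    exact hpos.ne'
  have hΦ0 : Φ ≠ 0 := div_ne_zero h₁0 h₀0
  have hdisj : ∀ Q : Place L F, Q.ord Φ ≠ 0 → Q.ord f = 0 := fun Q hQ =>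
    (hevne Q (hsupp Q (Finsupp.mem_support_iff.2 (by rwa [divOf_apply])))).1
  haveI : CharZero L := V.charZero
  have hrec := reciprocity hΦT hf0 hdisj
  have hordΦ : ∀ Q ∈ (divOf L f).support, Q.ord Φ = 0 := fun Q hQ => by
    by_contra h
    rw [Finsupp.mem_support_iff, divOf_apply] at hQ
    exact hQ (hdisj Q h)
  set lam := ∏ Q ∈ (divOf L f).support, ev Q Φ ^ D Q with hlam
  have hlam0 : lam ≠ 0 :=
    Finset.prod_ne_zero_iff.2 fun Q hQ => zpow_ne_zero _ (ev_ne_zero_of_ord hΦ0 (hordΦ Q hQ))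
  have hlamn : lam ^ n = ∏ Q ∈ (divOf L Φ).support, ev Q f ^ Q.ord Φ := by
    rw [hrec, hlam, ← Finset.prod_pow]
    exact Finset.prod_congr rfl fun Q _ => by rw [hD, ← zpow_natCast, ← zpow_mul, mul_comm]
  refine ⟨lam, hlam0, fun σ hσ hσD => ?_, ?_⟩
  · have hmem : ∀ Q, σ • Q ∈ (divOf L f).support ↔ Q ∈ (divOf L f).support := fun Q => by
      simp only [Finsupp.mem_support_iff, divOf_apply, hD, hσD]
    rw [hlam, map_prod]
    refine Finset.prod_nbij' (fun Q => σ • Q) (fun Q => σ⁻¹ • Q)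
      (fun Q hQ => (hmem Q).2 hQ) (fun Q hQ => (hmem _).1 (by rwa [smul_inv_smul]))
      (fun Q _ => inv_smul_smul σ Q) (fun Q _ => smul_inv_smul σ Q) (fun Q hQ => ?_)
    rw [map_zpow₀, hσD, ← ev_smul_aut σ Q (ordGE_of_le (hordΦ Q hQ).ge), hΦfix σ hσ]
  · have h := congrArg V.v hlamn
    rw [V.v_pow hlam0, hR, V.v_div hne₁ hne₀, hv₁, hv₀, Finset.sum_singleton,
      Finset.sum_empty] at h
    rw [h]
    have : (t.ord U.ub : ℚ) ≠ 0 := by exact_mod_cast (U.mem_nodes.1 ht).2.ne'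
    simp only [slope]
    field_simp
    push_cast
    ring

end FLTAgent.Lowering.P7
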