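import Fermat.Agent.Lowering.P7.Divisible
import Fermat.Agent.Lowering.P7.Slope
import Fermat.Agent.Lowering.P7.Gluing
import Fermat.Agent.MazurPrinciple.Moved
import Fermat.Agent.MazurPrinciple.WildField
import Fermat.Agent.BadRed.Symmetry
import Fermat.Agent.Lowering.P7.Shortcuts

/-!
# Classes fixed by inertia and killed by both pushforwards: their two reductions

At a place over `q` of `X₀(Mq)`, the exchange of the two degeneracy maps exchanges the sheets; a
class of order prime to `12 q`, fixed by inertia and killed by both pushforwards, has a function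
whose first reduction has divisor congruent to a multiple of that of the measuring function at
finite points and to zero at the cusps.
-/

set_option autoImplicit false
set_option linter.style.haveILetI false
set_option linter.unusedSectionVars false
set_option synthInstance.maxHeartbeats 400000
set_option maxHeartbeats 1000000

noncomputable section

open AlgebraicCurve ModularCurve IsLocalRing

namespace FLTAgent.Lowering.P7

open FLTAgent.Curves FLTAgent.Specialization FLTAgent.BadRed FLTAgent.MazurPrinciple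
open FLTAgent.EigenLattice (pushPic isPrincipal_of_pushPic_eq_zero)
open AlgebraicCurve.SemilinearAut (baseAut)

local notation "QA" => AlgebraicClosure ℚ
local notation "GG" => (AlgebraicClosure ℚ ≃ₐ[ℚ] AlgebraicClosure ℚ)

attribute [local instance 2000] fullCAlgebra laurentAlgebra x0BarAlgebra

section Swap

variable {M q : ℕ} [NeZero M] [Fact q.Prime] [NeZero q] [NeZero (M * q)] (hqM : ¬ q ∣ M)

/-- The exchange of the degeneracy maps as an automorphism. -/
def swapEquiv : X0Bar (M * q) ≃ₐ[QA] X0Bar (M * q) :=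
  AlgEquiv.ofAlgHom (swapEnd hqM) (swapEnd hqM) (AlgHom.ext (swapEnd_swapEnd hqM))
    (AlgHom.ext (swapEnd_swapEnd hqM))

/-- The same over the constants. -/
def swapAut : SemilinearAut QA (X0Bar (M * q)) := SemilinearAut.ofAlgAut (swapEquiv hqM)

theorem swapAut_smul (f : X0Bar (M * q)) : swapAut hqM • f = swapEnd hqM f := rfl

theorem swapAut_galois (σ : GG) :
    swapAut hqM * arithmeticGalois (modularFunctionFieldFull (M * q)) σ =
      arithmeticGalois (modularFunctionFieldFull (M * q)) σ * swapAut hqM := by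
  refine Subtype.ext (Prod.ext (RingEquiv.ext fun z => ?_) (RingEquiv.ext fun c => rfl))
  exact swapEnd_galois_smul hqM σ z

/-- The exchange on classes. -/
theorem swapAut_smul_galois (σ : GG) (x : JZero (M * q)) :
    swapAut hqM • (σ • x) = σ • (swapAut hqM • x) := by
  rw [galois_smul_pic0_def, galois_smul_pic0_def, ← mul_smul, swapAut_galois, mul_smul]

end Swap

section At

variable {q : ℕ} [Fact q.Prime] [NeZero q] {M : ℕ} [NeZero M] [NeZero (M * q)] (hqM : ¬ q ∣ M)
  {A : ValuationSubring QA} [IsAlgClosed (ResidueField A)] [CharP (ResidueField A) q]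
  [Curves.IsFunctionField (ResidueField A) (modularFunctionFieldFullC (ResidueField A) M)]
  (hA : A.LiesOverPrime q)

local notation "kk" => ResidueField A
local notation "galN" => arithmeticGalois (modularFunctionFieldFull (M * q))

/-- The exchange of the two sheets. -/
def exchangeAt : Exchange (sheetAt hqM hA) where
  W := swapAut hqM
  base := rfl
  res₁ f g h := (PreSheet.sheet_res₁ (modularPre hqM residue_surjective (rankOne_residue hA))).2
    (comapReduction_res.1
      ((PreSheet.sheet_res₂ (modularPre hqM residue_surjective (rankOne_residue hA))).1 h))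
  res₂ f g h := (PreSheet.sheet_res₂ (modularPre hqM residue_surjective (rankOne_residue hA))).2
    (comapReduction_res.2 (by
      rw [swapAut_smul, swapEnd_swapEnd]
      exact (PreSheet.sheet_res₁ (modularPre hqM residue_surjective (rankOne_residue hA))).1 h))
  WX := swapEnd_alpha hqM _

theorem exists_swap_fix_of {x : JZero (M * q)} {τ : GG} (h : τ • x = x) :
    τ • (swapAut hqM • x) = swapAut hqM • x := by
  rw [← swapAut_smul_galois, h]

variable (hsm : (modularModel (π := residue A) residue_surjective M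
  (BadRed.natCast_ne_zero hqM (ResidueField A))).Smooth)
include hsm

theorem good : (sheetAt hqM hA).Good :=
  modularSheet_good hqM residue_surjective (rankOne_residue hA) hsm

theorem swap_good (h : finrankAlong QA (sheetAt hqM hA).β = q + 1) :
    ((sheetAt hqM hA).swap h).Good :=
  modularSheet_swap_good hqM residue_surjective (rankOne_residue hA) hsm h

variable {σ : GG} (hσ : A.IsFrobeniusAt σ q)
include hσ

/-- The symmetry of Frobenius. -/
abbrev frobSym : (sheetAt hqM hA).Sym := symAt hqM hA ⟨σ, hσ.mem_decompositionSubgroup⟩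

omit hsm in
theorem frobSym_V (g : modularFunctionFieldFullC kk M) :
    (sheetAt hqM hA).V ((frobSym hqM hA hσ).σb g) = g ^ q :=
  symAt_frobenius hqM hA (fun z => hσ.smul_residue_eq z) g

omit hsm in
theorem exists_V_eq (y : modularFunctionFieldFullC kk M) :
    ∃ z, (sheetAt hqM hA).V z = y ^ q :=
  ⟨_, frobSym_V hqM hA hσ y⟩

omit hsm in
/-- The two reductions of a function killed by the pushforward along `α`. -/
theorem exists_res_rel {n : ℕ} (hn : (n : kk) ≠ 0) {f : X0Bar (M * q)} (hf : f ≠ 0)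
    (D : Divisor.degZero (K := QA) (F := X0Bar (M * q)))
    (hD : ∀ v, v.ord f = (n : ℤ) * (D : Divisor QA (X0Bar (M * q))) v)
    (hα : pushPic M q (heckeAlphaBar QA M q) (Pic0.mk D) = 0)
    {d₁ d₂ : QA} {g₁ g₂ : modularFunctionFieldFullC kk M} (hg₁ : g₁ ≠ 0) (hg₂ : g₂ ≠ 0)
    (hr₁ : (sheetAt hqM hA).R₁.Res (d₁ • f) g₁) (hr₂ : (sheetAt hqM hA).R₂.Res (d₂ • f) g₂) :
    ∃ h, g₁ * (frobSym hqM hA hσ).σb g₂ = h ^ n := by
  haveI := instIsFunctionFieldX0Bar M
  haveI := instIsFunctionFieldX0Bar (M * q)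
  have hP := isPrincipal_of_pushPic_eq_zero M q (heckeAlphaBar QA M q) D hα
  have hfin : FiniteAlong QA (heckeAlphaBar QA M q) := Kronecker.finiteAlong _
  obtain ⟨c₀, h₀, -, hh₀, hn₀⟩ := Sheet.exists_norm_eq (Kronecker.isIntegralAlong _) hfin
    (Kronecker.normFormulaAlong _ hfin) hf hD hP
  exact Sheet.exists_pow_eq (S := sheetAt hqM hA) (pow_injective_fullC M q) (frobSym_V hqM hA hσ) hn
    hh₀ hn₀ hg₁ hg₂ hr₁ hr₂

/-- **The two reductions** of a class fixed by inertia and killed by both pushforwards. -/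
theorem exists_congr_rep (U : UnitData (sheetAt hqM hA))
    (hu : (U.u : LaurentSeries QA) = unitSer QA q) (hUw : U.w = 12) {n : ℕ} (hqn : ¬ q ∣ n)
    (h12 : n.Coprime 12)
    {x : JZero (M * q)} (hnx : n • x = 0) (hfix : ∀ τ ∈ A.inertiaSubgroupIn ℚ, τ • x = x)
    (hα : pushPic M q (heckeAlphaBar QA M q) x = 0) :
    ∃ (f : X0Bar (M * q)) (D : Divisor.degZero (K := QA) (F := X0Bar (M * q))) (d₁ d₂ : QA)
      (g₁ g₂ : modularFunctionFieldFullC kk M),
      f ≠ 0 ∧ (∀ v, v.ord f = (n : ℤ) * (D : Divisor QA (X0Bar (M * q))) v) ∧ Pic0.mk D = x ∧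
      g₁ ≠ 0 ∧ g₂ ≠ 0 ∧
      (sheetAt hqM hA).R₁.Res (d₁ • f) g₁ ∧ (sheetAt hqM hA).R₂.Res (d₂ • f) g₂ ∧
      (∃ h, g₁ * (frobSym hqM hA hσ).σb g₂ = h ^ n) ∧
      ∃ e : ℤ, ∀ P : Place kk (modularFunctionFieldFullC kk M),
        (0 ≤ P.ord (sheetAt hqM hA).MC.xb → (n : ℤ) ∣ P.ord g₁ - e * P.ord U.ub) ∧
        (P.ord (sheetAt hqM hA).MC.xb < 0 → (n : ℤ) ∣ P.ord g₁) := by
  classical
  haveI := instIsFunctionFieldX0Bar M
  haveI := instIsFunctionFieldX0Bar (M * q)
  have hn0 : n ≠ 0 := fun h => hqn (h ▸ dvd_zero q)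
  have hnk : (n : kk) ≠ 0 := fun h => hqn ((CharP.cast_eq_zero_iff kk q n).1 h)
  set V := ratVal hA
  obtain ⟨f, D, hf, hD, rfl, hffix⟩ :=
    exists_fixed_rep hn0 (G := (A.inertiaSubgroupIn ℚ : Set GG)) hnx hfix
  obtain ⟨d₁, d₂, g₁, g₂, hd₁, hd₂, hg₁, hg₂, hd₁G, hd₂G, hr₁, hr₂⟩ :=
    exists_fixed_scales hqM hA hsm (G := A.inertiaSubgroupIn ℚ) le_rfl hf hffix
  obtain ⟨h, hh⟩ := exists_res_rel hqM hA hσ hnk hf D hD hα hg₁ hg₂ hr₁ hr₂
  refine ⟨f, D, d₁, d₂, g₁, g₂, hf, hD, rfl, hg₁, hg₂, hr₁, hr₂, ⟨h, hh⟩, ?_⟩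
  obtain ⟨z₁, hz₁⟩ := exists_v_eq_intCast hA hd₁ hd₁G
  obtain ⟨z₂, hz₂⟩ := exists_v_eq_intCast hA hd₂ hd₂G
  have hdeg : finrankAlong QA (sheetAt hqM hA).β = q + 1 := finrankAlong_beta hqM
  have hS := good hqM hA hsm
  have hS' : ∀ h, ((sheetAt hqM hA).swap h).Good := fun h => swap_good hqM hA hsm h
  have hσg : (frobSym hqM hA hσ).σb g₂ ≠ 0 := (map_ne_zero _).2 hg₂
  have hrel : ∀ P : Place kk (modularFunctionFieldFullC kk M),
      (n : ℤ) ∣ P.ord g₁ + P.ord ((frobSym hqM hA hσ).σb g₂) := fun P => by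
    rw [← P.ord_mul hg₁ hσg, hh, Curves.ord_pow]
    exact dvd_mul_right _ _
  obtain ⟨u, hu12⟩ : ∃ u : ℤ, (n : ℤ) ∣ u * 12 - 1 := by
    have h1 := Nat.gcd_eq_gcd_ab n 12
    rw [show Nat.gcd n 12 = 1 from h12] at h1
    exact ⟨Nat.gcdB n 12, -Nat.gcdA n 12, by push_cast at h1; linarith⟩
  have hDinv : ∀ τ ∈ A.inertiaSubgroupIn ℚ, ∀ Q, (D : Divisor QA (X0Bar (M * q))) (galN τ • Q) =
      (D : Divisor QA (X0Bar (M * q))) Q := fun τ hτ Q => by
    have h := hD (galN τ • Q)
    rw [← hffix τ hτ, SemilinearAut.ord_smul, hD Q] at h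
    exact (mul_left_cancel₀ (Int.natCast_ne_zero.2 hn0) h).symm
  have hoff : ∀ P, P ∉ U.nodes → (n : ℤ) ∣ P.ord g₁ := fun P hP =>
    ord_dvd_off_nodes U V hS (Nat.pos_of_ne_zero hn0) hf (D : Divisor QA (X0Bar (M * q))) hD hd₁ hd₂
      hg₁ hg₂ hr₁ hr₂ (exists_V_eq hqM hA hσ) (frobSym_V hqM hA hσ g₂) hrel hP
  refine ⟨-(u * (z₂ - z₁)), fun P => ⟨fun hP => ?_, fun hP => hoff P fun hn => ?_⟩⟩
  swap
  · exact absurd (U.mem_nodes.1 hn).1 (not_le.2 hP)
  by_cases hn : P ∈ U.nodes
  · obtain ⟨lam, hl0, hlfix, hlv⟩ := exists_slope_nth (U := U) (H := inertiaSet A (M * q)) V hS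
      hdeg hS' (liftsInvariant_of_smooth hqM hA hsm) (exists_liftc hA _)
      (fun σ hσ => smul_unitSer hu hσ) hf (D : Divisor QA (X0Bar (M * q))) hD hg₁ hg₂ hr₁ hr₂ hn
    obtain ⟨z, hz⟩ := exists_v_eq_intCast hA hl0 fun τ hτ => by
      have h := hlfix (galN τ) ⟨τ, hτ, rfl⟩ (hDinv τ hτ)
      rwa [baseAut_arith] at h
    change (ratVal hA).v d₁ = _ at hz₁
    rw [hz, hz₁, hz₂, hUw] at hlv
    have h1 : (n : ℤ) * z = 12 * P.ord g₁ + P.ord U.ub * (z₂ - z₁) := by exact_mod_cast hlv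
    have h2 : (n : ℤ) ∣ u * (n * z) - (u * 12 - 1) * P.ord g₁ :=
      dvd_sub (dvd_mul_of_dvd_right (dvd_mul_right _ _) u) (dvd_mul_of_dvd_left hu12 _)
    convert h2 using 1
    rw [h1]
    ring
  · have hub : P.ord U.ub = 0 := by
      have h1 := (U.ub_reg P hP).le_ord U.ub_ne
      by_contra hne
      exact hn (U.mem_nodes.2 ⟨hP, lt_of_le_of_ne h1 (Ne.symm hne)⟩)
    rw [hub, mul_zero, sub_zero]
    exact hoff P hn

end At

end FLTAgent.Lowering.P7
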