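import Fermat.Agent.Lowering.P4.Interface
import Fermat.Agent.Lowering.P1.Interface

/-!
# Mazur's principle away from `p`: interface

`Seen` says that a system of traces occurs among the eigenvalues of a level. `TargetPrinciple` is
the residual principle (for `t ≥ 5`, and `t = 3` at even level), `TargetUnramifiedOld` its version in characteristic zero: a system whose
representation is unramified at a prime exactly dividing the level occurs at the level divided by
this prime.
-/

set_option autoImplicit false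

noncomputable section

namespace FLTAgent.Lowering.P7

local notation "LL" => AlgebraicClosure ℚ
local notation "GG" => (AlgebraicClosure ℚ ≃ₐ[ℚ] AlgebraicClosure ℚ)

/-- The traces `tr` occur at level `M`, away from `bad`. -/
def Seen (M : ℕ) (bad : Finset ℕ) {k : Type} [CommRing k] (tr : GG → k) : Prop :=
  ∃ (_ : NeZero M) (θ : CuspForm.heckeAlgebra M 2 (↑bad : Set ℕ) →+* k),
    ∀ (l : ℕ) (hl : l.Prime) (hlM : ¬ l ∣ M) (hlb : l ∉ (↑bad : Set ℕ)),
      ∀ V : ValuationSubring LL, V.LiesOverPrime l → ∀ σ : GG, V.IsFrobeniusAt σ l →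
        θ (CuspForm.heckeAlgebra.T hl hlM hlb) = tr σ

/-- Mazur's principle: a prime of the level at which the residual representation is unramified
can be removed, unless it is `1` modulo `p` and its Frobenius elements act by scalars. -/
def TargetPrinciple : Prop :=
  ∀ (p : ℕ) [Fact p.Prime] (D : P1.Datum p) (M t : ℕ), Squarefree M → ¬ p ∣ M →
    t.Prime → t ∣ M → (5 ≤ t ∨ t = 3 ∧ 2 ∣ M) → (∀ l : ℕ, l.Prime → l ∣ M → l ∈ D.bad) →
    (∀ V : ValuationSubring LL, V.LiesOverPrime t → ∀ σ ∈ V.inertiaSubgroupIn ℚ, D.rb σ = 1) →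
    Seen M D.bad (fun σ => trGL (D.rb σ)) → ¬ Seen (M / t) D.bad (fun σ => trGL (D.rb σ)) →
    p ∣ t - 1 ∧ ∀ V : ValuationSubring LL, V.LiesOverPrime t → ∀ φ : GG, V.IsFrobeniusAt φ t →
      ∃ a : ZMod p, (D.rb φ : Matrix (Fin 2) (Fin 2) (ZMod p)) = a • 1

/-- A system in characteristic zero, residually non-Eisenstein, unramified at a prime exactly
dividing the level, occurs at the lower level. -/
def TargetUnramifiedOld : Prop :=
  ∀ (p : ℕ) [Fact p.Prime] (M t : ℕ) (bad : Finset ℕ), 5 ≤ p → t.Prime → 5 ≤ t → t ≠ p →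
    t ∣ M → ¬ t ^ 2 ∣ M →
    p ∈ bad → (∀ l : ℕ, l.Prime → l ∣ M → l ∈ bad) →
    ∀ (A : Type) [CommRing A] [IsDomain A] [IsLocalRing A] [CharZero A] [Algebra ℤ_[p] A]
      [Module.Finite ℤ_[p] A] (r : GG →* GL (Fin 2) A),
      (∀ n : ℕ, ∃ L : IntermediateField ℚ LL, FiniteDimensional ℚ L ∧
        ∀ σ : GG, (∀ x ∈ L, σ x = x) → ∀ i j, (r σ : Matrix (Fin 2) (Fin 2) A) i j -
          (1 : Matrix (Fin 2) (Fin 2) A) i j ∈ Ideal.span {(p : A) ^ n}) →
      (∀ (n : ℕ) (σ : GG) (c : ℕ), DetCyclo.CycloExponent p n σ c →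
        detGL (r σ) - (c : A) ∈ Ideal.span {(p : A) ^ n}) →
      (∀ l : ℕ, l.Prime → l ∉ bad → ∀ V : ValuationSubring LL, V.LiesOverPrime l →
        ∀ σ ∈ V.inertiaSubgroupIn ℚ, r σ = 1) →
      (∀ V : ValuationSubring LL, V.LiesOverPrime t → ∀ σ ∈ V.inertiaSubgroupIn ℚ, r σ = 1) →
      (∃ g h : GG, IsUnit (trGL (r (g * h * g⁻¹ * h⁻¹)) - 2)) →
      Seen M bad (fun σ => trGL (r σ)) → Seen (M / t) bad (fun σ => trGL (r σ))

end FLTAgent.Lowering.P7
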