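import Fermat.Agent.MazurPrinciple.PowerDiv

/-!
# The divisors of the reductions are divisible off the glued points: orders prime to `q`

For `f` with divisor `n D`, `n` invertible in the residue field, the reductions of
`L(D + m · poles)` satisfy one linear condition at each glued point where the first reduction has
order divisible by `n`. Counting dimensions shows that these orders are divisible by `n` at every
other point, the cusps included.
-/

set_option autoImplicit false
set_option linter.style.haveILetI false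
set_option linter.unusedSectionVars false
set_option maxHeartbeats 1000000

noncomputable section

namespace FLTAgent.Lowering.P7

open AlgebraicCurve FLTAgent.Curves FLTAgent.Specialization FLTAgent.BadRed IntermediateField
open FLTAgent.MazurPrinciple

variable {L k : Type*} [Field L] [Field k] {A : ValuationSubring L} {π : A →+* k}
  {FC Fb F : Type*} [Field FC] [Field Fb] [Field F] [Algebra L FC]
  [Algebra k Fb] [Algebra L F] [IsAlgClosed L] [IsFunctionField L FC] [IsFunctionField L F]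
  [IsAlgClosed k] [IsFunctionField k Fb] {q : ℕ}

theorem fdiv_nth (n : ℕ) (D : Divisor k Fb) (P : Place k Fb) : fdiv n D P = D P / (n : ℤ) :=
  Finsupp.mapRange_apply

/-- The `n`-th root of the leading value of `w ^ n * g` at a point where `n ∣ ord g`. -/
theorem exists_functional {P : Place k Fb} {g : Fb} (hg : g ≠ 0) {n : ℕ} (hn : 0 < n)
    (hdvd : (n : ℤ) ∣ P.ord g) (W : Submodule k Fb)
    (hW : ∀ w ∈ W, OrdGE P (-(P.ord g / (n : ℤ))) w) :
    ∃ φ : W →ₗ[k] k,
      (∀ (w w' : W) (j l : ℕ), j + l = n →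
        ev P ((w : Fb) ^ j * (w' : Fb) ^ l * g) = φ w ^ j * φ w' ^ l) ∧
      ∀ w : W, φ w = 0 → OrdGE P (-(P.ord g / (n : ℤ)) + 1) (w : Fb) := by
  obtain ⟨γ, hγ, hγc⟩ := exists_ord_eq_int P (P.ord g / (n : ℤ))
  have hγn : γ ^ n ≠ 0 := pow_ne_zero _ hγ
  have hu : P.ord (g / γ ^ n) = 0 := by
    rw [ord_div P hg hγn, ord_pow, hγc, Int.mul_ediv_cancel' hdvd, sub_self]
  have hu' : OrdGE P 0 (g / γ ^ n) := ordGE_of_le hu.ge
  obtain ⟨κ, hκ⟩ := IsAlgClosed.exists_pow_nat_eq (ev P (g / γ ^ n)) hn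
  have hκ0 : κ ≠ 0 := fun h => ev_ne_zero_of_ord (div_ne_zero hg hγn) hu (by
    rw [← hκ, h, zero_pow hn.ne'])
  have hreg : ∀ w : W, OrdGE P 0 ((w : Fb) * γ) := fun w => by
    simpa [hγc] using (hW _ w.2).mul (ordGE_of_le hγc.ge)
  refine ⟨{ toFun := fun w => κ * ev P ((w : Fb) * γ)
            map_add' := fun a b => by
              rw [Submodule.coe_add, add_mul, ev_add P (hreg a) (hreg b), mul_add]
            map_smul' := fun c a => by
              rw [Submodule.coe_smul, smul_mul_assoc, ev_smul P c (hreg a), RingHom.id_apply,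
                smul_eq_mul, mul_left_comm] }, fun w w' j l hjl => ?_, fun w hw => ?_⟩
  · show _ = (κ * ev P ((w : Fb) * γ)) ^ j * (κ * ev P ((w' : Fb) * γ)) ^ l
    have e : (w : Fb) ^ j * (w' : Fb) ^ l * g =
        ((w : Fb) * γ) ^ j * ((w' : Fb) * γ) ^ l * (g / γ ^ n) := by
      rw [mul_pow, mul_pow, ← hjl, pow_add]
      field_simp
    have h1 : OrdGE P 0 (((w : Fb) * γ) ^ j) := by simpa using (hreg w).pow j
    have h2 : OrdGE P 0 (((w' : Fb) * γ) ^ l) := by simpa using (hreg w').pow l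
    rw [e, ev_mul P (by simpa using h1.mul h2) hu', ev_mul P h1 h2, ev_pow P (hreg w),
      ev_pow P (hreg w'), ← hκ, ← hjl, pow_add]
    ring
  · have h1 := (ev_eq_zero_iff P (hreg w)).1 ((mul_eq_zero.1 hw).resolve_left hκ0)
    have h2 := h1.mul (ordGE_of_le (f := γ⁻¹) (v := P) (c := -(P.ord g / (n : ℤ)))
      (by rw [P.ord_inv, hγc]))
    rw [mul_assoc, mul_inv_cancel₀ hγ, mul_one, add_comm] at h2
    exact h2

/-- Two families of functionals with equal mixed products differ by a root of unity. -/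
theorem exists_ratio {M : Type*} (I : Set M) {n : ℕ} (hn : 0 < n) (a b : M → k)
    (h : ∀ x ∈ I, ∀ y ∈ I, ∀ j l, j + l = n → a x ^ j * a y ^ l = b x ^ j * b y ^ l) :
    ∃ ζ : k, ζ ≠ 0 ∧ ∀ x ∈ I, b x = ζ * a x := by
  have hself : ∀ x ∈ I, a x ^ n = b x ^ n := fun x hx => by
    simpa using h x hx x hx n 0 (add_zero n)
  by_cases h0 : ∃ x ∈ I, a x ≠ 0
  · obtain ⟨x₀, hx₀, ha⟩ := h0
    have hb : b x₀ ≠ 0 := fun hb => pow_ne_zero n ha (by
      rw [hself x₀ hx₀, hb, zero_pow hn.ne'])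
    refine ⟨b x₀ / a x₀, div_ne_zero hb ha, fun x hx => ?_⟩
    have h1 := h x₀ hx₀ x hx (n - 1) 1 (Nat.sub_add_cancel hn)
    rw [pow_one, pow_one] at h1
    have h2 := hself x₀ hx₀
    rw [← Nat.sub_add_cancel hn, pow_succ, pow_succ] at h2
    refine mul_left_cancel₀ (pow_ne_zero (n - 1) hb) ?_
    rw [← h1]
    field_simp
    linear_combination (a x) * h2
  · push Not at h0
    refine ⟨1, one_ne_zero, fun x hx => ?_⟩
    have := hself x hx
    rw [h0 x hx, zero_pow hn.ne'] at this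
    rw [h0 x hx, mul_zero]
    exact (pow_eq_zero_iff hn.ne').1 this.symm

variable [Fact q.Prime] [CharP k q] {S : Sheet π FC Fb F q}
  (U : UnitData S) (V : RatVal π q) (hS : S.Good)
include U V hS

/-- **Divisibility off the glued points.** -/
theorem ord_dvd_off_nodes {n : ℕ} (hn : 0 < n) {f : F} (hf0 : f ≠ 0) (D : Divisor L F)
    (hD : ∀ Q, Q.ord f = (n : ℤ) * D Q) {d₁ d₂ : L} (hd₁ : d₁ ≠ 0) (hd₂ : d₂ ≠ 0) {g₁ g₂ ψ₀ : Fb}
    (hg₁ : g₁ ≠ 0) (hg₂ : g₂ ≠ 0) (hr₁ : S.R₁.Res (d₁ • f) g₁) (hr₂ : S.R₂.Res (d₂ • f) g₂)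
    (hsurj : ∀ y : Fb, ∃ z, S.V z = y ^ q) (hψ₀ : S.V ψ₀ = g₂ ^ q)
    (hrel : ∀ P : Place k Fb, (n : ℤ) ∣ P.ord g₁ + P.ord ψ₀)
    {P₀ : Place k Fb} (hP₀ : P₀ ∉ U.nodes) : (n : ℤ) ∣ P₀.ord g₁ := by
  classical
  by_contra hbad
  have hq : q.Prime := Fact.out
  have hn0 : (0 : ℤ) < (n : ℤ) := by exact_mod_cast hn
  have hψ0 : ψ₀ ≠ 0 := fun h => hg₂ (by
    rw [h, map_zero] at hψ₀
    exact (pow_eq_zero_iff hq.ne_zero).1 hψ₀.symm)
  obtain ⟨N⟩ := hS.nonempty_nodes
  obtain ⟨d, hd⟩ := IsAlgClosed.exists_pow_nat_eq (d₁ / d₂) hn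
  have hd0 : d ≠ 0 := fun h => by
    rw [h, zero_pow hn.ne', eq_comm, div_eq_zero_iff] at hd
    exact hd.elim hd₁ hd₂
  set E₁ := fdiv n (divOf k g₁)
  set E₀ := fdiv n (divOf k ψ₀)
  set good : Finset (Fin N.n) := Finset.univ.filter fun i => (n : ℤ) ∣ (point N i).ord g₁
  set T : Finset (Place k Fb) := good.image (point N)
  have hTcard : T.card = good.card := Finset.card_image_of_injective _ (point_injective N)
  set Bad : Finset (Place k Fb) := (divOf k g₁).support.filter fun P => ¬ (n : ℤ) ∣ P.ord g₁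
  have hBad : ∀ P, P ∈ Bad ↔ ¬ (n : ℤ) ∣ P.ord g₁ := fun P => by
    simp only [Bad, Finset.mem_filter, Finsupp.mem_support_iff, divOf_apply, and_iff_right_iff_imp]
    exact fun h h0 => h (h0 ▸ dvd_zero _)
  have hcount : N.n + 1 ≤ Bad.card + good.card := by
    have h1 : insert P₀ ((Finset.univ.filter fun i => ¬ (n : ℤ) ∣ (point N i).ord g₁).image
        (point N)) ⊆ Bad := by
      intro P hP
      rw [Finset.mem_insert, Finset.mem_image] at hP
      rw [hBad]
      rcases hP with rfl | ⟨i, hi, rfl⟩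
      · exact hbad
      · exact (Finset.mem_filter.1 hi).2
    have h2 := Finset.card_le_card h1
    rw [Finset.card_insert_of_notMem fun h => by
        obtain ⟨i, -, rfl⟩ := Finset.mem_image.1 h
        exact hP₀ (point_mem_nodes N U V i),
      Finset.card_image_of_injective _ (point_injective N)] at h2
    have h3 := Finset.card_filter_add_card_filter_not (s := (Finset.univ : Finset (Fin N.n)))
      (fun i => (n : ℤ) ∣ (point N i).ord g₁)
    rw [Finset.card_univ, Fintype.card_fin] at h3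
    have hg : good.card = (Finset.univ.filter fun i => (n : ℤ) ∣ (point N i).ord g₁).card := rfl
    omega
  -- the degrees of the rounded divisors
  have hdeg : Divisor.degree E₁ + Divisor.degree E₀ = -(Bad.card : ℤ) := by
    have hsum : (n : ℤ) • (E₁ + E₀ + ∑ P ∈ Bad, Finsupp.single P (1 : ℤ)) =
        divOf k g₁ + divOf k ψ₀ := by
      refine Finsupp.ext fun P => ?_
      rw [Finsupp.smul_apply, Finsupp.add_apply, Finsupp.add_apply, Finsupp.finsetSum_apply,
        Finsupp.add_apply, fdiv_nth, fdiv_nth, divOf_apply, divOf_apply, smul_eq_mul]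
      simp only [Finsupp.single_apply, Finset.sum_ite_eq', hBad]
      obtain ⟨c, hc⟩ := hrel P
      have e1 := Int.emod_def (P.ord g₁) (n : ℤ)
      have e2 := Int.emod_def (P.ord ψ₀) (n : ℤ)
      have a1 := Int.emod_nonneg (P.ord g₁) hn0.ne'
      have a2 := Int.emod_nonneg (P.ord ψ₀) hn0.ne'
      have b1 := Int.emod_lt_of_pos (P.ord g₁) hn0
      have b2 := Int.emod_lt_of_pos (P.ord ψ₀) hn0
      set x := P.ord g₁ % (n : ℤ) with hx
      set y := P.ord ψ₀ % (n : ℤ)
      have hxy : x + y = (n : ℤ) * (c - P.ord g₁ / n - P.ord ψ₀ / n) := by linarith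
      have hlt : c - P.ord g₁ / n - P.ord ψ₀ / n < 2 := by nlinarith
      have hge : 0 ≤ c - P.ord g₁ / n - P.ord ψ₀ / n := by nlinarith
      rcases (by omega : c - P.ord g₁ / n - P.ord ψ₀ / n = 0 ∨
        c - P.ord g₁ / n - P.ord ψ₀ / n = 1) with he | he <;> rw [he] at hxy
      · rw [if_neg (not_not.2 (Int.dvd_of_emod_eq_zero (by omega)))]
        linarith
      · rw [if_pos fun h => ?_]
        · linarith
        · have := Int.emod_eq_zero_of_dvd h
          omega
    have h := congrArg Divisor.degree hsum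
    rw [map_zsmul, map_add, map_add, map_add, degree_divOf, degree_divOf, map_sum] at h
    simp only [degree_single', mul_one, Finset.sum_const, nsmul_eq_mul, smul_eq_mul, add_zero,
      mul_eq_zero, hn0.ne', false_or] at h
    linarith
  -- the parameter
  obtain ⟨c₁, hR⟩ := hS.finrank_rimg
  obtain ⟨c₂, hTg⟩ := hS.finrank_targ
  obtain ⟨j₁, hj₁⟩ := S.MC.exists_le_mul
    (rBound k Fb + Bad.card + good.card + |Divisor.degree E₁| + |Divisor.degree E₀| + 1)
  set m := N.m₀ + c₁ + c₂ + j₁ + (rBound L F).toNat + 1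
  have hjm := hj₁ m (by omega)
  have hjqm := hj₁ (q * m) (le_trans (by omega) (Nat.le_mul_of_pos_left m hq.pos))
  have habs₁ := abs_nonneg (Divisor.degree E₁)
  have habs₀ := abs_nonneg (Divisor.degree E₀)
  -- the spaces
  set W₁ := riemannRochSpace (E₁ + (m : ℤ) • poleDiv k S.MC.xb)
  set W₀ := riemannRochSpace (E₀ + ((q * m : ℕ) : ℤ) • poleDiv k S.MC.xb)
  let W₂ : Submodule k Fb :=
    { carrier := {w | ∃ w₀ ∈ W₀, S.V w₀ = w ^ q}
      zero_mem' := ⟨0, zero_mem _, by rw [map_zero, zero_pow hq.ne_zero]⟩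
      add_mem' := by
        rintro a b ⟨a₀, ha, ha'⟩ ⟨b₀, hb, hb'⟩
        haveI : CharP Fb q := charP_fb k q
        exact ⟨a₀ + b₀, add_mem ha hb, by rw [map_add, ha', hb', add_pow_char]⟩
      smul_mem' := by
        rintro c a ⟨a₀, ha, ha'⟩
        exact ⟨c ^ q • a₀, Submodule.smul_mem _ _ ha, by rw [map_smul, ha', _root_.smul_pow]⟩ }
  choose w₀ hw₀ hw₀V using fun x : W₂ => x.2
  have hw₀add : ∀ a b : W₂, w₀ (a + b) = w₀ a + w₀ b := fun a b => S.V_injective (by
    haveI : CharP Fb q := charP_fb k q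
    rw [map_add, hw₀V, hw₀V, hw₀V, Submodule.coe_add, add_pow_char])
  have hw₀smul : ∀ (c : k) (a : W₂), w₀ (c • a) = c ^ q • w₀ a := fun c a => S.V_injective (by
    rw [map_smul, hw₀V, hw₀V, Submodule.coe_smul, _root_.smul_pow])
  -- taking roots
  let root : (W₀ →ₗ[k] k) → (W₂ →ₗ[k] k) := fun φ => rootLinear (p := q)
    (fun a => φ ⟨w₀ a, hw₀ a⟩)
    (fun a b => by rw [← map_add]; exact congrArg φ (Subtype.ext (hw₀add a b)))
    (fun c a => by rw [← smul_eq_mul, ← map_smul]; exact congrArg φ (Subtype.ext (hw₀smul c a)))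
  have hroot : ∀ φ a, root φ a ^ q = φ ⟨w₀ a, hw₀ a⟩ := fun φ a => by
    simp only [root, rootLinear_apply, proot_pow]
  have hfl : ∀ {g : Fb} {r : ℕ} {v : Place k Fb}, 0 ≤ v.ord S.MC.xb →
      ∀ w ∈ riemannRochSpace (fdiv n (divOf k g) + (r : ℤ) • poleDiv k S.MC.xb),
      OrdGE v (-(v.ord g / (n : ℤ))) w := fun {g r v} hv w hw => by
    refine (mem_rrSpace.1 hw v).mono ?_
    rw [Finsupp.add_apply, Finsupp.smul_apply, poleDiv_eq_zero hv, smul_zero, add_zero, fdiv_nth,
      divOf_apply]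
  -- the functionals at the good points
  have hgood : ∀ i : good, (n : ℤ) ∣ (point N i.1).ord g₁ := fun i =>
    (Finset.mem_filter.1 i.2).2
  have hgood₀ : ∀ i : good, (n : ℤ) ∣ (point N i.1).ord ψ₀ := fun i =>
    (dvd_add_right (hgood i)).1 (hrel _)
  choose φ₁ hφ₁ hφ₁z using fun i : good =>
    exists_functional hg₁ hn (hgood i) W₁ fun w hw => hfl (point_finite N i.1) w hw
  choose φ₀ hφ₀ hφ₀z using fun i : good =>
    exists_functional hψ0 hn (hgood₀ i) W₀ fun w hw => hfl (point_finite N i.1) w hw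
  -- the reductions of the twisted space
  set G := D + (m : ℤ) • poleDiv L S.X
  have hDdeg : Divisor.degree D = 0 := by
    have h : (n : ℤ) • D = divOf L f := Finsupp.ext fun v => by
      rw [Finsupp.smul_apply, smul_eq_mul, divOf_apply, hD]
    have h' := congrArg Divisor.degree h
    rw [map_zsmul, degree_divOf, smul_eq_mul, mul_eq_zero] at h'
    exact h'.resolve_left hn0.ne'
  set I := (S.pair d).image (riemannRochSpace G)
  have hIdim : Module.finrank k I = Module.finrank k (S.rimg m) := by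
    rw [LRed.finrank_image (S.orth hd0) S.MC.surj, Sheet.rimg,
      LRed.finrank_image S.orth_one S.MC.surj]
    have h := le_degree_poles (K := L) S.transcendental_X (c := rBound L F) (m := m)
      (by have := Int.self_le_toNat (rBound L F); omega)
    have e1 := ell_eq (K := L) (F := F) h
    have e2 := ell_eq (K := L) (F := F) (G := G) (by rw [map_add, hDdeg, zero_add]; exact h)
    rw [map_add, hDdeg, zero_add, ← e1] at e2
    simp only [ell] at e2
    exact_mod_cast e2
  set d₁f := d₁ • f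
  have hfd : d₁f ≠ 0 := smul_ne_zero hd₁ hf0
  have hpoles : ∀ {u u' : F}, u ∈ riemannRochSpace G → u' ∈ riemannRochSpace G →
      ∀ j l, j + l = n →
      u ^ j * u' ^ l * d₁f ∈ riemannRochSpace (((n * m : ℕ) : ℤ) • poleDiv L S.X) := by
    intro u u' hu hu' j l hjl
    refine mem_rrSpace.2 fun v => ((((mem_rrSpace.1 hu v).pow j).mul
      ((mem_rrSpace.1 hu' v).pow l)).mul (ordGE_ord v d₁f)).mono (le_of_eq ?_)
    have hord : v.ord d₁f = (n : ℤ) * D v := by
      simp only [d₁f, Algebra.smul_def]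
      rw [v.ord_mul ((_root_.map_ne_zero _).2 hd₁) hf0, ord_algebraMap, hD, zero_add]
    rw [hord, Finsupp.add_apply, Finsupp.smul_apply, Finsupp.smul_apply, smul_eq_mul, smul_eq_mul,
      ← hjl]
    push_cast
    ring
  have hpair : ∀ {u u' : F} {g g' : Fb × Fb}, (S.pair d).Res u g → (S.pair d).Res u' g' →
      ∀ j l, j + l = n → (S.pair 1).Res (u ^ j * u' ^ l * d₁f)
        (g.1 ^ j * g'.1 ^ l * g₁, g.2 ^ j * g'.2 ^ l * g₂) := by
    intro u u' g g' hu hu' j l hjl
    refine ⟨((hu.1.pow j).mul (hu'.1.pow l)).mul hr₁, ?_⟩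
    have h := ((hu.2.pow j).mul (hu'.2.pow l)).mul hr₂
    rw [one_smul]
    convert h using 1
    simp only [d₁f, Algebra.smul_def]
    rw [show algebraMap L F d₁ = algebraMap L F (d₁ / d₂) * algebraMap L F d₂ by
      rw [← map_mul, div_mul_cancel₀ _ hd₂], ← hd, map_pow, ← hjl, pow_add]
    ring
  have hIle' : ∀ g ∈ I, g.1 ∈ W₁ ∧ g.2 ∈ W₂ := by
    intro g hg
    obtain ⟨u, hu, hres⟩ := (LRed.mem_image S.MC.surj).1 hg
    have hF' := hpair hres hres n 0 (add_zero n)
    simp only [pow_zero, mul_one] at hF'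
    have hF'mem := hpoles hu hu n 0 (add_zero n)
    rw [pow_zero, mul_one] at hF'mem
    obtain ⟨ht1, ht2⟩ := S.res_mem_poles hF'mem hF'
    constructor
    · refine mem_rrSpace.2 fun v => ?_
      rcases eq_or_ne g.1 0 with h0 | h0
      · exact Or.inl h0
      have h := (mem_rrSpace.1 ht1 v).le_ord (mul_ne_zero (pow_ne_zero _ h0) hg₁)
      rw [v.ord_mul (pow_ne_zero _ h0) hg₁, ord_pow, Finsupp.smul_apply, smul_eq_mul] at h
      rw [Finsupp.add_apply, Finsupp.smul_apply, smul_eq_mul, fdiv_nth, divOf_apply]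
      refine ordGE_of_le ?_
      push_cast at h
      have := (Int.le_ediv_iff_mul_le hn0).2
        (show (-(v.ord g.1 + (m : ℤ) * poleDiv k S.MC.xb v)) * (n : ℤ) ≤ v.ord g₁ by linarith)
      omega
    · obtain ⟨y, hy⟩ := hsurj g.2
      refine ⟨y, mem_rrSpace.2 fun v => ?_, hy⟩
      rcases eq_or_ne y 0 with h0 | h0
      · exact Or.inl h0
      have hy' : y ^ n * ψ₀ ∈
          riemannRochSpace (((q * (n * m) : ℕ) : ℤ) • poleDiv k S.MC.xb) :=
        bound_below (z := g.2 ^ n * g₂)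
          (by rw [map_mul, map_pow, hy, hψ₀, mul_pow, ← pow_mul, ← pow_mul, mul_comm q n]) ht2
      have h := (mem_rrSpace.1 hy' v).le_ord (mul_ne_zero (pow_ne_zero _ h0) hψ0)
      rw [v.ord_mul (pow_ne_zero _ h0) hψ0, ord_pow, Finsupp.smul_apply, smul_eq_mul] at h
      rw [Finsupp.add_apply, Finsupp.smul_apply, smul_eq_mul, fdiv_nth, divOf_apply]
      refine ordGE_of_le ?_
      push_cast at h ⊢
      have := (Int.le_ediv_iff_mul_le hn0).2
        (show (-(v.ord y + ((q : ℤ) * m) * poleDiv k S.MC.xb v)) * (n : ℤ) ≤ v.ord ψ₀ by linarith)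
      omega
  have hflreg : ∀ {g : Fb} {r : ℕ}, g ≠ 0 → ∀ a ∈ riemannRochSpace
      (fdiv n (divOf k g) + (r : ℤ) • poleDiv k S.MC.xb), ∀ b ∈ riemannRochSpace
      (fdiv n (divOf k g) + (r : ℤ) • poleDiv k S.MC.xb), ∀ j l, j + l = n →
      a ^ j * b ^ l * g ∈ S.regular := fun {g r} hg a ha b hb j l hjl v hv => by
    refine (((hfl hv a ha).pow j).mul ((hfl hv b hb).pow l)).mul (ordGE_ord v g) |>.mono ?_
    have := Int.ediv_mul_le (v.ord g) hn0.ne'
    have e : ((j : ℤ) + l) = n := by exact_mod_cast hjl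
    rw [← add_mul, e]
    nlinarith
  -- the ratios
  have hzeta : ∀ i : good, ∃ ζ : k, ζ ≠ 0 ∧ ∀ x ∈ {x : W₁ × W₂ | ((x.1 : Fb), (x.2 : Fb)) ∈ I},
      root (φ₀ i) x.2 = ζ * φ₁ i x.1 := fun i => by
    refine exists_ratio _ hn (fun x : W₁ × W₂ => φ₁ i x.1) (fun x => root (φ₀ i) x.2)
      fun x hx y hy j l hjl => frobenius_inj k q ?_
    obtain ⟨u, hu, hures⟩ := (LRed.mem_image S.MC.surj).1 hx
    obtain ⟨u', hu', hures'⟩ := (LRed.mem_image S.MC.surj).1 hy
    have hc := N.compat (n * m) _ (LRed.mem_image_of_res (hpoles hu hu' j l hjl)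
      (hpair hures hures' j l hjl)) i.1
    have hr1 := hflreg hg₁ _ x.1.2 _ y.1.2 j l hjl
    have hr0 := hflreg hψ0 _ (hw₀ x.2) _ (hw₀ y.2) j l hjl
    simp only [frobenius_def] at hc ⊢
    rw [← hφ₁ i x.1 y.1 j l hjl, ← point_spec N hr1, hc, mul_pow, ← pow_mul, ← pow_mul,
      mul_comm j q, mul_comm l q, pow_mul, pow_mul, hroot, hroot,
      ← hφ₀ i ⟨_, hw₀ x.2⟩ ⟨_, hw₀ y.2⟩ j l hjl, ← point_spec N hr0, ← N.s_V i.1 _ hr0]
    have hV : S.V (w₀ x.2 ^ j * w₀ y.2 ^ l * ψ₀) =
        ((x.2 : Fb) ^ j * (y.2 : Fb) ^ l * g₂) ^ q := by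
      rw [map_mul, map_mul, map_pow, map_pow, hw₀V, hw₀V, hψ₀, mul_pow, mul_pow, ← pow_mul,
        ← pow_mul, ← pow_mul, ← pow_mul, mul_comm q j, mul_comm q l]
    have hpreg : (x.2 : Fb) ^ j * (y.2 : Fb) ^ l * g₂ ∈ S.regular :=
      (S.regular_of_rimg (LRed.mem_image_of_res (hpoles hu hu' j l hjl)
        (hpair hures hures' j l hjl))).2
    rw [hV, map_pow, N.s_pow i.1 (S.V_mem_regular hpreg)]
  choose ζ hζ hζr using hzeta
  set Λ : (W₁ × W₂) →ₗ[k] good → k := LinearMap.pi fun i =>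
    (root (φ₀ i)).comp (LinearMap.snd k W₁ W₂) - ζ i • (φ₁ i).comp (LinearMap.fst k W₁ W₂)
  have hIle : I ≤ ((LinearMap.ker Λ).map (W₁.subtype.prodMap W₂.subtype)) := fun g hg => by
    obtain ⟨h1, h2⟩ := hIle' g hg
    refine Submodule.mem_map.2 ⟨(⟨g.1, h1⟩, ⟨g.2, h2⟩), ?_, rfl⟩
    rw [LinearMap.mem_ker]
    funext i
    simp [Λ, hζr i (⟨g.1, h1⟩, ⟨g.2, h2⟩) hg]
  -- dimensions
  have hW₂le : Module.finrank k W₂ ≤ Module.finrank k W₀ ∧ FiniteDimensional k W₂ := by
    have hli : ∀ (s : Finset W₂), LinearIndependent k (fun x : s => (x : W₂)) →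
        s.card ≤ Module.finrank k W₀ := by
      intro s hs
      have hli : LinearIndependent k fun x : s => (⟨w₀ x, hw₀ x⟩ : W₀) := by
        rw [Fintype.linearIndependent_iff] at hs ⊢
        intro c hc x
        have hc' : ∑ x : s, c x • w₀ x = 0 := by simpa using congrArg Subtype.val hc
        have h := congrArg S.V hc'
        haveI : CharP Fb q := charP_fb k q
        rw [map_sum, map_zero] at h
        simp only [map_smul, hw₀V] at h
        have hcr : ∀ x, c x • ((x : W₂) : Fb) ^ q = (proot q (c x) • ((x : W₂) : Fb)) ^ q :=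
          fun x => by rw [_root_.smul_pow, proot_pow]
        rw [Finset.sum_congr rfl fun x _ => hcr x, ← sum_pow_char, pow_eq_zero_iff hq.ne_zero] at h
        have := hs (fun x => proot q (c x)) (Subtype.ext (by simpa using h)) x
        rw [← proot_pow (p := q) (c x), this, zero_pow hq.ne_zero]
      simpa using hli.fintype_card_le_finrank
    haveI hfd : FiniteDimensional k W₂ := Module.finite_def.2 <| by
      by_contra hcon
      obtain ⟨s, -, hs, hli'⟩ := exists_linearIndependent k (Set.univ : Set W₂)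
      rw [Submodule.span_univ] at hs
      have hinf : s.Infinite := fun hfin => hcon (hs ▸ Submodule.fg_span hfin)
      obtain ⟨u, hu, hucard⟩ := hinf.exists_subset_card_eq (Module.finrank k W₀ + 1)
      have := hli u (hli'.comp (fun x : u => (⟨x.1, hu x.2⟩ : s)) fun a b h =>
        Subtype.ext (congrArg (fun z : s => z.1) h))
      omega
    refine ⟨?_, hfd⟩
    set bs := Module.finBasis k W₂
    have := hli (Finset.univ.image bs)
      (bs.linearIndependent.linearIndepOn_id.mono (by simp))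
    rwa [Finset.card_image_of_injective _ bs.injective, Finset.card_univ, Fintype.card_fin] at this
  haveI := hW₂le.2
  have hW₁dim : (Module.finrank k W₁ : ℤ) =
      Divisor.degree E₁ + (m : ℤ) * S.MC.deg + 1 - rGenus k Fb := by
    have := ell_eq (K := k) (F := Fb) (G := E₁ + (m : ℤ) • poleDiv k S.MC.xb)
      (by rw [map_add, S.MC.degree_poles_red]; have := neg_abs_le (Divisor.degree E₁); omega)
    rwa [map_add, S.MC.degree_poles_red] at this
  have hW₀dim : (Module.finrank k W₀ : ℤ) =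
      Divisor.degree E₀ + ((q * m : ℕ) : ℤ) * S.MC.deg + 1 - rGenus k Fb := by
    have := ell_eq (K := k) (F := Fb) (G := E₀ + ((q * m : ℕ) : ℤ) • poleDiv k S.MC.xb)
      (by rw [map_add, S.MC.degree_poles_red]; have := neg_abs_le (Divisor.degree E₀); omega)
    rwa [map_add, S.MC.degree_poles_red] at this
  have hΛrange : good.card ≤ Module.finrank k (LinearMap.range Λ) := by
    set Λ₁ : W₁ →ₗ[k] good → k := Λ.comp (LinearMap.inl k W₁ W₂)
    have hker : LinearMap.ker Λ₁ ≤ (riemannRochSpace (E₁ + (m : ℤ) • poleDiv k S.MC.xb -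
        ∑ t ∈ T, Finsupp.single t 1)).comap W₁.subtype := by
      intro w hw
      rw [Submodule.mem_comap, Submodule.coe_subtype]
      refine mem_rrSpace.2 fun v => ?_
      have hsum : (∑ t ∈ T, Finsupp.single t (1 : ℤ)) v = if v ∈ T then 1 else 0 := by
        rw [Finsupp.finsetSum_apply]
        simp [Finsupp.single_apply, Finset.sum_ite_eq']
      rw [Finsupp.sub_apply, hsum]
      split_ifs with hv
      · obtain ⟨i, hi, rfl⟩ := Finset.mem_image.1 hv
        have h1 := congrFun (LinearMap.mem_ker.1 hw) ⟨i, hi⟩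
        simp only [Λ₁, Λ, LinearMap.comp_apply, LinearMap.pi_apply, LinearMap.sub_apply,
          LinearMap.smul_apply, LinearMap.inl_apply, LinearMap.fst_apply, LinearMap.snd_apply,
          map_zero, zero_sub, Pi.zero_apply, neg_eq_zero, smul_eq_mul, mul_eq_zero, hζ,
          false_or] at h1
        refine (hφ₁z ⟨i, hi⟩ w h1).mono (le_of_eq ?_)
        rw [Finsupp.add_apply, Finsupp.smul_apply, poleDiv_eq_zero (point_finite N i), smul_zero,
          add_zero, fdiv_nth, divOf_apply]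
        ring
      · simpa using mem_rrSpace.1 w.2 v
    have h1 := Λ₁.finrank_range_add_finrank_ker
    have hsub : riemannRochSpace (E₁ + (m : ℤ) • poleDiv k S.MC.xb -
        ∑ t ∈ T, Finsupp.single t 1) ≤ W₁ :=
      rrSpace_le (sub_le_self _ (Finset.sum_nonneg fun t _ => Finsupp.single_nonneg.2 zero_le_one))
    have h2 := Submodule.finrank_mono hker
    rw [(Submodule.comapSubtypeEquivOfLe hsub).finrank_eq] at h2
    have h3 := ell_eq (K := k) (F := Fb)
      (G := E₁ + (m : ℤ) • poleDiv k S.MC.xb - ∑ t ∈ T, Finsupp.single t 1)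
      (by
        rw [map_sub, map_add, S.MC.degree_poles_red, map_sum]
        simp only [degree_single', mul_one, Finset.sum_const, nsmul_eq_mul]
        have := neg_abs_le (Divisor.degree E₁)
        omega)
    rw [map_sub, map_add, S.MC.degree_poles_red, map_sum] at h3
    simp only [degree_single', mul_one, Finset.sum_const, nsmul_eq_mul, hTcard] at h3
    have h4 : Module.finrank k (LinearMap.range Λ₁) ≤ Module.finrank k (LinearMap.range Λ) :=
      Submodule.finrank_mono (LinearMap.range_comp_le_range _ _)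
    simp only [ell] at h3
    omega
  have hI2 := (Submodule.finrank_mono hIle).trans (Submodule.finrank_map_le _ _)
  have hrn := Λ.finrank_range_add_finrank_ker
  rw [Module.finrank_prod] at hrn
  have hnn := finrank_rimg_add N hS (m := m) (by omega)
  have e1 := hTg m (by omega)
  rw [hIdim] at hI2
  have hdg : (S.MC.deg : ℤ) = ((Module.finrank k⟮S.MC.xb⟯ Fb : ℕ) : ℤ) := by
    rw [← S.MC.finrank_eq]; rfl
  have := hW₂le.1
  push_cast at e1 hW₀dim
  rw [hdg] at hW₁dim hW₀dim
  nlinarith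

end FLTAgent.Lowering.P7
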